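import Fermat.Agent.S23.Defs

/-! # WP3 Stabilizer: the stabiliser of `u` in `SL(2,ℤ)` is contained in `Γ₀(N)`.
Math: for `γ = !![a, b; c, d]` with `N ∤ c`, write `diag(N,1) * γ = δ * !![g, b'; 0, N / g]` with
`δ ∈ SL(2,ℤ)`, `g = gcd (N, c) < N` (Bezout on the first column).  Then
`u ∣ γ = Δ ∣ !![g, b'; 0, N/g]` is a constant times `z ↦ Δ ((g z + b') / (N / g))`, which decays
like `exp (-2π (g²/N) y)` along `z = i y`, whereas `u` decays like `exp (-2π N y)`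
(`ModularForm.exp_isBigO_discriminant`, `CuspForm.exp_decay_isBigO_discriminant`); alternatively
compare periods / first q-coefficients (`ModularForm.discriminant_qExpansion_coeff_one`).

The auxiliary lemmas (Hermite normal form, decay-rate comparison) are helper3443's
(`origin/helper3443`, `Fermat/Agent/S23/Stabilizer.lean`), moved into the sub-namespace
`Fermat.Agent.S23.Stabilizer`; the frozen statement `uFun_slash_ne` is derived at the end. -/

set_option autoImplicit false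

open UpperHalfPlane ModularForm MatrixGroups Matrix Filter Topology
open scoped Real

namespace Fermat.Agent.S23.Stabilizer

/-- Every integral 2x2 matrix of nonzero determinant is an `SL(2,ℤ)`-multiple of an upper
triangular one with positive top-left entry. -/
lemma exists_SL_mul_upper {m : ℤ} (hm : m ≠ 0) (A : FixedDetMatrix (Fin 2) ℤ m) :
    ∃ (g : SL(2, ℤ)) (B : FixedDetMatrix (Fin 2) ℤ m),
      B.1 1 0 = 0 ∧ 0 < B.1 0 0 ∧ A.1 = g.1 * B.1 := by
  induction A using FixedDetMatrices.induction_on hm with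
  | h0 A h1 h2 h3 h4 => exact ⟨1, A, h1, h2, by simp⟩
  | hS B ih =>
    obtain ⟨g, B', h1, h2, h3⟩ := ih
    refine ⟨ModularGroup.S * g, B', h1, h2, ?_⟩
    rw [FixedDetMatrices.smul_coe, h3, Matrix.SpecialLinearGroup.coe_mul, Matrix.mul_assoc]
  | hT B ih =>
    obtain ⟨g, B', h1, h2, h3⟩ := ih
    refine ⟨ModularGroup.T * g, B', h1, h2, ?_⟩
    rw [FixedDetMatrices.smul_coe, h3, Matrix.SpecialLinearGroup.coe_mul, Matrix.mul_assoc]

/-- **Hermite normal form.** For `δ ∈ SL(2,ℤ)` and `N ≥ 1` we can write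
`diag(N,1) * δ = g * β` with `g ∈ SL(2,ℤ)` and `β` upper triangular (real matrix with integer
entries `a, b; 0, d`, `a, d > 0`, `a d = N`).  Moreover `d = 1` forces `δ ∈ Γ₀(N)`. -/
theorem exists_hermite (N : ℕ) [NeZero N] (δ : SL(2, ℤ)) :
    ∃ (g : SL(2, ℤ)) (β : GL (Fin 2) ℝ) (a d : ℤ), 0 < a ∧ 0 < d ∧ a * d = N ∧
      β 0 0 = (a : ℝ) ∧ β 1 0 = 0 ∧ β 1 1 = (d : ℝ) ∧
      ModularForm.heckeDiagMatrix N * Matrix.SpecialLinearGroup.mapGL ℝ δ =
        Matrix.SpecialLinearGroup.mapGL ℝ g * β ∧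
      (d = 1 → δ ∈ CongruenceSubgroup.Gamma0 N) := by
  have hN0 : N ≠ 0 := NeZero.ne N
  have hN : (N : ℤ) ≠ 0 := by exact_mod_cast hN0
  -- the integral matrix `diag(N,1) * δ`
  let A : FixedDetMatrix (Fin 2) ℤ N := ⟨!![(N : ℤ), 0; 0, 1] * δ.1, by
    rw [Matrix.det_mul, δ.2, Matrix.det_fin_two]; simp⟩
  obtain ⟨g, B, hB10, hB00, hAB⟩ := exists_SL_mul_upper hN A
  have hBdet : B.1 0 0 * B.1 1 1 = N := by
    have := B.2
    rw [Matrix.det_fin_two, hB10] at this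
    linarith
  have hB11 : 0 < B.1 1 1 := by
    by_contra hcon
    rw [not_lt] at hcon
    have : B.1 0 0 * B.1 1 1 ≤ 0 := mul_nonpos_of_nonneg_of_nonpos hB00.le hcon
    have hNpos' : (0 : ℤ) < N := by exact_mod_cast Nat.pos_of_ne_zero hN0
    linarith
  -- the real matrix of `B`
  let β : GL (Fin 2) ℝ := .mkOfDetNeZero (B.1.map (Int.cast : ℤ → ℝ)) (by
    have : (B.1.map (Int.cast : ℤ → ℝ)).det = ((B.1.det : ℤ) : ℝ) := by
      rw [Matrix.det_fin_two, Matrix.det_fin_two]; simp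
    rw [this, B.2]
    exact_mod_cast hN)
  have hβ00 : β 0 0 = (B.1 0 0 : ℝ) := rfl
  have hβ10 : β 1 0 = (B.1 1 0 : ℝ) := rfl
  have hβ11 : β 1 1 = (B.1 1 1 : ℝ) := rfl
  refine ⟨g, β, B.1 0 0, B.1 1 1, hB00, hB11, hBdet, hβ00, by rw [hβ10, hB10]; simp, hβ11, ?_, ?_⟩
  · -- matrix identity in `GL(2, ℝ)`
    apply Matrix.GeneralLinearGroup.ext
    intro i j
    have hAB' := congrArg (fun M : Matrix (Fin 2) (Fin 2) ℤ => (M i j : ℝ)) hAB
    simp only [A] at hAB'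
    rw [Matrix.GeneralLinearGroup.coe_mul, Matrix.GeneralLinearGroup.coe_mul,
      ModularForm.val_heckeDiagMatrix hN0]
    simp only [Matrix.mul_apply, Fin.sum_univ_two] at hAB' ⊢
    fin_cases i <;> fin_cases j <;>
      simp [Matrix.SpecialLinearGroup.mapGL, β] at hAB' ⊢ <;>
      exact_mod_cast hAB'
  · intro hd
    have hB00' : B.1 0 0 = N := by
      have h' := hBdet
      rw [hd, mul_one] at h'
      exact h'
    have hentry := congrFun (congrFun hAB 1) 0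
    simp only [A, Matrix.mul_apply, Fin.sum_univ_two] at hentry
    simp [hB10, hB00'] at hentry
    rw [CongruenceSubgroup.Gamma0_mem, hentry]
    simp

lemma im_smul_upper (g : GL (Fin 2) ℝ) (h10 : g 1 0 = 0) (h00 : 0 < g 0 0) (h11 : 0 < g 1 1)
    (z : ℍ) : (g • z).im = g 0 0 / g 1 1 * z.im := by
  rw [UpperHalfPlane.im_smul_eq_div_normSq]
  have hdet : g.det.val = g 0 0 * g 1 1 := by
    rw [Matrix.GeneralLinearGroup.val_det_apply, Matrix.det_fin_two, h10]; ring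
  have hden : denom g z = ((g 1 1 : ℝ) : ℂ) := by simp [denom, h10]
  rw [hdet, hden, Complex.normSq_ofReal, abs_of_pos (mul_pos h00 h11)]
  field_simp

/-- Slash by an upper triangular matrix with positive diagonal, evaluated. -/
lemma slash_upper_apply (k : ℤ) (F : ℍ → ℂ) (g : GL (Fin 2) ℝ) (h10 : g 1 0 = 0)
    (h00 : 0 < g 0 0) (h11 : 0 < g 1 1) (z : ℍ) :
    (F ∣[k] g) z =
      F (g • z) * (((g 0 0 * g 1 1 : ℝ) : ℂ) ^ (k - 1) * ((g 1 1 : ℝ) : ℂ) ^ (-k)) := by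
  have hdet : g.det.val = g 0 0 * g 1 1 := by
    rw [Matrix.GeneralLinearGroup.val_det_apply, Matrix.det_fin_two, h10]; ring
  have hpos : 0 < g.det.val := by rw [hdet]; exact mul_pos h00 h11
  have hden : denom g z = ((g 1 1 : ℝ) : ℂ) := by simp [denom, h10]
  rw [ModularForm.slash_def]
  simp only [hden]
  rw [hdet, abs_of_pos (mul_pos h00 h11)]
  have hσ : σ g = ContinuousAlgEquiv.refl ℝ ℂ := by
    rw [σ, if_pos hpos]
  rw [hσ]
  simp
  ring

lemma heckeDiagMatrix_apply_00 (N : ℕ) [NeZero N] : ModularForm.heckeDiagMatrix N 0 0 = (N : ℝ) := by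
  have := congrFun (congrFun (ModularForm.val_heckeDiagMatrix (NeZero.ne N)) 0) 0
  simpa using this

lemma heckeDiagMatrix_apply_10 (N : ℕ) [NeZero N] : ModularForm.heckeDiagMatrix N 1 0 = 0 := by
  have := congrFun (congrFun (ModularForm.val_heckeDiagMatrix (NeZero.ne N)) 1) 0
  simpa using this

lemma heckeDiagMatrix_apply_11 (N : ℕ) [NeZero N] : ModularForm.heckeDiagMatrix N 1 1 = 1 := by
  have := congrFun (congrFun (ModularForm.val_heckeDiagMatrix (NeZero.ne N)) 1) 1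
  simpa using this

/-- If `F` is invariant under `SL(2,ℤ)` then the slash of `F ∣ diag(N,1)` by `δ ∈ SL(2,ℤ)`
is `F ∣ β` for the Hermite form `β` of `diag(N,1) δ`. -/
lemma slash_heckeDiag_slash_eq (k : ℤ) (F : ℍ → ℂ)
    (hF : ∀ γ : SL(2, ℤ), F ∣[k] (Matrix.SpecialLinearGroup.mapGL ℝ γ) = F)
    (N : ℕ) (δ g : SL(2, ℤ)) (β : GL (Fin 2) ℝ)
    (hmat : ModularForm.heckeDiagMatrix N * Matrix.SpecialLinearGroup.mapGL ℝ δ =
        Matrix.SpecialLinearGroup.mapGL ℝ g * β) :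
    (F ∣[k] ModularForm.heckeDiagMatrix N) ∣[k] (Matrix.SpecialLinearGroup.mapGL ℝ δ) =
      F ∣[k] β := by
  rw [← SlashAction.slash_mul, hmat, SlashAction.slash_mul, hF g]

/-- **Stabilizer, nonvanishing-at-infinity case.** Let `F` be `SL(2,ℤ)`-invariant of weight
`k ≠ 0` with a nonzero limit at `i∞`. If `δ ∈ SL(2,ℤ)` fixes `F ∣[k] diag(N,1)` then
`δ ∈ Γ₀(N)`. -/
theorem mem_Gamma0_of_slash_heckeDiag_eq (k : ℤ) (hk : k ≠ 0) (F : ℍ → ℂ)
    (hF : ∀ γ : SL(2, ℤ), F ∣[k] (Matrix.SpecialLinearGroup.mapGL ℝ γ) = F)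
    (c : ℂ) (hc : c ≠ 0) (hlim : Tendsto F atImInfty (𝓝 c))
    (N : ℕ) [NeZero N] (δ : SL(2, ℤ))
    (h : (F ∣[k] ModularForm.heckeDiagMatrix N) ∣[k] (Matrix.SpecialLinearGroup.mapGL ℝ δ) =
      F ∣[k] ModularForm.heckeDiagMatrix N) :
    δ ∈ CongruenceSubgroup.Gamma0 N := by
  obtain ⟨g, β, a, d, ha, hd, had, hβ00, hβ10, hβ11, hmat, hfin⟩ := exists_hermite N δ
  apply hfin
  have hNpos : (0 : ℝ) < N := by exact_mod_cast Nat.pos_of_ne_zero (NeZero.ne N)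
  have har : (0 : ℝ) < a := by exact_mod_cast ha
  have hdr : (0 : ℝ) < d := by exact_mod_cast hd
  have hadr : (a : ℝ) * d = N := by exact_mod_cast had
  rw [slash_heckeDiag_slash_eq k F hF N δ g β hmat] at h
  -- limits at `i∞` of both sides
  have h1 : Tendsto (F ∣[k] β) atImInfty
      (𝓝 (c * (((N : ℝ) : ℂ) ^ (k - 1) * ((d : ℝ) : ℂ) ^ (-k)))) := by
    have e : (F ∣[k] β) = fun z => F (β • z) *
        (((N : ℝ) : ℂ) ^ (k - 1) * ((d : ℝ) : ℂ) ^ (-k)) := by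
      funext z
      rw [slash_upper_apply k F β hβ10 (by rw [hβ00]; exact har) (by rw [hβ11]; exact hdr),
        hβ00, hβ11, hadr]
    rw [e]
    exact (hlim.comp (tendsto_smul_atImInfty hβ10)).mul_const _
  have h2 : Tendsto (F ∣[k] ModularForm.heckeDiagMatrix N) atImInfty
      (𝓝 (c * (((N : ℝ) : ℂ) ^ (k - 1) * ((1 : ℝ) : ℂ) ^ (-k)))) := by
    have e : (F ∣[k] ModularForm.heckeDiagMatrix N) =
        fun z => F (ModularForm.heckeDiagMatrix N • z) *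
          (((N : ℝ) : ℂ) ^ (k - 1) * ((1 : ℝ) : ℂ) ^ (-k)) := by
      funext z
      rw [slash_upper_apply k F _ (heckeDiagMatrix_apply_10 N)
        (by rw [heckeDiagMatrix_apply_00]; exact hNpos)
        (by rw [heckeDiagMatrix_apply_11]; exact one_pos),
        heckeDiagMatrix_apply_00, heckeDiagMatrix_apply_11, mul_one]
    rw [e]
    exact (hlim.comp (tendsto_smul_atImInfty (heckeDiagMatrix_apply_10 N))).mul_const _
  rw [h] at h1
  have huniq := tendsto_nhds_unique h1 h2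
  have hN' : ((N : ℝ) : ℂ) ^ (k - 1) ≠ 0 := zpow_ne_zero _ (by exact_mod_cast hNpos.ne')
  have hdk : ((d : ℝ) : ℂ) ^ (-k) = ((1 : ℝ) : ℂ) ^ (-k) :=
    mul_left_cancel₀ hN' (mul_left_cancel₀ hc huniq)
  have hdk' : (d : ℝ) ^ (-k) = 1 := by
    have : (((d : ℝ) ^ (-k) : ℝ) : ℂ) = ((1 : ℝ) : ℂ) := by
      rw [Complex.ofReal_zpow, hdk]; simp
    exact_mod_cast this
  have hd1 : (d : ℝ) = 1 := by
    by_contra hne
    have := (zpow_eq_one_iff_right₀ hdr.le hne).mp hdk'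
    exact hk (by linarith)
  exact_mod_cast hd1

/-- The infinite product factor of the discriminant. -/
noncomputable def deltaProd (τ : ℍ) : ℂ := ∏' n : ℕ, (1 - ModularForm.eta_q n τ) ^ 24

lemma tendsto_deltaProd : Tendsto deltaProd atImInfty (𝓝 1) :=
  ModularForm.tendsto_atImInfty_tprod_one_sub_eta_q_pow

lemma norm_discriminant_smul_upper (g : GL (Fin 2) ℝ) (h10 : g 1 0 = 0) (h00 : 0 < g 0 0)
    (h11 : 0 < g 1 1) (z : ℍ) :
    ‖ModularForm.discriminant (g • z)‖ =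
      Real.exp (-2 * π * (g 0 0 / g 1 1) * z.im) * ‖deltaProd (g • z)‖ := by
  rw [ModularForm.discriminant_eq_q_prod, norm_mul, Function.Periodic.norm_qParam]
  congr 2
  rw [UpperHalfPlane.coe_im, im_smul_upper g h10 h00 h11]
  ring

lemma tendsto_im_atImInfty : Tendsto (fun z : ℍ => z.im) atImInfty atTop :=
  tendsto_comap

/-- One-sided comparison of decay rates. -/
lemma not_lt_of_discriminant_slash_eq (g₁ g₂ : GL (Fin 2) ℝ)
    (h1 : g₁ 1 0 = 0) (h1a : 0 < g₁ 0 0) (h1d : 0 < g₁ 1 1)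
    (h2 : g₂ 1 0 = 0) (h2a : 0 < g₂ 0 0) (h2d : 0 < g₂ 1 1)
    (h : ModularForm.discriminant ∣[(12 : ℤ)] g₁ = ModularForm.discriminant ∣[(12 : ℤ)] g₂) :
    ¬ (g₁ 0 0 / g₁ 1 1 < g₂ 0 0 / g₂ 1 1) := by
  intro hlt
  set r₁ := g₁ 0 0 / g₁ 1 1 with hr₁
  set r₂ := g₂ 0 0 / g₂ 1 1 with hr₂
  obtain ⟨c₁, hc₁⟩ : ∃ c₁ : ℝ, c₁ =
      ‖(((g₁ 0 0 * g₁ 1 1 : ℝ) : ℂ) ^ ((12 : ℤ) - 1) * ((g₁ 1 1 : ℝ) : ℂ) ^ (-(12 : ℤ)))‖ :=
    ⟨_, rfl⟩
  obtain ⟨c₂, hc₂⟩ : ∃ c₂ : ℝ, c₂ =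
      ‖(((g₂ 0 0 * g₂ 1 1 : ℝ) : ℂ) ^ ((12 : ℤ) - 1) * ((g₂ 1 1 : ℝ) : ℂ) ^ (-(12 : ℤ)))‖ :=
    ⟨_, rfl⟩
  have hc₁pos : 0 < c₁ := by
    rw [hc₁, norm_pos_iff]
    apply mul_ne_zero
    · apply zpow_ne_zero
      exact_mod_cast (mul_pos h1a h1d).ne'
    · apply zpow_ne_zero
      exact_mod_cast h1d.ne'
  -- the pointwise identity of norms
  have key : ∀ z : ℍ, Real.exp (2 * π * (r₂ - r₁) * z.im) * (‖deltaProd (g₁ • z)‖ * c₁) =
      ‖deltaProd (g₂ • z)‖ * c₂ := by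
    intro z
    have hz := congrFun h z
    rw [slash_upper_apply 12 _ g₁ h1 h1a h1d, slash_upper_apply 12 _ g₂ h2 h2a h2d] at hz
    have hz' : ‖ModularForm.discriminant (g₁ • z)‖ * c₁ =
        ‖ModularForm.discriminant (g₂ • z)‖ * c₂ := by
      rw [hc₁, hc₂, ← norm_mul, ← norm_mul, hz]
    rw [norm_discriminant_smul_upper g₁ h1 h1a h1d,
      norm_discriminant_smul_upper g₂ h2 h2a h2d] at hz'
    have e2 : Real.exp (2 * π * (r₂ - r₁) * z.im) * Real.exp (-2 * π * r₂ * z.im) =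
        Real.exp (-2 * π * r₁ * z.im) := by
      rw [← Real.exp_add]; congr 1; ring
    have hpos : 0 < Real.exp (-2 * π * r₁ * z.im) := Real.exp_pos _
    have : Real.exp (-2 * π * r₁ * z.im) *
        (Real.exp (2 * π * (r₂ - r₁) * z.im) * (‖deltaProd (g₁ • z)‖ * c₁)) =
        Real.exp (-2 * π * r₁ * z.im) * (‖deltaProd (g₂ • z)‖ * c₂) := by
      calc Real.exp (-2 * π * r₁ * z.im) *
          (Real.exp (2 * π * (r₂ - r₁) * z.im) * (‖deltaProd (g₁ • z)‖ * c₁))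
          = Real.exp (2 * π * (r₂ - r₁) * z.im) *
            (Real.exp (-2 * π * r₁ * z.im) * ‖deltaProd (g₁ • z)‖ * c₁) := by ring
        _ = Real.exp (2 * π * (r₂ - r₁) * z.im) *
            (Real.exp (-2 * π * r₂ * z.im) * ‖deltaProd (g₂ • z)‖ * c₂) := by rw [hz']
        _ = (Real.exp (2 * π * (r₂ - r₁) * z.im) * Real.exp (-2 * π * r₂ * z.im)) *
            (‖deltaProd (g₂ • z)‖ * c₂) := by ring
        _ = _ := by rw [e2]
    exact mul_left_cancel₀ hpos.ne' this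
  have hP₁ : Tendsto (fun z : ℍ => ‖deltaProd (g₁ • z)‖ * c₁) atImInfty (𝓝 (1 * c₁)) := by
    have := (tendsto_deltaProd.comp (tendsto_smul_atImInfty h1)).norm
    simp only [norm_one] at this
    exact this.mul_const c₁
  have hP₂ : Tendsto (fun z : ℍ => ‖deltaProd (g₂ • z)‖ * c₂) atImInfty (𝓝 (1 * c₂)) := by
    have := (tendsto_deltaProd.comp (tendsto_smul_atImInfty h2)).norm
    simp only [norm_one] at this
    exact this.mul_const c₂
  have hE : Tendsto (fun z : ℍ => Real.exp (2 * π * (r₂ - r₁) * z.im)) atImInfty atTop := by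
    apply Real.tendsto_exp_atTop.comp
    apply Tendsto.const_mul_atTop _ tendsto_im_atImInfty
    have : 0 < r₂ - r₁ := sub_pos.mpr hlt
    positivity
  have hL : Tendsto (fun z : ℍ => Real.exp (2 * π * (r₂ - r₁) * z.im) *
      (‖deltaProd (g₁ • z)‖ * c₁)) atImInfty atTop :=
    Tendsto.atTop_mul_pos (by simpa using hc₁pos) hE hP₁
  have hL' : Tendsto (fun z : ℍ => ‖deltaProd (g₂ • z)‖ * c₂) atImInfty atTop := by
    refine hL.congr ?_
    intro z
    exact key z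
  exact not_tendsto_nhds_of_tendsto_atTop hL' _ hP₂

lemma ratio_eq_of_discriminant_slash_eq (g₁ g₂ : GL (Fin 2) ℝ)
    (h1 : g₁ 1 0 = 0) (h1a : 0 < g₁ 0 0) (h1d : 0 < g₁ 1 1)
    (h2 : g₂ 1 0 = 0) (h2a : 0 < g₂ 0 0) (h2d : 0 < g₂ 1 1)
    (h : ModularForm.discriminant ∣[(12 : ℤ)] g₁ = ModularForm.discriminant ∣[(12 : ℤ)] g₂) :
    g₁ 0 0 / g₁ 1 1 = g₂ 0 0 / g₂ 1 1 :=
  le_antisymm (not_lt.mp (not_lt_of_discriminant_slash_eq g₂ g₁ h2 h2a h2d h1 h1a h1d h.symm))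
    (not_lt.mp (not_lt_of_discriminant_slash_eq g₁ g₂ h1 h1a h1d h2 h2a h2d h))

/-- **Stabilizer, discriminant case.** If `δ ∈ SL(2,ℤ)` fixes `Δ ∣[12] diag(N,1)`
(`= N¹¹ Δ(N z)`) then `δ ∈ Γ₀(N)`. -/
theorem mem_Gamma0_of_discriminant_slash_eq (N : ℕ) [NeZero N] (δ : SL(2, ℤ))
    (h : (ModularForm.discriminant ∣[(12 : ℤ)] ModularForm.heckeDiagMatrix N) ∣[(12 : ℤ)]
        (Matrix.SpecialLinearGroup.mapGL ℝ δ) =
      ModularForm.discriminant ∣[(12 : ℤ)] ModularForm.heckeDiagMatrix N) :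
    δ ∈ CongruenceSubgroup.Gamma0 N := by
  obtain ⟨g, β, a, d, ha, hd, had, hβ00, hβ10, hβ11, hmat, hfin⟩ := exists_hermite N δ
  apply hfin
  have hN : (N : ℤ) ≠ 0 := by exact_mod_cast NeZero.ne N
  have hNpos : (0 : ℝ) < N := by exact_mod_cast Nat.pos_of_ne_zero (NeZero.ne N)
  have har : (0 : ℝ) < a := by exact_mod_cast ha
  have hdr : (0 : ℝ) < d := by exact_mod_cast hd
  have hΔ : ∀ γ : SL(2, ℤ), ModularForm.discriminant ∣[(12 : ℤ)]
      (Matrix.SpecialLinearGroup.mapGL ℝ γ) = ModularForm.discriminant :=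
    fun γ => CuspForm.discriminant.slash_action_eq' _ ⟨γ, rfl⟩
  rw [slash_heckeDiag_slash_eq 12 _ hΔ N δ g β hmat] at h
  have hratio := ratio_eq_of_discriminant_slash_eq β (ModularForm.heckeDiagMatrix N)
    hβ10 (by rw [hβ00]; exact har) (by rw [hβ11]; exact hdr)
    (heckeDiagMatrix_apply_10 N) (by rw [heckeDiagMatrix_apply_00]; exact hNpos)
    (by rw [heckeDiagMatrix_apply_11]; exact one_pos) h
  rw [hβ00, hβ11, heckeDiagMatrix_apply_00, heckeDiagMatrix_apply_11, div_one] at hratio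
  have h00 : (a : ℝ) = N * (d : ℝ) := by
    field_simp at hratio
    linarith
  have h00' : a = N * d := by exact_mod_cast h00
  have hsq : d * d = 1 := by
    have : (N : ℤ) * (d * d) = N * 1 := by
      rw [mul_one, ← mul_assoc, ← h00', had]
    exact mul_left_cancel₀ hN this
  nlinarith [hsq, hd]

end Fermat.Agent.S23.Stabilizer

namespace Fermat.Agent.S23

open UpperHalfPlane ModularForm CongruenceSubgroup
open scoped MatrixGroups ModularForm Manifold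

/-- **U3.** Elements of `SL(2,ℤ)` outside `Γ₀(N)` do not fix `u`. -/
theorem uFun_slash_ne (N : ℕ) [NeZero N] (γ : SL(2, ℤ)) (hγ : γ ∉ Gamma0 N) :
    uFun N ∣[(12 : ℤ)] γ ≠ uFun N := by
  intro h
  exact hγ (Stabilizer.mem_Gamma0_of_discriminant_slash_eq N γ h)

end Fermat.Agent.S23
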