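import Fermat.Agent.S23.Defs

/-! # WP11 IntClosed: `ℤ⟦X⟧` is integrally closed, in the form we need.
Hints: Mathlib has `UniqueFactorizationMonoid (PowerSeries ℤ)` (RingTheory/PowerSeries/Ideal.lean,
`inferInstance`), hence `IsIntegrallyClosed (PowerSeries ℤ)`.  `PowerSeries.map (Int.castRingHom ℂ)`
is injective; `ℂ⟦X⟧` is a domain; pass to fraction fields (`IsFractionRing.lift`,
`IsIntegrallyClosed.isIntegral_iff` / `IsIntegrallyClosed.algebraMap_eq_of_integral`). -/

set_option autoImplicit false

namespace Fermat.Agent.S23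

namespace IntClosed

/-- Abstract form: an element of a domain `B` that is integral over an integrally closed
subdomain `A` and is a fraction of elements of `A` lies in `A`. -/
theorem exists_preimage_of_isIntegralElem_of_mul_eq {A B : Type*} [CommRing A] [IsDomain A]
    [IsIntegrallyClosed A] [CommRing B] [IsDomain B] (φ : A →+* B) (hφ : Function.Injective φ)
    (g : B) (D P : A) (hD : D ≠ 0) (h : φ D * g = φ P)
    (hint : φ.IsIntegralElem g) : ∃ G : A, φ G = g := by
  obtain ⟨p, hp, hpg⟩ := hint
  let ψ : A →+* FractionRing B := (algebraMap B (FractionRing B)).comp φ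
  have hψ : Function.Injective ψ := (IsFractionRing.injective B (FractionRing B)).comp hφ
  let ι : FractionRing A →+* FractionRing B := IsFractionRing.lift hψ
  have hι : ∀ a : A, ι (algebraMap A (FractionRing A) a) = ψ a := fun a =>
    IsFractionRing.lift_algebraMap hψ a
  have hDK : algebraMap A (FractionRing A) D ≠ 0 := by
    simpa using (IsFractionRing.injective A (FractionRing A)).ne hD
  set x : FractionRing A := algebraMap A (FractionRing A) P / algebraMap A (FractionRing A) D with hx
  have hιx : ι x = algebraMap B (FractionRing B) g := by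
    have hψD : ψ D ≠ 0 := by
      intro h0
      exact hD (hψ (by simpa using h0))
    rw [hx, map_div₀, hι, hι]
    rw [div_eq_iff hψD]
    simp only [ψ, RingHom.comp_apply]
    rw [← map_mul, mul_comm, h]
  have hxint : IsIntegral A x := by
    refine ⟨p, hp, ?_⟩
    apply ι.injective
    rw [map_zero, Polynomial.hom_eval₂]
    have : ι.comp (algebraMap A (FractionRing A)) = ψ := RingHom.ext hι
    rw [this, hιx]
    simp only [ψ]
    rw [← Polynomial.hom_eval₂, hpg, map_zero]
  obtain ⟨y, hy⟩ := IsIntegrallyClosed.isIntegral_iff.mp hxint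
  refine ⟨y, ?_⟩
  apply IsFractionRing.injective B (FractionRing B)
  rw [← hιx, ← hy, hι]
  rfl

/-- The coefficientwise inclusion `ℤ⟦X⟧ → ℂ⟦X⟧`. -/
noncomputable abbrev φ : PowerSeries ℤ →+* PowerSeries ℂ := PowerSeries.map (Int.castRingHom ℂ)

theorem φ_injective : Function.Injective φ := by
  intro a b hab
  ext n
  have := congrArg (PowerSeries.coeff n) hab
  simpa using this

theorem isIntSeries_iff (p : PowerSeries ℂ) : IsIntSeries p ↔ ∃ P : PowerSeries ℤ, φ P = p := by
  constructor
  · intro h
    choose m hm using h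
    refine ⟨PowerSeries.mk m, ?_⟩
    ext n
    simp [hm n]
  · rintro ⟨P, rfl⟩ n
    exact ⟨P.coeff n, by simp⟩

end IntClosed

open IntClosed in
/-- **B1.** A series `x` which is a fraction of integral series and a root of a monic polynomial
with integral coefficients is integral. -/
theorem isIntSeries_of_fraction_of_monic (x E G : PowerSeries ℂ) (hE : IsIntSeries E)
    (hG : IsIntSeries G) (hE0 : E ≠ 0) (hxE : x * E = G) (μ : ℕ) (hμ : 0 < μ)
    (c : ℕ → PowerSeries ℂ) (hc : ∀ j ∈ Finset.Icc 1 μ, IsIntSeries (c j))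
    (hmonic : x ^ μ + ∑ j ∈ Finset.Icc 1 μ, c j * x ^ (μ - j) = 0) : IsIntSeries x := by
  classical
  obtain ⟨E', rfl⟩ := (isIntSeries_iff E).mp hE
  obtain ⟨G', rfl⟩ := (isIntSeries_iff G).mp hG
  have hc' : ∀ j : ℕ, ∃ C : PowerSeries ℤ, j ∈ Finset.Icc 1 μ → φ C = c j := by
    intro j
    by_cases hj : j ∈ Finset.Icc 1 μ
    · obtain ⟨C, hC⟩ := (isIntSeries_iff (c j)).mp (hc j hj)
      exact ⟨C, fun _ => hC⟩
    · exact ⟨0, fun h => absurd h hj⟩
  choose c' hc' using hc'
  have hE'0 : E' ≠ 0 := by
    rintro rfl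
    exact hE0 (map_zero _)
  rw [isIntSeries_iff]
  refine exists_preimage_of_isIntegralElem_of_mul_eq φ φ_injective x E' G' hE'0
    (by rw [mul_comm]; exact hxE) ?_
  -- the monic polynomial
  let q : Polynomial (PowerSeries ℤ) :=
    ∑ j ∈ Finset.Icc 1 μ, Polynomial.C (c' j) * Polynomial.X ^ (μ - j)
  have hqdeg : q.degree < (μ : WithBot ℕ) := by
    refine lt_of_le_of_lt (Polynomial.degree_sum_le _ _) ?_
    rw [Finset.sup_lt_iff (by exact_mod_cast WithBot.bot_lt_coe μ)]
    intro j hj
    rw [Finset.mem_Icc] at hj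
    refine lt_of_le_of_lt (Polynomial.degree_C_mul_X_pow_le _ _) ?_
    exact_mod_cast (by omega : μ - j < μ)
  refine ⟨Polynomial.X ^ μ + q, Polynomial.monic_X_pow_add hqdeg, ?_⟩
  rw [Polynomial.eval₂_add, Polynomial.eval₂_X_pow, Polynomial.eval₂_finsetSum]
  rw [← hmonic]
  congr 1
  refine Finset.sum_congr rfl fun j hj => ?_
  rw [Polynomial.eval₂_mul, Polynomial.eval₂_C, Polynomial.eval₂_X_pow, hc' j hj]

end Fermat.Agent.S23
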