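import Fermat.Agent.S23.Defs

/-! # WP5 Lagrange: `f * B = A` with `A, B` polynomials in `u` over level-one forms, `B ≠ 0`.
Math: `𝒬 = 𝒮ℒ ⧸ Γ₀(N)`, `m + 1 = Nat.card 𝒬`, `u_q, g_q` = `quotientFunc` translates.  For a
`Γ₀(N)`-form `g` of weight `w` put `Z_i(g) = ∑_q g_q * e_i({u_q'}_{q' ≠ q})`, a level-one form of
weight `w + 12 i`.  Then pointwise
`g * ∏_{q ≠ ⟦1⟧} (u - u_q) = ∑_{i ≤ m} (-1)^i Z_i(g) u^(m-i)`
(all terms `q ≠ ⟦1⟧` of `∑_q g_q ∏_{q'≠q} (X - u_q')` vanish at `X = u = u_{⟦1⟧}`).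
Take `a (m-i) = (-1)^i Z_i(f)`, `b (m-i) = (-1)^i Z_i(1)`.  `B = ∏_{q≠⟦1⟧} (u - u_q) ≠ 0` because
each factor is a nonzero holomorphic function (`hstab`) and `ℍ` is connected (cf. the proof of
`ModularForm.norm_ne_zero`).

The generic bricks (`lagrangeFun`, `discFun`, `lagrange_identity`, ...) are due to helper9503;
the glue to the frozen statement is by helper31. -/

set_option autoImplicit false

namespace Fermat.Agent.S23.Lagrange

open UpperHalfPlane SlashInvariantForm Filter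
open scoped ModularForm MatrixGroups Manifold Topology

noncomputable section

/-- Pure algebra: Lagrange interpolation identity with explicit symmetric coefficients. -/
theorem lagrange_algebra {R ι : Type*} [CommRing R] [Fintype ι] [DecidableEq ι]
    (a b : ι → R) (i₀ : ι) :
    a i₀ * ∏ i ∈ Finset.univ.erase i₀, (b i₀ - b i) =
      ∑ m ∈ Finset.range (Fintype.card ι),
        (-1) ^ m * (∑ i, a i * ∑ s ∈ (Finset.univ.erase i).powersetCard m, ∏ i' ∈ s, b i') *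
          b i₀ ^ (Fintype.card ι - 1 - m) := by
  have hpos : 0 < Fintype.card ι := Fintype.card_pos_iff.mpr ⟨i₀⟩
  have hexp : ∀ (i : ι) (x : R), ∏ i' ∈ Finset.univ.erase i, (x - b i') =
      ∑ m ∈ Finset.range (Fintype.card ι),
        (-1) ^ m * (∑ s ∈ (Finset.univ.erase i).powersetCard m, ∏ i' ∈ s, b i') *
          x ^ (Fintype.card ι - 1 - m) := by
    intro i x
    have h1 := Multiset.prod_X_sub_X_eq_sum_esymm ((Finset.univ.erase i).val.map b)
    have hcard : Multiset.card ((Finset.univ.erase i).val.map b) = Fintype.card ι - 1 := by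
      simp [Finset.card_univ]
    have h2 := congrArg (Polynomial.eval x) h1
    rw [hcard, Nat.sub_add_cancel hpos, Multiset.map_map, Polynomial.eval_multiset_prod,
      Multiset.map_map] at h2
    simp only [Function.comp_apply, Polynomial.eval_sub, Polynomial.eval_X, Polynomial.eval_C,
      Polynomial.eval_finsetSum, Polynomial.eval_mul, Polynomial.eval_pow, Polynomial.eval_neg,
      Polynomial.eval_one, Finset.esymm_map_val] at h2
    rw [← Finset.prod_eq_multiset_prod] at h2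
    rw [h2]
    exact Finset.sum_congr rfl fun m _ => by ring
  have hcollapse : ∑ i, a i * ∏ i' ∈ Finset.univ.erase i, (b i₀ - b i') =
      a i₀ * ∏ i ∈ Finset.univ.erase i₀, (b i₀ - b i) := by
    refine Finset.sum_eq_single i₀ (fun i _ hi => ?_) (fun h => absurd (Finset.mem_univ _) h)
    have : i₀ ∈ Finset.univ.erase i := Finset.mem_erase.mpr ⟨fun h => hi h.symm, Finset.mem_univ _⟩
    rw [Finset.prod_eq_zero this (sub_self _), mul_zero]
  rw [← hcollapse]
  have h3 : ∀ i, a i * ∏ i' ∈ Finset.univ.erase i, (b i₀ - b i') =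
      ∑ m ∈ Finset.range (Fintype.card ι),
        (-1) ^ m * (a i * ∑ s ∈ (Finset.univ.erase i).powersetCard m, ∏ i' ∈ s, b i') *
          b i₀ ^ (Fintype.card ι - 1 - m) := by
    intro i
    rw [hexp i (b i₀), Finset.mul_sum]
    exact Finset.sum_congr rfl fun m _ => by ring
  rw [Finset.sum_congr rfl fun i _ => h3 i, Finset.sum_comm]
  refine Finset.sum_congr rfl fun m _ => ?_
  rw [← Finset.sum_mul, ← Finset.mul_sum]

variable {𝒢 : Subgroup (GL (Fin 2) ℝ)} {F G : Type*} [FunLike F ℍ ℂ] [FunLike G ℍ ℂ] {k w : ℤ}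

local notation "𝒬" => 𝒮ℒ ⧸ (𝒢.subgroupOf 𝒮ℒ)

lemma mdiff_quotientFunc [ModularFormClass F 𝒢 k] (f : F) (q : 𝒬) : MDiff (quotientFunc f q) := by
  induction q using Quotient.inductionOn with
  | h r => exact (ModularForm.translate f r.val⁻¹).holo'

lemma isBoundedAtImInfty_quotientFunc [ModularFormClass F 𝒢 k] [𝒢.IsArithmetic] (f : F) (q : 𝒬) :
    IsBoundedAtImInfty (quotientFunc f q) := by
  induction q using Quotient.inductionOn with
  | h r =>
    obtain ⟨r, γ, rfl⟩ := r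
    rw [quotientFunc_mk, ← map_inv]
    exact ModularFormClass.bdd_at_infty_slash f γ⁻¹

lemma quotientFunc_one [SlashInvariantFormClass F 𝒢 k] (f : F) :
    quotientFunc f (⟦1⟧ : 𝒬) = ⇑f := by
  rw [quotientFunc_mk]
  simp

open Classical in
/-- `∑_q f_q * e_m (t_q' : q' ≠ q)`, the (unsigned) Lagrange interpolation coefficient. -/
def lagrangeFun [SlashInvariantFormClass F 𝒢 k] [SlashInvariantFormClass G 𝒢 w]
    [𝒢.IsFiniteRelIndex 𝒮ℒ] (f : F) (t : G) (m : ℕ) : ℍ → ℂ :=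
  let _ := Fintype.ofFinite 𝒬
  ∑ q : 𝒬, quotientFunc f q *
    ∑ s ∈ (Finset.univ.erase q).powersetCard m, ∏ q' ∈ s, quotientFunc t q'

open Classical in
/-- `∏_{q ≠ 1} (t - t_q)`, the "different" of `t`. -/
def discFun [SlashInvariantFormClass G 𝒢 w] [𝒢.IsFiniteRelIndex 𝒮ℒ] (t : G) : ℍ → ℂ :=
  let _ := Fintype.ofFinite 𝒬
  ∏ q ∈ Finset.univ.erase (⟦1⟧ : 𝒬), (⇑t - quotientFunc t q)

lemma lagrangeFun_slash [SlashInvariantFormClass F 𝒢 k] [SlashInvariantFormClass G 𝒢 w]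
    [𝒢.IsFiniteRelIndex 𝒮ℒ] (f : F) (t : G) (m : ℕ) {h : GL (Fin 2) ℝ} (hh : h ∈ 𝒮ℒ) :
    lagrangeFun f t m ∣[k + (m : ℤ) * w] h = lagrangeFun f t m := by
  classical
  let _ := Fintype.ofFinite 𝒬
  simp only [lagrangeFun, SlashAction.sum_slash]
  let σ : Equiv.Perm 𝒬 := MulAction.toPerm ((⟨h, hh⟩ : 𝒮ℒ)⁻¹)
  have key : ∀ q : 𝒬, (quotientFunc f q *
      ∑ s ∈ (Finset.univ.erase q).powersetCard m, ∏ q' ∈ s, quotientFunc t q') ∣[k + (m : ℤ) * w] h
      = quotientFunc f (σ q) *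
        ∑ s ∈ (Finset.univ.erase (σ q)).powersetCard m, ∏ q' ∈ s, quotientFunc t q' := by
    intro q
    rw [ModularForm.mul_slash, SlashAction.sum_slash, quotientFunc_smul f hh]
    have hdet : |h.det.val| = 1 := Subgroup.HasDetPlusMinusOne.abs_det hh
    rw [hdet, one_smul]
    congr 1
    have key2 : ∀ s ∈ (Finset.univ.erase q).powersetCard m,
        (∏ q' ∈ s, quotientFunc t q') ∣[(m : ℤ) * w] h = ∏ q' ∈ s, quotientFunc t (σ q') := by
      intro s hs
      have hc : s.card = m := (Finset.mem_powersetCard.mp hs).2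
      rw [show (m : ℤ) * w = w * (s.card : ℤ) by rw [hc, mul_comm], ModularForm.prod_slash]
      simp [quotientFunc_smul t hh, hdet, σ, -Matrix.GeneralLinearGroup.val_det_apply]
    rw [Finset.sum_congr rfl key2]
    refine Finset.sum_equiv σ.finsetCongr ?_ ?_
    · intro s
      simp [Finset.mem_powersetCard, Finset.subset_erase]
    · intro s _
      simp [Equiv.finsetCongr_apply, Finset.prod_map]
  rw [Finset.sum_congr rfl fun q _ => key q]
  exact Equiv.sum_comp σ (fun q => quotientFunc f q *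
    ∑ s ∈ (Finset.univ.erase q).powersetCard m, ∏ q' ∈ s, quotientFunc t q')

lemma mdiff_lagrangeFun [ModularFormClass F 𝒢 k] [ModularFormClass G 𝒢 w]
    [𝒢.IsFiniteRelIndex 𝒮ℒ] (f : F) (t : G) (m : ℕ) : MDiff (lagrangeFun f t m) := by
  unfold lagrangeFun
  exact .sum fun q _ => (mdiff_quotientFunc f q).mul
    (.sum fun s _ => .prod fun q' _ => mdiff_quotientFunc t q')

lemma isBoundedAtImInfty_lagrangeFun [ModularFormClass F 𝒢 k] [ModularFormClass G 𝒢 w]
    [𝒢.IsArithmetic] (f : F) (t : G) (m : ℕ) : IsBoundedAtImInfty (lagrangeFun f t m) := by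
  unfold lagrangeFun
  exact (boundedFilterSubalgebra ℂ atImInfty).sum_mem fun q _ =>
    (isBoundedAtImInfty_quotientFunc f q).mul
      ((boundedFilterSubalgebra ℂ atImInfty).sum_mem fun s _ =>
        BoundedAtFilter.prod s fun q' _ => isBoundedAtImInfty_quotientFunc t q')

/-- The Lagrange coefficient as a level-one modular form of weight `k + m * w`. -/
def lagrangeModularForm [ModularFormClass F 𝒢 k] [ModularFormClass G 𝒢 w] [𝒢.IsArithmetic]
    (f : F) (t : G) (m : ℕ) : ModularForm 𝒮ℒ (k + (m : ℤ) * w) where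
  toFun := lagrangeFun f t m
  slash_action_eq' h hh := lagrangeFun_slash f t m hh
  holo' := mdiff_lagrangeFun f t m
  bdd_at_cusps' {c} hc := by
    rw [OnePoint.isBoundedAt_iff_forall_SL2Z hc]
    intro γ _
    have h := lagrangeFun_slash f t m (h := Matrix.SpecialLinearGroup.mapGL ℝ γ) ⟨γ, rfl⟩
    show IsBoundedAtImInfty
      (lagrangeFun f t m ∣[k + (m : ℤ) * w] (Matrix.SpecialLinearGroup.mapGL ℝ γ))
    rw [h]
    exact isBoundedAtImInfty_lagrangeFun f t m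

@[simp] lemma coe_lagrangeModularForm [ModularFormClass F 𝒢 k] [ModularFormClass G 𝒢 w]
    [𝒢.IsArithmetic] (f : F) (t : G) (m : ℕ) :
    ⇑(lagrangeModularForm f t m) = lagrangeFun f t m := rfl

/-- **Lagrange interpolation identity**:
`f * ∏_{q ≠ 1} (t - t_q) = ∑_{m < μ} (-1)^m * lagrangeFun f t m * t ^ (μ - 1 - m)`. -/
theorem lagrange_identity [SlashInvariantFormClass F 𝒢 k] [SlashInvariantFormClass G 𝒢 w]
    [𝒢.IsFiniteRelIndex 𝒮ℒ] (f : F) (t : G) (τ : ℍ) :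
    f τ * discFun t τ =
      ∑ m ∈ Finset.range (Nat.card 𝒬),
        (-1 : ℂ) ^ m * lagrangeFun f t m τ * t τ ^ (Nat.card 𝒬 - 1 - m) := by
  classical
  let _ := Fintype.ofFinite 𝒬
  have h := lagrange_algebra (fun q : 𝒬 => quotientFunc f q τ) (fun q : 𝒬 => quotientFunc t q τ)
    (⟦1⟧ : 𝒬)
  simp only [quotientFunc_one] at h
  rw [Nat.card_eq_fintype_card]
  convert h using 2
  · simp only [discFun, Finset.prod_apply, Pi.sub_apply]
    congr!
  · simp [lagrangeFun, Finset.sum_apply, Finset.prod_apply]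

/-- If no nontrivial translate of `t` equals `t`, then `discFun t` is not identically zero. -/
lemma discFun_ne_zero [ModularFormClass G 𝒢 w] [𝒢.IsFiniteRelIndex 𝒮ℒ] (t : G)
    (ht : ∀ q : 𝒬, q ≠ ⟦1⟧ → quotientFunc t q ≠ ⇑t) : discFun t ≠ 0 := by
  classical
  intro h0
  simp only [discFun] at h0
  obtain ⟨q, hq, hq0⟩ := (UpperHalfPlane.prod_eq_zero_iff
    (f := fun q : 𝒬 => ⇑t - quotientFunc t q)
    (fun q _ => (ModularFormClass.holo t).sub (mdiff_quotientFunc t q))).mp h0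
  exact ht q (Finset.ne_of_mem_erase hq) (sub_eq_zero.mp hq0).symm

/-- The Lagrange identity, reindexed by the power of `t`. -/
theorem lagrange_identity_reflect [SlashInvariantFormClass F 𝒢 k] [SlashInvariantFormClass G 𝒢 w]
    [𝒢.IsFiniteRelIndex 𝒮ℒ] (f : F) (t : G) :
    ⇑f * discFun t =
      ∑ i ∈ Finset.range (Nat.card 𝒬 - 1 + 1),
        (((-1 : ℂ) ^ (Nat.card 𝒬 - 1 - i)) • lagrangeFun f t (Nat.card 𝒬 - 1 - i)) * ⇑t ^ i := by
  have hpos : 0 < Nat.card 𝒬 := Nat.card_pos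
  funext τ
  rw [Pi.mul_apply, lagrange_identity f t τ, Nat.sub_add_cancel hpos, Finset.sum_apply,
    ← Finset.sum_range_reflect _ (Nat.card 𝒬)]
  refine Finset.sum_congr rfl fun j hj => ?_
  have hj' : j < Nat.card 𝒬 := Finset.mem_range.mp hj
  have h1 : Nat.card 𝒬 - 1 - (Nat.card 𝒬 - 1 - j) = j := by omega
  simp only [Pi.mul_apply, Pi.smul_apply, Pi.pow_apply, smul_eq_mul, h1]

lemma isMF_of_eq {Γ : Subgroup (GL (Fin 2) ℝ)} {w w' : ℤ} (h : w = w') {F : ℍ → ℂ}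
    (hF : IsMF Γ w F) : IsMF Γ w' F := by
  subst h; exact hF

end

end Fermat.Agent.S23.Lagrange

namespace Fermat.Agent.S23

open UpperHalfPlane ModularForm CongruenceSubgroup
open scoped MatrixGroups ModularForm Manifold

/-- **T2.** Lagrange interpolation relation. -/
theorem exists_lagrange_relation (N : ℕ) [NeZero N] {k : ℤ}
    (hu : IsCF (Gamma0 N : Subgroup (GL (Fin 2) ℝ)) 12 (uFun N))
    (hstab : ∀ γ : SL(2, ℤ), γ ∉ Gamma0 N → uFun N ∣[(12 : ℤ)] γ ≠ uFun N)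
    (f : CuspForm (Gamma0 N : Subgroup (GL (Fin 2) ℝ)) k) :
    ∃ (m : ℕ) (a b : ℕ → ℍ → ℂ),
      (∀ i ∈ Finset.range (m + 1), IsMF 𝒮ℒ (k + 12 * ((m : ℤ) - i)) (a i)) ∧
      (∀ i ∈ Finset.range (m + 1), IsMF 𝒮ℒ (12 * ((m : ℤ) - i)) (b i)) ∧
      (∑ i ∈ Finset.range (m + 1), b i * uFun N ^ i) ≠ 0 ∧
      ⇑f * (∑ i ∈ Finset.range (m + 1), b i * uFun N ^ i) =
        ∑ i ∈ Finset.range (m + 1), a i * uFun N ^ i := by
  classical
  obtain ⟨t, ht⟩ := hu
  have hμpos : 0 < Nat.card (𝒮ℒ ⧸ (Gamma0 N : Subgroup (GL (Fin 2) ℝ)).subgroupOf 𝒮ℒ) :=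
    Nat.card_pos
  set μ := Nat.card (𝒮ℒ ⧸ (Gamma0 N : Subgroup (GL (Fin 2) ℝ)).subgroupOf 𝒮ℒ) with hμ
  -- the key non-vanishing input
  have hne : ∀ q : 𝒮ℒ ⧸ (Gamma0 N : Subgroup (GL (Fin 2) ℝ)).subgroupOf 𝒮ℒ, q ≠ ⟦1⟧ →
      SlashInvariantForm.quotientFunc t q ≠ ⇑t := by
    intro q
    induction q using Quotient.inductionOn with
    | h r =>
      obtain ⟨r, γ, rfl⟩ := r
      intro hq heq
      apply hq
      rw [SlashInvariantForm.quotientFunc_mk, ht] at heq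
      have hγ : γ⁻¹ ∈ Gamma0 N := by
        by_contra hcon
        apply hstab γ⁻¹ hcon
        have h0 : uFun N ∣[(12 : ℤ)] γ⁻¹ =
            uFun N ∣[(12 : ℤ)] (Matrix.SpecialLinearGroup.mapGL ℝ γ⁻¹) := rfl
        rw [h0, map_inv]
        exact heq
      have hγ' : γ ∈ Gamma0 N := by simpa using inv_mem hγ
      rw [Quotient.eq, QuotientGroup.leftRel_apply, Subgroup.mem_subgroupOf]
      simp only [mul_one, Subgroup.coe_inv]
      exact inv_mem (Subgroup.mem_map_of_mem _ hγ')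
  refine ⟨μ - 1,
    fun i => ((-1 : ℂ) ^ (μ - 1 - i)) • Lagrange.lagrangeFun f t (μ - 1 - i),
    fun i => ((-1 : ℂ) ^ (μ - 1 - i)) •
      Lagrange.lagrangeFun (1 : ModularForm (Gamma0 N : Subgroup (GL (Fin 2) ℝ)) 0) t (μ - 1 - i),
    ?_, ?_, ?_, ?_⟩
  · intro i hi
    have hi' : i ≤ μ - 1 := Nat.lt_succ_iff.mp (Finset.mem_range.mp hi)
    refine Lagrange.isMF_of_eq (w := k + ((μ - 1 - i : ℕ) : ℤ) * 12) ?_
      ⟨((-1 : ℂ) ^ (μ - 1 - i)) • Lagrange.lagrangeModularForm f t (μ - 1 - i), rfl⟩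
    rw [Nat.cast_sub hi']
    ring
  · intro i hi
    have hi' : i ≤ μ - 1 := Nat.lt_succ_iff.mp (Finset.mem_range.mp hi)
    refine Lagrange.isMF_of_eq (w := 0 + ((μ - 1 - i : ℕ) : ℤ) * 12) ?_
      ⟨((-1 : ℂ) ^ (μ - 1 - i)) • Lagrange.lagrangeModularForm
        (1 : ModularForm (Gamma0 N : Subgroup (GL (Fin 2) ℝ)) 0) t (μ - 1 - i), rfl⟩
    rw [Nat.cast_sub hi']
    ring
  · have h1 := Lagrange.lagrange_identity_reflect
      (1 : ModularForm (Gamma0 N : Subgroup (GL (Fin 2) ℝ)) 0) t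
    rw [ht] at h1
    rw [← h1]
    have h2 : (⇑(1 : ModularForm (Gamma0 N : Subgroup (GL (Fin 2) ℝ)) 0) : ℍ → ℂ) = 1 := by
      funext τ; simp
    rw [h2, one_mul]
    exact Lagrange.discFun_ne_zero t hne
  · have h1 := Lagrange.lagrange_identity_reflect
      (1 : ModularForm (Gamma0 N : Subgroup (GL (Fin 2) ℝ)) 0) t
    have h3 := Lagrange.lagrange_identity_reflect f t
    rw [ht] at h1 h3
    rw [← h1, ← h3]
    have h2 : (⇑(1 : ModularForm (Gamma0 N : Subgroup (GL (Fin 2) ℝ)) 0) : ℍ → ℂ) = 1 := by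
      funext τ; simp
    rw [h2, one_mul]

end Fermat.Agent.S23
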