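import Fermat.Agent.S23.Defs
import Fermat.Prelude.Thm_ModularForm_heckeT_slash_eq_self_of_mem_Gamma0
import Fermat.Prelude.Thm_CuspFormClass_isZeroAt_heckeT
import Fermat.Prelude.Thm_UpperHalfPlane_qCoeff_heckeT
import Fermat.Prelude.Thm_UpperHalfPlane_qCoeff_heckeU
import Fermat.Prelude.Thm_ModularForm_periodic_heckeU_comp_ofComplex
import Fermat.Prelude.Thm_ModularForm_periodic_heckeT_comp_ofComplex
import Fermat.Prelude.Thm_ModularForm_mdifferentiable_heckeU
import Fermat.Prelude.Thm_ModularForm_mdifferentiable_heckeT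
import Fermat.Prelude.Thm_ModularForm_isBoundedAtImInfty_heckeU
import Fermat.Prelude.Thm_ModularForm_isBoundedAtImInfty_heckeT

/-! # WP2 LevelRaise: `u = Δ ∣[12] diag(N,1)` is a cusp form on `Γ₀(N)` with rational q-expansion.

Proof (helper1650).  Invariance: `diag(N,1) * γ = γ' * diag(N,1)` with `γ' ∈ SL(2,ℤ)` for
`γ ∈ Γ₀(N)` (Prelude `heckeDiagMatrix_mul_of_eq'`).  Cusps: Prelude `isZeroAt_slash_ratCast`.
q-expansion: `u = heckeT 12 N Δ - heckeU 12 N Δ`, and the Prelude computes the q-coefficients of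
both (`UpperHalfPlane.qCoeff_heckeT`, `UpperHalfPlane.qCoeff_heckeU`), so
`a_n(u) = N ^ 11 * τ(n / N)` if `N ∣ n` and `0` otherwise; finally `1728 Δ = E₄³ - E₆²` has an
integral q-expansion. -/

set_option autoImplicit false

namespace Fermat.Agent.S23

open UpperHalfPlane ModularForm CongruenceSubgroup
open scoped MatrixGroups ModularForm Manifold

namespace LevelRaise

/-- The subring of power series with integer coefficients. -/
noncomputable def intSubring : Subring (PowerSeries ℂ) := (PowerSeries.map (Int.castRingHom ℂ)).range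

theorem isIntSeries_iff (p : PowerSeries ℂ) : IsIntSeries p ↔ p ∈ intSubring := by
  constructor
  · intro h
    choose m hm using h
    refine ⟨PowerSeries.mk m, ?_⟩
    ext n
    simp [hm n]
  · rintro ⟨q, rfl⟩ n
    exact ⟨q.coeff n, by simp⟩

theorem isIntSeries_E₄ : IsIntSeries (qExpansion 1 E₄) := by
  intro m
  rw [EisensteinSeries.E_qExpansion_coeff _ ⟨2, rfl⟩]
  split_ifs
  · exact ⟨1, by simp⟩
  · refine ⟨240 * ((ArithmeticFunction.sigma 3 m : ℕ) : ℤ), ?_⟩
    norm_num [show bernoulli 4 = -1 / 30 by decide +kernel]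

theorem isIntSeries_E₆ : IsIntSeries (qExpansion 1 E₆) := by
  intro m
  rw [EisensteinSeries.E_qExpansion_coeff _ ⟨3, rfl⟩]
  split_ifs
  · exact ⟨1, by simp⟩
  · refine ⟨-504 * ((ArithmeticFunction.sigma 5 m : ℕ) : ℤ), ?_⟩
    norm_num [show bernoulli 6 = 1 / 42 by decide +kernel]

/-- The discriminant as a polynomial in `E₄`, `E₆`, on the level of `q`-expansions. -/
theorem qExpansion_discriminant_eq :
    qExpansion 1 ModularForm.discriminant =
      (1 / 1728 : ℂ) • (qExpansion 1 E₄ ^ 3 - qExpansion 1 E₆ ^ 2) := by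
  let G : ModularForm 𝒮ℒ 12 :=
    ModularForm.mcast (by decide) (E₄.pow 3) - ModularForm.mcast (by decide) (E₆.pow 2)
  have hG : (ModularForm.discriminant : ℍ → ℂ) = (1 / 1728 : ℂ) • (G : ℍ → ℂ) := by
    funext z
    simp only [G, Pi.smul_apply, smul_eq_mul, FunLike.coe_sub, coe_mcast, coe_pow, Pi.sub_apply,
      Pi.pow_apply]
    rw [discriminant_eq_E₄_cube_sub_E₆_sq z]
    ring
  rw [hG, ModularForm.qExpansion_smul one_pos one_mem_strictPeriods_SL]
  congr 1
  simp only [G, FunLike.coe_sub, coe_mcast,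
    ModularForm.qExpansion_sub one_pos one_mem_strictPeriods_SL,
    ModularForm.qExpansion_pow one_pos one_mem_strictPeriods_SL]

theorem isIntSeries_discriminant :
    IsIntSeries ((1728 : ℂ) • qExpansion 1 ModularForm.discriminant) := by
  rw [qExpansion_discriminant_eq, smul_smul]
  norm_num
  rw [isIntSeries_iff]
  exact sub_mem (pow_mem ((isIntSeries_iff _).mp isIntSeries_E₄) 3)
    (pow_mem ((isIntSeries_iff _).mp isIntSeries_E₆) 2)

theorem periodic_discriminant :
    Function.Periodic ((ModularForm.discriminant : ℍ → ℂ) ∘ ofComplex) 1 := by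
  have := SlashInvariantFormClass.periodic_comp_ofComplex CuspForm.discriminant
    one_mem_strictPeriods_SL
  simpa using this

theorem mdiff_discriminant : MDiff (ModularForm.discriminant : ℍ → ℂ) :=
  CuspFormClass.holo CuspForm.discriminant

theorem isBounded_discriminant : IsBoundedAtImInfty (ModularForm.discriminant : ℍ → ℂ) :=
  discriminant_isZeroAtImInfty.isBoundedAtImInfty

theorem uFun_eq_sub (N : ℕ) :
    uFun N = heckeT 12 N ModularForm.discriminant - heckeU 12 N ModularForm.discriminant := by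
  rw [heckeT_eq_heckeU_add, add_sub_cancel_left]
  rfl

/-- The q-expansion coefficients of `u`. -/
theorem qExpansion_uFun_coeff (N : ℕ) [NeZero N] (n : ℕ) :
    (qExpansion 1 (uFun N)).coeff n =
      if N ∣ n then (N : ℂ) ^ 11 * (qExpansion 1 ModularForm.discriminant).coeff (n / N)
      else 0 := by
  have hper := periodic_discriminant
  have hhol := mdiff_discriminant
  have hbdd := isBounded_discriminant
  have hT := UpperHalfPlane.qCoeff_heckeT hper hhol hbdd 12 (NeZero.ne N) n
  have hU := UpperHalfPlane.qCoeff_heckeU hper hhol hbdd 12 (NeZero.ne N) n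
  have hTa : AnalyticAt ℂ (cuspFunction 1 (heckeT 12 N ModularForm.discriminant)) 0 :=
    analyticAt_cuspFunction_zero one_pos
      (by simpa using ModularForm.periodic_heckeT_comp_ofComplex hper 12 N)
      (ModularForm.mdifferentiable_heckeT hhol 12 N)
      (ModularForm.isBoundedAtImInfty_heckeT hbdd 12 N)
  have hUa : AnalyticAt ℂ (cuspFunction 1 (heckeU 12 N ModularForm.discriminant)) 0 :=
    analyticAt_cuspFunction_zero one_pos
      (by simpa using ModularForm.periodic_heckeU_comp_ofComplex hper 12 N)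
      (ModularForm.mdifferentiable_heckeU hhol 12 N)
      (ModularForm.isBoundedAtImInfty_heckeU hbdd 12 N)
  simp only [ModularFormClass.qCoeff] at hT hU
  rw [uFun_eq_sub, qExpansion_sub hTa hUa, map_sub, hT, hU, coeffHeckeT_apply, coeffHeckeU_apply,
    add_sub_cancel_left]
  norm_num
  rfl

/-- `u` is invariant under `Γ₀(N)`. -/
theorem uFun_slash (N : ℕ) [NeZero N] (γ : GL (Fin 2) ℝ)
    (hγ : γ ∈ (Gamma0 N : Subgroup (GL (Fin 2) ℝ))) : uFun N ∣[(12 : ℤ)] γ = uFun N := by
  obtain ⟨g, hg, rfl⟩ := hγ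
  have hg' : ((g 1 0 : ℤ) : ZMod N) = 0 := Gamma0_mem.mp hg
  obtain ⟨e, he⟩ : ∃ e : ℤ, g 1 0 = N * e := (ZMod.intCast_zmod_eq_zero_iff_dvd _ N).mp hg'
  obtain ⟨g', -, hcomm⟩ :=
    P2MW.S_ModularForm_heckeT_slash_eq_self_of_mem_Gamma0.ModularForm.HeckeSlashInvariance.heckeDiagMatrix_mul_of_eq'
      (NeZero.ne N) g e he
  unfold uFun
  rw [← SlashAction.slash_mul, hcomm, SlashAction.slash_mul]
  congr 1
  exact SlashInvariantFormClass.slash_action_eq CuspForm.discriminant _ ⟨g', rfl⟩

end LevelRaise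

/-- **U1.** `u` is a cusp form of weight 12 on `Γ₀(N)`. -/
theorem uFun_isCF (N : ℕ) [NeZero N] :
    IsCF (Gamma0 N : Subgroup (GL (Fin 2) ℝ)) 12 (uFun N) := by
  refine ⟨{ toFun := uFun N
            slash_action_eq' := fun γ hγ => LevelRaise.uFun_slash N γ hγ
            holo' := ?_
            zero_at_cusps' := ?_ }, rfl⟩
  · exact MDifferentiable.slash LevelRaise.mdiff_discriminant 12 _
  · intro c hc
    obtain ⟨g, hg⟩ :=
      P2MW.S_CuspFormClass_isZeroAt_heckeT.ModularForm.S06W2.exists_heckeDiagMatrix_eq_map N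
    have hc' : IsCusp c 𝒮ℒ := hc.mono (Subgroup.map_le_range _ _)
    have := P2MW.S_CuspFormClass_isZeroAt_heckeT.ModularForm.S06W2.isZeroAt_slash_ratCast
      CuspForm.discriminant g hc'
    rw [← hg] at this
    exact this

/-- **U2.** A nonzero integer multiple of the q-expansion of `u` is integral. -/
theorem uFun_qExpansion_int (N : ℕ) [NeZero N] :
    ∃ c : ℤ, c ≠ 0 ∧ IsIntSeries ((c : ℂ) • qExpansion 1 (uFun N)) := by
  refine ⟨1728, by norm_num, ?_⟩
  intro n
  rw [PowerSeries.coeff_smul, LevelRaise.qExpansion_uFun_coeff]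
  split_ifs with h
  · obtain ⟨m, hm⟩ := LevelRaise.isIntSeries_discriminant (n / N)
    rw [PowerSeries.coeff_smul] at hm
    refine ⟨(N : ℤ) ^ 11 * m, ?_⟩
    push_cast
    rw [← hm]
    ring
  · exact ⟨0, by simp⟩

end Fermat.Agent.S23
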