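import Fermat.Agent.S23.Defs

/-! # WP4 Monic: a cusp form on `Γ₀(N)` is a root of a monic polynomial whose lower coefficients
are level-one cusp forms.
Math: with `𝒬 = 𝒮ℒ ⧸ Γ₀(N)` and `f_q = SlashInvariantForm.quotientFunc f q` (Mathlib `NormTrace`),
`∏_q (X - f_q) = ∑_j (-1)^j e_j X^(μ-j)`, `μ = Nat.card 𝒬`, and `e_j = ∑_{|t|=j} ∏_{q∈t} f_q` is a
level-one cusp form of weight `k * j` for `j ≥ 1` (invariance: `quotientFunc_smul` permutes the
cosets; holomorphy and cusp condition as in `ModularForm.norm` / `CuspForm.trace`).  Evaluate at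
`X = f = f_{⟦1⟧}` (`Multiset.prod_X_sub_X_eq_sum_esymm`).  So `s j = (-1)^j e_j`. -/

set_option autoImplicit false

namespace Fermat.Agent.S23.Monic

open UpperHalfPlane ModularForm SlashInvariantForm
open scoped MatrixGroups ModularForm Topology Filter Manifold

noncomputable section

section general

variable {𝒢 ℋ : Subgroup (GL (Fin 2) ℝ)} {F : Type*} (f : F) [FunLike F ℍ ℂ] {k : ℤ}

local notation "𝒬" => ℋ ⧸ (𝒢.subgroupOf ℋ)

/-- The `i`-th elementary symmetric function of the translates of `f`. -/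
def esymmFun [SlashInvariantFormClass F 𝒢 k] [𝒢.IsFiniteRelIndex ℋ] (i : ℕ) : ℍ → ℂ :=
  letI := Fintype.ofFinite 𝒬
  ∑ s ∈ Finset.powersetCard i (Finset.univ : Finset 𝒬), ∏ q ∈ s, quotientFunc f q

variable (ℋ) in
lemma esymmFun_slash [SlashInvariantFormClass F 𝒢 k] [𝒢.IsFiniteRelIndex ℋ]
    [ℋ.HasDetPlusMinusOne] (i : ℕ) {h : GL (Fin 2) ℝ} (hh : h ∈ ℋ) :
    (esymmFun (ℋ := ℋ) f i) ∣[k * i] h = esymmFun (ℋ := ℋ) f i := by
  classical
  let := Fintype.ofFinite 𝒬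
  unfold esymmFun
  rw [SlashAction.sum_slash]
  have key : ∀ s ∈ Finset.powersetCard i (Finset.univ : Finset 𝒬),
      (∏ q ∈ s, quotientFunc f q) ∣[k * (i : ℤ)] h =
        ∏ q ∈ s.map (MulAction.toPerm ((⟨h, hh⟩ : ℋ)⁻¹)).toEmbedding, quotientFunc f q := by
    intro s hs
    have hcard : s.card = i := (Finset.mem_powersetCard.mp hs).2
    rw [← hcard, ModularForm.prod_slash, Finset.prod_map]
    simp [quotientFunc_smul f hh, Subgroup.HasDetPlusMinusOne.abs_det hh,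
      -Matrix.GeneralLinearGroup.val_det_apply]
  rw [Finset.sum_congr rfl key]
  have := Finset.sum_map (Finset.powersetCard i (Finset.univ : Finset 𝒬))
    (Finset.mapEmbedding (MulAction.toPerm ((⟨h, hh⟩ : ℋ)⁻¹) : 𝒬 ≃ 𝒬).toEmbedding).toEmbedding
    (fun s => ∏ q ∈ s, quotientFunc f q)
  simp only [Finset.mapEmbedding_apply, RelEmbedding.coe_toEmbedding] at this
  rw [← this, ← Finset.powersetCard_map, Finset.map_univ_equiv]

lemma esymmFun_apply [SlashInvariantFormClass F 𝒢 k] [𝒢.IsFiniteRelIndex ℋ] (i : ℕ) (τ : ℍ) :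
    esymmFun (ℋ := ℋ) f i τ =
      letI := Fintype.ofFinite 𝒬
      ((Finset.univ : Finset 𝒬).val.map fun q ↦ quotientFunc f q τ).esymm i := by
  classical
  let := Fintype.ofFinite 𝒬
  unfold esymmFun
  rw [Finset.esymm_map_val, Finset.sum_apply]
  simp [Finset.prod_apply]

variable (ℋ) in
/-- `f` is a root of the monic polynomial `∏_q (X - f_q)`, whose coefficients are (up to sign)
the elementary symmetric functions of the translates. -/
theorem esymmFun_relation [SlashInvariantFormClass F 𝒢 k] [𝒢.IsFiniteRelIndex ℋ] (τ : ℍ) :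
    ∑ j ∈ Finset.range (Nat.card 𝒬 + 1),
      (-1) ^ j * (esymmFun (ℋ := ℋ) f j τ * f τ ^ (Nat.card 𝒬 - j)) = 0 := by
  classical
  let := Fintype.ofFinite 𝒬
  set s : Multiset ℂ := (Finset.univ : Finset 𝒬).val.map fun q ↦ quotientFunc f q τ with hs
  have hcard : Multiset.card s = Nat.card 𝒬 := by
    simp [hs, Nat.card_eq_fintype_card]
  have h := congrArg (Polynomial.eval (f τ)) (Multiset.prod_X_sub_X_eq_sum_esymm s)
  have hmem : f τ ∈ s := by
    rw [hs, Multiset.mem_map]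
    exact ⟨⟦1⟧, Finset.mem_univ_val _, by simp⟩
  have hzero : Polynomial.eval (f τ) (s.map fun t ↦ Polynomial.X - Polynomial.C t).prod = 0 := by
    rw [Polynomial.eval_multiset_prod, Multiset.prod_eq_zero_iff]
    simp only [Multiset.map_map, Multiset.mem_map, Function.comp_apply]
    exact ⟨f τ, hmem, by simp⟩
  rw [hzero, Polynomial.eval_finsetSum, hcard] at h
  rw [h]
  refine Finset.sum_congr rfl fun j _ ↦ ?_
  simp [esymmFun_apply, hs]

variable (ℋ) [𝒢.IsFiniteRelIndex ℋ] [ℋ.HasDetPlusMinusOne]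

/-- The `i`-th elementary symmetric function of the translates, as a slash-invariant form. -/
def esymmSIF [SlashInvariantFormClass F 𝒢 k] (i : ℕ) : SlashInvariantForm ℋ (k * i) where
  toFun := esymmFun (ℋ := ℋ) f i
  slash_action_eq' _ hh := esymmFun_slash ℋ f i hh

omit [ℋ.HasDetPlusMinusOne] in
lemma esymmFun_mdifferentiable [ModularFormClass F 𝒢 k] (i : ℕ) :
    MDiff (esymmFun (ℋ := ℋ) f i) := by
  classical
  let := Fintype.ofFinite 𝒬
  unfold esymmFun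
  refine .sum fun s _ ↦ .prod ?_
  exact Quotient.forall.mpr fun ⟨r, hr⟩ _ ↦ (ModularForm.translate f r⁻¹).holo'

/-- The `i`-th elementary symmetric function of the translates, as a modular form. -/
def esymmMF [ModularFormClass F 𝒢 k] (i : ℕ) : ModularForm ℋ (k * i) where
  __ := esymmSIF ℋ f i
  holo' := esymmFun_mdifferentiable ℋ f i
  bdd_at_cusps' h γ := by
    classical
    rintro rfl
    let := Fintype.ofFinite 𝒬
    change IsBoundedAtImInfty ((esymmFun (ℋ := ℋ) f i) ∣[k * (i : ℤ)] γ)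
    unfold esymmFun
    rw [SlashAction.sum_slash, IsBoundedAtImInfty, Filter.BoundedAtFilter, Finset.sum_fn]
    refine .fun_sum fun s hs ↦ ?_
    have hcard : s.card = i := (Finset.mem_powersetCard.mp hs).2
    rw [← hcard, ModularForm.prod_slash]
    apply Asymptotics.IsBigO.const_smul_left
    rw [show (1 : ℍ → ℝ) = (fun x ↦ ∏ _q ∈ s, 1) by ext; simp, Finset.prod_fn]
    refine .finsetProd (Quotient.forall.mpr fun ⟨r, hr⟩ _ ↦
      (ModularForm.translate f _).bdd_at_cusps' ?_ γ rfl)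
    simpa using h.of_isFiniteRelIndex_conj hr

@[simp] lemma coe_esymmMF [ModularFormClass F 𝒢 k] (i : ℕ) :
    ⇑(esymmMF ℋ f i) = esymmFun (ℋ := ℋ) f i := rfl

/-- The `i`-th elementary symmetric function of the translates of a cusp form (`0 < i`), as a
cusp form. -/
def esymmCF [CuspFormClass F 𝒢 k] (i : ℕ) (hi : 0 < i) : CuspForm ℋ (k * i) where
  __ := esymmMF ℋ f i
  zero_at_cusps' h γ := by
    classical
    rintro rfl
    let := Fintype.ofFinite 𝒬
    change IsZeroAtImInfty ((esymmFun (ℋ := ℋ) f i) ∣[k * (i : ℤ)] γ)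
    unfold esymmFun
    rw [SlashAction.sum_slash, IsZeroAtImInfty, Filter.ZeroAtFilter, Finset.sum_fn]
    rw [show (0 : ℂ) = ∑ _s ∈ Finset.powersetCard i (Finset.univ : Finset 𝒬), 0 by simp]
    refine tendsto_finsetSum _ fun s hs ↦ ?_
    have hcard : s.card = i := (Finset.mem_powersetCard.mp hs).2
    rw [← hcard, ModularForm.prod_slash]
    have hne : s.Nonempty := Finset.card_pos.mp (hcard ▸ hi)
    obtain ⟨q₀, hq₀⟩ := hne
    have h0 : (0 : ℂ) = (|γ.det.val| ^ ((s.card : ℤ) - 1) : ℝ) • ∏ q ∈ s, (0 : ℂ) := by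
      rw [Finset.prod_eq_zero hq₀ rfl, smul_zero]
    rw [h0]
    have hfun : ((|γ.det.val| ^ ((s.card : ℤ) - 1) : ℝ) • ∏ q ∈ s, quotientFunc f q ∣[k] γ) =
        fun τ ↦ (|γ.det.val| ^ ((s.card : ℤ) - 1) : ℝ) • ∏ q ∈ s, (quotientFunc f q ∣[k] γ) τ := by
      ext τ
      simp [Finset.prod_apply]
    rw [hfun]
    refine Filter.Tendsto.const_smul (tendsto_finsetProd _ ?_) _
    refine Quotient.forall.mpr fun ⟨r, hr⟩ _ ↦ ?_
    refine (CuspForm.translate f _).zero_at_cusps' ?_ γ rfl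
    simpa using h.of_isFiniteRelIndex_conj hr

@[simp] lemma coe_esymmCF [CuspFormClass F 𝒢 k] (i : ℕ) (hi : 0 < i) :
    ⇑(esymmCF ℋ f i hi) = esymmFun (ℋ := ℋ) f i := rfl

omit [ℋ.HasDetPlusMinusOne] in
lemma esymmFun_zero [SlashInvariantFormClass F 𝒢 k] (τ : ℍ) : esymmFun (ℋ := ℋ) f 0 τ = 1 := by
  simp [esymmFun_apply, Multiset.esymm]

end general

section levelOne

variable {𝒢 : Subgroup (GL (Fin 2) ℝ)} [𝒢.IsFiniteRelIndex 𝒮ℒ] {F : Type*} [FunLike F ℍ ℂ]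
  {k : ℤ}

/-- A cusp form `f` for `𝒢` is a root of a monic polynomial of degree `d = [SL₂(ℤ) : 𝒢 ⊓ SL₂(ℤ)]`
whose lower coefficients are level one cusp forms (of the appropriate weights). -/
theorem exists_cuspForm_monic_relation (f : F) [CuspFormClass F 𝒢 k] :
    ∃ ε : (i : ℕ) → CuspForm 𝒮ℒ (k * ((i + 1 : ℕ) : ℤ)),
      ∀ τ : ℍ, f τ ^ (Nat.card (𝒮ℒ ⧸ 𝒢.subgroupOf 𝒮ℒ)) +
        ∑ i ∈ Finset.range (Nat.card (𝒮ℒ ⧸ 𝒢.subgroupOf 𝒮ℒ)),
          ε i τ * f τ ^ (Nat.card (𝒮ℒ ⧸ 𝒢.subgroupOf 𝒮ℒ) - 1 - i) = 0 := by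
  refine ⟨fun i ↦ ((-1 : ℂ) ^ (i + 1)) • esymmCF 𝒮ℒ f (i + 1) i.succ_pos, fun τ ↦ ?_⟩
  have h := esymmFun_relation 𝒮ℒ f τ
  rw [Finset.sum_range_succ'] at h
  simp only [pow_zero, esymmFun_zero, one_mul, Nat.sub_zero] at h
  rw [add_comm] at h
  rw [← h]
  congr 1
  refine Finset.sum_congr rfl fun i _ ↦ ?_
  rw [smul_apply, coe_esymmCF, smul_eq_mul, Nat.sub_sub, add_comm 1 i]
  ring

/-- Modular form version: a modular form `f` for `𝒢` is a root of a monic polynomial of degree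
`d = [SL₂(ℤ) : 𝒢 ⊓ SL₂(ℤ)]` whose lower coefficients are level one modular forms. -/
theorem exists_modularForm_monic_relation (f : F) [ModularFormClass F 𝒢 k] :
    ∃ ε : (i : ℕ) → ModularForm 𝒮ℒ (k * ((i + 1 : ℕ) : ℤ)),
      ∀ τ : ℍ, f τ ^ (Nat.card (𝒮ℒ ⧸ 𝒢.subgroupOf 𝒮ℒ)) +
        ∑ i ∈ Finset.range (Nat.card (𝒮ℒ ⧸ 𝒢.subgroupOf 𝒮ℒ)),
          ε i τ * f τ ^ (Nat.card (𝒮ℒ ⧸ 𝒢.subgroupOf 𝒮ℒ) - 1 - i) = 0 := by
  refine ⟨fun i ↦ ((-1 : ℂ) ^ (i + 1)) • esymmMF 𝒮ℒ f (i + 1), fun τ ↦ ?_⟩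
  have h := esymmFun_relation 𝒮ℒ f τ
  rw [Finset.sum_range_succ'] at h
  simp only [pow_zero, esymmFun_zero, one_mul, Nat.sub_zero] at h
  rw [add_comm] at h
  rw [← h]
  congr 1
  refine Finset.sum_congr rfl fun i _ ↦ ?_
  rw [smul_apply, coe_esymmMF, smul_eq_mul, Nat.sub_sub, add_comm 1 i]
  ring

end levelOne

end

end Fermat.Agent.S23.Monic

namespace Fermat.Agent.S23

open UpperHalfPlane ModularForm CongruenceSubgroup
open scoped MatrixGroups ModularForm Manifold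

/-- **T1.** Monic relation with level-one cuspidal coefficients. -/
theorem exists_monic_relation (N : ℕ) [NeZero N] {k : ℤ}
    (f : CuspForm (Gamma0 N : Subgroup (GL (Fin 2) ℝ)) k) :
    ∃ (μ : ℕ) (s : ℕ → ℍ → ℂ), 0 < μ ∧
      (∀ j ∈ Finset.Icc 1 μ, IsCF 𝒮ℒ (k * j) (s j)) ∧
      (⇑f) ^ μ + ∑ j ∈ Finset.Icc 1 μ, s j * (⇑f) ^ (μ - j) = 0 := by
  classical
  refine ⟨Nat.card (𝒮ℒ ⧸ (Gamma0 N : Subgroup (GL (Fin 2) ℝ)).subgroupOf 𝒮ℒ),
    fun j ↦ (-1 : ℂ) ^ j • Monic.esymmFun (ℋ := 𝒮ℒ) f j, Nat.card_pos, ?_, ?_⟩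
  · intro j hj
    have hj1 : 0 < j := (Finset.mem_Icc.mp hj).1
    exact ⟨(-1 : ℂ) ^ j • Monic.esymmCF 𝒮ℒ f j hj1, by ext τ; simp⟩
  · ext τ
    have h := Monic.esymmFun_relation 𝒮ℒ f τ
    rw [Finset.sum_range_succ'] at h
    simp only [pow_zero, Monic.esymmFun_zero, one_mul, Nat.sub_zero] at h
    rw [add_comm] at h
    rw [← Finset.Ico_succ_right_eq_Icc, Finset.sum_Ico_eq_sum_range]
    simp only [Pi.add_apply, Pi.pow_apply, Finset.sum_apply, Pi.mul_apply, Pi.smul_apply,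
      smul_eq_mul, Pi.zero_apply]
    rw [← h]
    congr 1
    refine Finset.sum_congr rfl fun i _ ↦ ?_
    rw [add_comm 1 i]
    ring

end Fermat.Agent.S23
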