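import Fermat.Agent.S23.Defs

/-! # WP12 Retraction: `ℚ`-linear functionals `ℂ → ℚ` applied coefficientwise (`mapQ`).
Hints: `LinearMap.exists_extend`, `Module.Basis`/`exists_dual_map_eq_bot_of_notMem`-type lemmas for
vector spaces over `ℚ`; `PowerSeries.coeff_mul`, `Finset.sum` linearity; for `mapQ_span_int` use
`Submodule.span_induction` (closure under `+` needs a common denominator: multiply the two
denominators). -/

set_option autoImplicit false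

namespace Fermat.Agent.S23

namespace Retraction

theorem coeff_mapQ (ρ : ℂ →ₗ[ℚ] ℚ) (p : PowerSeries ℂ) (n : ℕ) :
    (mapQ ρ p).coeff n = ((ρ (p.coeff n) : ℚ) : ℂ) := by
  simp [mapQ]

theorem rho_ratCast_mul (ρ : ℂ →ₗ[ℚ] ℚ) (r : ℚ) (c : ℂ) : ρ ((r : ℂ) * c) = r * ρ c := by
  have h : (r : ℂ) * c = r • c := by
    rw [Rat.smul_def]
  rw [h, map_smul, smul_eq_mul]

theorem rho_intCast_mul (ρ : ℂ →ₗ[ℚ] ℚ) (m : ℤ) (c : ℂ) : ρ ((m : ℂ) * c) = m * ρ c := by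
  have := rho_ratCast_mul ρ (m : ℚ) c
  simpa using this

theorem isIntSeries_mul {p q : PowerSeries ℂ} (hp : IsIntSeries p) (hq : IsIntSeries q) :
    IsIntSeries (p * q) := by
  intro n
  rw [PowerSeries.coeff_mul]
  choose a ha using hp
  choose b hb using hq
  refine ⟨∑ x ∈ Finset.HasAntidiagonal.antidiagonal n, a x.1 * b x.2, ?_⟩
  push_cast
  refine Finset.sum_congr rfl fun x _ => ?_
  rw [ha, hb]

/-- Strengthened induction statement for `mapQ_span_int`. -/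
theorem mapQ_span_int_aux (ρ : ℂ →ₗ[ℚ] ℚ) (p : PowerSeries ℂ)
    (hp : p ∈ Submodule.span ℂ {p : PowerSeries ℂ | IsIntSeries p}) :
    ∀ c : ℂ, ∃ D : ℤ, D ≠ 0 ∧ IsIntSeries ((D : ℂ) • mapQ ρ (c • p)) := by
  induction hp using Submodule.span_induction with
  | mem x hx =>
    intro c
    refine ⟨((ρ c).den : ℤ), by exact_mod_cast (ρ c).den_nz, ?_⟩
    intro n
    obtain ⟨m, hm⟩ := hx n
    refine ⟨m * (ρ c).num, ?_⟩
    rw [PowerSeries.coeff_smul, coeff_mapQ, PowerSeries.coeff_smul, hm, smul_eq_mul, smul_eq_mul,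
      mul_comm c (m : ℂ), rho_intCast_mul]
    have h := Rat.den_mul_eq_num (ρ c)
    have h' : (((ρ c).den : ℚ) : ℂ) * ((ρ c : ℚ) : ℂ) = (((ρ c).num : ℚ) : ℂ) := by
      exact_mod_cast congrArg (fun t : ℚ => (t : ℂ)) h
    push_cast
    push_cast at h'
    linear_combination (m : ℂ) * h'
  | zero =>
    intro c
    refine ⟨1, one_ne_zero, ?_⟩
    intro n
    refine ⟨0, ?_⟩
    simp [coeff_mapQ]
  | add x y _ _ hx hy =>
    intro c
    obtain ⟨D₁, hD₁, h₁⟩ := hx c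
    obtain ⟨D₂, hD₂, h₂⟩ := hy c
    refine ⟨D₁ * D₂, mul_ne_zero hD₁ hD₂, ?_⟩
    intro n
    obtain ⟨m₁, hm₁⟩ := h₁ n
    obtain ⟨m₂, hm₂⟩ := h₂ n
    refine ⟨D₂ * m₁ + D₁ * m₂, ?_⟩
    rw [PowerSeries.coeff_smul, smul_eq_mul] at hm₁ hm₂
    rw [PowerSeries.coeff_smul, smul_eq_mul, coeff_mapQ, smul_add, map_add, map_add]
    rw [coeff_mapQ] at hm₁ hm₂
    push_cast
    linear_combination (D₂ : ℂ) * hm₁ + (D₁ : ℂ) * hm₂
  | smul a x _ hx =>
    intro c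
    have := hx (c * a)
    rwa [mul_smul] at this

end Retraction

open Retraction

/-- **B2a.** -/
theorem exists_rat_linear_apply_ne (β : ℂ) (hβ : β ≠ 0) : ∃ ρ : ℂ →ₗ[ℚ] ℚ, ρ β ≠ 0 := by
  by_contra h
  have h : ∀ ρ : ℂ →ₗ[ℚ] ℚ, ρ β = 0 := fun ρ => by
    by_contra hρ
    exact h ⟨ρ, hρ⟩
  exact hβ ((Module.forall_dual_apply_eq_zero_iff ℚ β).mp h)

/-- **B2b.** -/
theorem exists_rat_linear_one : ∃ ρ : ℂ →ₗ[ℚ] ℚ, ρ 1 = 1 := by
  obtain ⟨ρ, hρ⟩ := exists_rat_linear_apply_ne 1 one_ne_zero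
  refine ⟨(ρ 1)⁻¹ • ρ, ?_⟩
  simp [hρ]

/-- **B2c.** -/
theorem mapQ_add (ρ : ℂ →ₗ[ℚ] ℚ) (p q : PowerSeries ℂ) :
    mapQ ρ (p + q) = mapQ ρ p + mapQ ρ q := by
  ext n
  simp [coeff_mapQ]

/-- **B2d.** `mapQ ρ` is linear over rational series. -/
theorem mapQ_mul_of_isRatSeries (ρ : ℂ →ₗ[ℚ] ℚ) (x p : PowerSeries ℂ) (hx : IsRatSeries x) :
    mapQ ρ (x * p) = x * mapQ ρ p := by
  ext n
  rw [coeff_mapQ, PowerSeries.coeff_mul, PowerSeries.coeff_mul, map_sum]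
  push_cast
  refine Finset.sum_congr rfl fun i _ => ?_
  obtain ⟨r, hr⟩ := hx i.1
  rw [hr, rho_ratCast_mul, coeff_mapQ]
  push_cast
  rfl

/-- **B2e.** -/
theorem mapQ_of_isRatSeries (ρ : ℂ →ₗ[ℚ] ℚ) (hρ : ρ 1 = 1) (x : PowerSeries ℂ)
    (hx : IsRatSeries x) : mapQ ρ x = x := by
  ext n
  obtain ⟨r, hr⟩ := hx n
  rw [coeff_mapQ, hr]
  have := rho_ratCast_mul ρ r 1
  rw [mul_one, hρ, mul_one] at this
  rw [this]

/-- **B2f.** -/
theorem mapQ_ne_zero (ρ : ℂ →ₗ[ℚ] ℚ) (p : PowerSeries ℂ) (n : ℕ) (h : ρ (p.coeff n) ≠ 0) :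
    mapQ ρ p ≠ 0 := by
  intro h0
  have := congrArg (PowerSeries.coeff n) h0
  rw [coeff_mapQ, map_zero] at this
  exact h (by exact_mod_cast this)

/-- **B2g.** The image under `mapQ ρ` of a `ℂ`-combination of integral series has bounded
denominators. -/
theorem mapQ_span_int (ρ : ℂ →ₗ[ℚ] ℚ) (p : PowerSeries ℂ)
    (hp : p ∈ Submodule.span ℂ {p : PowerSeries ℂ | IsIntSeries p}) :
    ∃ D : ℤ, D ≠ 0 ∧ IsIntSeries ((D : ℂ) • mapQ ρ p) := by
  have := mapQ_span_int_aux ρ p hp 1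
  rwa [one_smul] at this

/-- **B2h.** Integral series are closed under multiplication, so their `ℂ`-span is too. -/
theorem span_int_mul (p q : PowerSeries ℂ)
    (hp : p ∈ Submodule.span ℂ {p : PowerSeries ℂ | IsIntSeries p})
    (hq : q ∈ Submodule.span ℂ {p : PowerSeries ℂ | IsIntSeries p}) :
    p * q ∈ Submodule.span ℂ {p : PowerSeries ℂ | IsIntSeries p} := by
  have h := Submodule.mul_mem_mul hp hq
  rw [Submodule.span_mul_span] at h
  refine Submodule.span_mono ?_ h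
  rintro _ ⟨a, ha, b, hb, rfl⟩
  exact isIntSeries_mul ha hb

end Fermat.Agent.S23
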