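import Fermat.Agent.S23.LevelOne
import Fermat.Agent.S23.LevelRaise
import Fermat.Agent.S23.Stabilizer
import Fermat.Agent.S23.Monic
import Fermat.Agent.S23.Lagrange
import Fermat.Agent.S23.IntClosed
import Fermat.Agent.S23.Retraction

/-! # WP13 BoundedDenom: a cusp form on `Γ₀(N)` with rational q-expansion has bounded denominators.
Math: `x = qExpansion 1 f` is rational.  (i) From `exists_monic_relation` and `levelOne_int_span`:
`x^μ + ∑ σ_j x^(μ-j) = 0` with `σ_j ∈ span_ℂ{integral}`; apply `mapQ ρ` with `ρ 1 = 1`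
(`mapQ_mul_of_isRatSeries`, `mapQ_of_isRatSeries`, `mapQ_span_int`) to make the `σ_j` rational with
bounded denominators.  (ii) From `exists_lagrange_relation`: `x * β = α` with
`β = qExpansion 1 B ≠ 0`, `α, β ∈ span_ℂ{integral}` (`span_int_mul`, `uFun_qExpansion_int`); apply
`mapQ ρ'` with `ρ' (coeff n β) ≠ 0`.  (iii) Clear denominators and apply
`isIntSeries_of_fraction_of_monic` to `D • x`. -/

set_option autoImplicit false

namespace Fermat.Agent.S23.BoundedDenom

open UpperHalfPlane ModularForm CongruenceSubgroup Function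
open scoped MatrixGroups ModularForm Manifold

noncomputable section

/-! ### The ring of `1`-periodic holomorphic functions bounded at `i∞` -/

/-- `1`-periodic holomorphic functions on `ℍ` which are bounded at `i∞`. -/
def niceRing : Subring (ℍ → ℂ) where
  carrier := {F | Periodic (F ∘ ofComplex) 1 ∧ MDiff F ∧ IsBoundedAtImInfty F}
  mul_mem' hF hG := ⟨hF.1.mul hG.1, hF.2.1.mul hG.2.1, hF.2.2.mul hG.2.2⟩
  one_mem' := ⟨fun _ => rfl, mdifferentiable_const, Filter.const_boundedAtFilter _ _⟩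
  add_mem' hF hG := ⟨hF.1.add hG.1, hF.2.1.add hG.2.1, hF.2.2.add hG.2.2⟩
  zero_mem' := ⟨fun _ => rfl, mdifferentiable_const, Filter.const_boundedAtFilter _ _⟩
  neg_mem' hF := ⟨fun z => congrArg Neg.neg (hF.1 z), hF.2.1.neg, hF.2.2.neg⟩

theorem analytic_of_mem {F : ℍ → ℂ} (hF : F ∈ niceRing) :
    AnalyticAt ℂ (cuspFunction 1 F) 0 :=
  analyticAt_cuspFunction_zero one_pos hF.1 hF.2.1 hF.2.2

theorem qExp_add {F G : ℍ → ℂ} (hF : F ∈ niceRing) (hG : G ∈ niceRing) :
    qExpansion 1 (F + G) = qExpansion 1 F + qExpansion 1 G :=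
  qExpansion_add (analytic_of_mem hF) (analytic_of_mem hG)

theorem qExp_mul {F G : ℍ → ℂ} (hF : F ∈ niceRing) (hG : G ∈ niceRing) :
    qExpansion 1 (F * G) = qExpansion 1 F * qExpansion 1 G :=
  qExpansion_mul (analytic_of_mem hF) (analytic_of_mem hG)

theorem qExp_pow {F : ℍ → ℂ} (hF : F ∈ niceRing) (n : ℕ) :
    qExpansion 1 (F ^ n) = qExpansion 1 F ^ n := by
  induction n with
  | zero => simpa using qExpansion_one 1
  | succ n ih => rw [pow_succ, qExp_mul (pow_mem hF n) hF, ih, pow_succ]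

theorem qExp_sum {ι : Type*} (t : Finset ι) (F : ι → ℍ → ℂ) (hF : ∀ i ∈ t, F i ∈ niceRing) :
    qExpansion 1 (∑ i ∈ t, F i) = ∑ i ∈ t, qExpansion 1 (F i) := by
  classical
  induction t using Finset.induction_on with
  | empty => simpa using qExpansion_zero 1
  | insert a t ha ih =>
    rw [Finset.sum_insert ha, Finset.sum_insert ha,
      qExp_add (hF a (Finset.mem_insert_self a t))
        (sum_mem fun i hi => hF i (Finset.mem_insert_of_mem hi)),
      ih fun i hi => hF i (Finset.mem_insert_of_mem hi)]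

theorem qExp_ne_zero {F : ℍ → ℂ} (hF : F ∈ niceRing) (h0 : F ≠ 0) : qExpansion 1 F ≠ 0 :=
  fun h => h0 ((qExpansion_eq_zero_iff one_pos hF.1 hF.2.1 hF.2.2).mp h)

/-- Modular forms for a group having `1` as a strict period are in `niceRing`. -/
theorem mem_niceRing_of_modularForm {Γ : Subgroup (GL (Fin 2) ℝ)} {w : ℤ} {F : Type*}
    [FunLike F ℍ ℂ] [ModularFormClass F Γ w] (f : F) (hΓ : (1 : ℝ) ∈ Γ.strictPeriods) :
    (f : ℍ → ℂ) ∈ niceRing :=
  have : Fact (IsCusp OnePoint.infty Γ) := ⟨Γ.isCusp_of_mem_strictPeriods one_pos hΓ⟩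
  ⟨SlashInvariantFormClass.periodic_comp_ofComplex f hΓ, ModularFormClass.holo f,
    ModularFormClass.bdd_at_infty f⟩

theorem one_mem_strictPeriods_Gamma0 (N : ℕ) :
    (1 : ℝ) ∈ (Gamma0 N : Subgroup (GL (Fin 2) ℝ)).strictPeriods := by
  simp [CongruenceSubgroup.strictPeriods_Gamma0]

theorem mem_niceRing_of_isMF_one {w : ℤ} {F : ℍ → ℂ} (hF : IsMF 𝒮ℒ w F) : F ∈ niceRing := by
  obtain ⟨G, rfl⟩ := hF
  exact mem_niceRing_of_modularForm G one_mem_strictPeriods_SL

theorem mem_niceRing_of_isCF_one {w : ℤ} {F : ℍ → ℂ} (hF : IsCF 𝒮ℒ w F) : F ∈ niceRing := by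
  obtain ⟨G, rfl⟩ := hF
  exact mem_niceRing_of_modularForm G one_mem_strictPeriods_SL

/-! ### Integral and rational series -/

/-- The `ℂ`-span of the integral series. -/
abbrev intSpan : Submodule ℂ (PowerSeries ℂ) :=
  Submodule.span ℂ {p : PowerSeries ℂ | IsIntSeries p}

theorem isIntSeries_one : IsIntSeries 1 := fun n => by
  by_cases hn : n = 0
  · exact ⟨1, by simp [hn]⟩
  · exact ⟨0, by simp [PowerSeries.coeff_one, hn]⟩

theorem isIntSeries_int_smul {p : PowerSeries ℂ} (hp : IsIntSeries p) (c : ℤ) :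
    IsIntSeries ((c : ℂ) • p) := fun n => by
  obtain ⟨m, hm⟩ := hp n
  exact ⟨c * m, by rw [PowerSeries.coeff_smul, hm]; push_cast; rfl⟩

theorem isRatSeries_iff (p : PowerSeries ℂ) :
    IsRatSeries p ↔ p ∈ (PowerSeries.map (algebraMap ℚ ℂ)).range := by
  constructor
  · intro h
    choose r hr using h
    refine ⟨PowerSeries.mk r, ?_⟩
    ext n
    simp [hr n]
  · rintro ⟨P, rfl⟩ n
    exact ⟨P.coeff n, by simp⟩

theorem isRatSeries_pow {p : PowerSeries ℂ} (hp : IsRatSeries p) (n : ℕ) :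
    IsRatSeries (p ^ n) := by
  rw [isRatSeries_iff] at *
  exact pow_mem hp n

theorem intSpan_pow {p : PowerSeries ℂ} (hp : p ∈ intSpan) (n : ℕ) : p ^ n ∈ intSpan := by
  induction n with
  | zero => rw [pow_zero]; exact Submodule.subset_span isIntSeries_one
  | succ n ih => rw [pow_succ]; exact span_int_mul _ _ ih hp

theorem mapQ_zero (ρ : ℂ →ₗ[ℚ] ℚ) : mapQ ρ 0 = 0 := by
  have h := mapQ_add ρ 0 0
  rw [add_zero] at h
  exact left_eq_add.mp h

theorem mapQ_sum (ρ : ℂ →ₗ[ℚ] ℚ) {ι : Type*} (t : Finset ι) (p : ι → PowerSeries ℂ) :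
    mapQ ρ (∑ i ∈ t, p i) = ∑ i ∈ t, mapQ ρ (p i) := by
  classical
  induction t using Finset.induction_on with
  | empty => simpa using mapQ_zero ρ
  | insert a t ha ih => rw [Finset.sum_insert ha, Finset.sum_insert ha, mapQ_add, ih]

end

end Fermat.Agent.S23.BoundedDenom

namespace Fermat.Agent.S23

open UpperHalfPlane ModularForm CongruenceSubgroup
open scoped MatrixGroups ModularForm Manifold

open BoundedDenom in
/-- **B3 = Theorem C.** -/
theorem exists_int_multiple (N : ℕ) [NeZero N] {k : ℤ}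
    (f : CuspForm (Gamma0 N : Subgroup (GL (Fin 2) ℝ)) k)
    (hf : IsRatSeries (qExpansion 1 f)) :
    ∃ D : ℤ, D ≠ 0 ∧ IsIntSeries ((D : ℂ) • qExpansion 1 f) := by
  classical
  have hfN : (f : ℍ → ℂ) ∈ niceRing :=
    mem_niceRing_of_modularForm f (one_mem_strictPeriods_Gamma0 N)
  set x : PowerSeries ℂ := qExpansion 1 f with hx
  -- (i) the monic relation
  obtain ⟨μ, s, hμ, hs, hrel⟩ := exists_monic_relation N f
  have hsN : ∀ j ∈ Finset.Icc 1 μ, s j ∈ niceRing := fun j hj =>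
    mem_niceRing_of_isCF_one (hs j hj)
  have hsI : ∀ j ∈ Finset.Icc 1 μ, qExpansion 1 (s j) ∈ intSpan := fun j hj => by
    obtain ⟨G, hG⟩ := hs j hj
    have := levelOne_int_span (ModularFormClass.modularForm G)
    rwa [← hG]
  have hrelq : x ^ μ + ∑ j ∈ Finset.Icc 1 μ, qExpansion 1 (s j) * x ^ (μ - j) = 0 := by
    have h1 := congrArg (qExpansion 1) hrel
    rw [qExpansion_zero, qExp_add (pow_mem hfN μ)
      (sum_mem fun j hj => mul_mem (hsN j hj) (pow_mem hfN _)), qExp_pow hfN,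
      qExp_sum _ _ fun j hj => mul_mem (hsN j hj) (pow_mem hfN _)] at h1
    rw [← h1]
    congr 1
    refine Finset.sum_congr rfl fun j hj => ?_
    rw [qExp_mul (hsN j hj) (pow_mem hfN _), qExp_pow hfN]
  obtain ⟨ρ, hρ⟩ := exists_rat_linear_one
  -- apply `mapQ ρ`
  have hrelq' : x ^ μ + ∑ j ∈ Finset.Icc 1 μ, mapQ ρ (qExpansion 1 (s j)) * x ^ (μ - j) = 0 := by
    have h2 := congrArg (mapQ ρ) hrelq
    rw [mapQ_zero, mapQ_add, mapQ_of_isRatSeries ρ hρ _ (isRatSeries_pow hf μ), mapQ_sum] at h2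
    rw [← h2]
    congr 1
    refine Finset.sum_congr rfl fun j _ => ?_
    rw [mul_comm (qExpansion 1 (s j)) (x ^ (μ - j)),
      mapQ_mul_of_isRatSeries ρ _ _ (isRatSeries_pow hf _), mul_comm]
  have hden : ∀ j : ℕ, ∃ D : ℤ, D ≠ 0 ∧
      (j ∈ Finset.Icc 1 μ → IsIntSeries ((D : ℂ) • mapQ ρ (qExpansion 1 (s j)))) := fun j => by
    by_cases hj : j ∈ Finset.Icc 1 μ
    · obtain ⟨D, hD0, hD⟩ := mapQ_span_int ρ _ (hsI j hj)
      exact ⟨D, hD0, fun _ => hD⟩
    · exact ⟨1, one_ne_zero, fun h => absurd h hj⟩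
  choose Dj hDj0 hDj using hden
  -- (ii) the Lagrange relation
  obtain ⟨m, a, b, ha, hb, hB0, hAB⟩ := exists_lagrange_relation N (uFun_isCF N)
    (uFun_slash_ne N) f
  have huN : uFun N ∈ niceRing := by
    obtain ⟨G, hG⟩ := uFun_isCF N
    rw [← hG]
    exact mem_niceRing_of_modularForm G (one_mem_strictPeriods_Gamma0 N)
  have huI : qExpansion 1 (uFun N) ∈ intSpan := by
    obtain ⟨c, hc0, hc⟩ := uFun_qExpansion_int N
    have hc0' : (c : ℂ) ≠ 0 := by exact_mod_cast hc0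
    have : qExpansion 1 (uFun N) = (c : ℂ)⁻¹ • ((c : ℂ) • qExpansion 1 (uFun N)) := by
      rw [smul_smul, inv_mul_cancel₀ hc0', one_smul]
    rw [this]
    exact Submodule.smul_mem _ _ (Submodule.subset_span hc)
  have haN : ∀ i ∈ Finset.range (m + 1), a i ∈ niceRing := fun i hi =>
    mem_niceRing_of_isMF_one (ha i hi)
  have hbN : ∀ i ∈ Finset.range (m + 1), b i ∈ niceRing := fun i hi =>
    mem_niceRing_of_isMF_one (hb i hi)
  have haI : ∀ i ∈ Finset.range (m + 1), qExpansion 1 (a i) ∈ intSpan := fun i hi => by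
    obtain ⟨G, hG⟩ := ha i hi
    have := levelOne_int_span G
    rwa [hG] at this
  have hbI : ∀ i ∈ Finset.range (m + 1), qExpansion 1 (b i) ∈ intSpan := fun i hi => by
    obtain ⟨G, hG⟩ := hb i hi
    have := levelOne_int_span G
    rwa [hG] at this
  set B : ℍ → ℂ := ∑ i ∈ Finset.range (m + 1), b i * uFun N ^ i with hBdef
  set A : ℍ → ℂ := ∑ i ∈ Finset.range (m + 1), a i * uFun N ^ i with hAdef
  have hBN : B ∈ niceRing := sum_mem fun i hi => mul_mem (hbN i hi) (pow_mem huN i)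
  have hAN : A ∈ niceRing := sum_mem fun i hi => mul_mem (haN i hi) (pow_mem huN i)
  have hBI : qExpansion 1 B ∈ intSpan := by
    rw [hBdef, qExp_sum _ _ fun i hi => mul_mem (hbN i hi) (pow_mem huN i)]
    refine Submodule.sum_mem _ fun i hi => ?_
    rw [qExp_mul (hbN i hi) (pow_mem huN i), qExp_pow huN]
    exact span_int_mul _ _ (hbI i hi) (intSpan_pow huI i)
  have hAI : qExpansion 1 A ∈ intSpan := by
    rw [hAdef, qExp_sum _ _ fun i hi => mul_mem (haN i hi) (pow_mem huN i)]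
    refine Submodule.sum_mem _ fun i hi => ?_
    rw [qExp_mul (haN i hi) (pow_mem huN i), qExp_pow huN]
    exact span_int_mul _ _ (haI i hi) (intSpan_pow huI i)
  have hxB : x * qExpansion 1 B = qExpansion 1 A := by
    rw [hx, ← qExp_mul hfN hBN, hAB]
  have hβ0 : qExpansion 1 B ≠ 0 := qExp_ne_zero hBN hB0
  obtain ⟨n, hn⟩ : ∃ n, (qExpansion 1 B).coeff n ≠ 0 := by
    by_contra hcon
    exact hβ0 (PowerSeries.ext fun n => by
      by_contra hn'
      exact hcon ⟨n, by simpa using hn'⟩)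
  obtain ⟨ρ', hρ'⟩ := exists_rat_linear_apply_ne _ hn
  have hxE : x * mapQ ρ' (qExpansion 1 B) = mapQ ρ' (qExpansion 1 A) := by
    rw [← mapQ_mul_of_isRatSeries ρ' _ _ hf, hxB]
  have hE0 : mapQ ρ' (qExpansion 1 B) ≠ 0 := mapQ_ne_zero ρ' _ n hρ'
  obtain ⟨DE, hDE0, hDE⟩ := mapQ_span_int ρ' _ hBI
  obtain ⟨DG, hDG0, hDG⟩ := mapQ_span_int ρ' _ hAI
  -- (iii) clear denominators
  set D : ℤ := ∏ j ∈ Finset.Icc 1 μ, Dj j with hD
  have hD0 : D ≠ 0 := Finset.prod_ne_zero_iff.mpr fun j _ => hDj0 j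
  have hD0' : (D : ℂ) ≠ 0 := by exact_mod_cast hD0
  refine ⟨D, hD0, ?_⟩
  refine isIntSeries_of_fraction_of_monic ((D : ℂ) • x)
    (((DE * DG : ℤ) : ℂ) • mapQ ρ' (qExpansion 1 B))
    (((D * DE * DG : ℤ) : ℂ) • mapQ ρ' (qExpansion 1 A)) ?_ ?_ ?_ ?_ μ hμ
    (fun j => ((D : ℂ) ^ j) • mapQ ρ (qExpansion 1 (s j))) ?_ ?_
  · have := isIntSeries_int_smul hDE DG
    rw [smul_smul] at this
    convert this using 2
    push_cast; ring
  · have := isIntSeries_int_smul hDG (D * DE)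
    rw [smul_smul] at this
    convert this using 2
    push_cast; ring
  · intro h0
    rcases smul_eq_zero.mp h0 with h | h
    · have : (DE * DG : ℤ) = 0 := by exact_mod_cast h
      rcases mul_eq_zero.mp this with h' | h'
      · exact hDE0 h'
      · exact hDG0 h'
    · exact hE0 h
  · rw [smul_mul_smul_comm, hxE, ← Int.cast_mul, ← mul_assoc]
  · intro j hj
    obtain ⟨e, he⟩ : Dj j ∣ D := Finset.dvd_prod_of_mem _ hj
    have hj1 : 1 ≤ j := (Finset.mem_Icc.mp hj).1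
    have := isIntSeries_int_smul (hDj j hj) (e * D ^ (j - 1))
    rw [smul_smul] at this
    convert this using 2
    have : (D : ℂ) ^ j = (D : ℂ) ^ (j - 1) * D := by
      rw [← pow_succ, Nat.sub_add_cancel hj1]
    rw [this, he]
    push_cast
    ring
  · have key : ((D : ℂ) • x) ^ μ + ∑ j ∈ Finset.Icc 1 μ,
        ((D : ℂ) ^ j • mapQ ρ (qExpansion 1 (s j))) * ((D : ℂ) • x) ^ (μ - j)
        = (D : ℂ) ^ μ • (x ^ μ + ∑ j ∈ Finset.Icc 1 μ,
          mapQ ρ (qExpansion 1 (s j)) * x ^ (μ - j)) := by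
      rw [smul_add, Finset.smul_sum, smul_pow]
      congr 1
      refine Finset.sum_congr rfl fun j hj => ?_
      have hjμ : j ≤ μ := (Finset.mem_Icc.mp hj).2
      rw [smul_pow, smul_mul_smul_comm, ← pow_add, Nat.add_sub_cancel' hjμ]
    rw [key, hrelq', smul_zero]

end Fermat.Agent.S23
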