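import Fermat.Agent.S23.Defs

/-! # WP10 Descent: a finite-dimensional subspace of `ℂ⟦X⟧` stable under all coefficientwise ring
homs is spanned by its rational elements.
Math: the coefficient functionals restricted to `V` span the dual of `V`; choose indices
`n₁ … n_d` giving a basis of the dual and the dual basis `e₁ … e_d` of `V`
(`coeff (n i) (e j) = δ i j`).  Then `(e j).map σ ∈ V` has the same coordinates, so
`(e j).map σ = e j` for all `σ`; by `hfix` every coefficient of `e j` is rational. -/

set_option autoImplicit false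

namespace Fermat.Agent.S23

namespace Descent

open Module

/-- The `n`-th coefficient functional restricted to a submodule of `ℂ⟦X⟧`. -/
noncomputable def cf (V : Submodule ℂ (PowerSeries ℂ)) (n : ℕ) : Module.Dual ℂ V :=
  (PowerSeries.coeff n : PowerSeries ℂ →ₗ[ℂ] ℂ) ∘ₗ V.subtype

lemma cf_apply (V : Submodule ℂ (PowerSeries ℂ)) (n : ℕ) (v : V) :
    cf V n v = PowerSeries.coeff n (v : PowerSeries ℂ) := rfl

lemma span_cf_eq_top (V : Submodule ℂ (PowerSeries ℂ)) [FiniteDimensional ℂ V] :
    Submodule.span ℂ (Set.range (cf V)) = ⊤ := by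
  have h : (Submodule.span ℂ (Set.range (cf V))).dualCoannihilator = ⊥ := by
    rw [eq_bot_iff]
    intro v hv
    rw [Submodule.mem_dualCoannihilator] at hv
    rw [Submodule.mem_bot]
    apply Subtype.ext
    ext n
    have := hv (cf V n) (Submodule.subset_span ⟨n, rfl⟩)
    simpa [cf_apply] using this
  rw [← Subspace.dualCoannihilator_dualAnnihilator_eq
    (W := Submodule.span ℂ (Set.range (cf V))), h]
  simp

end Descent

open Descent in
/-- **D2.** -/
theorem rat_span_of_stable (V : Submodule ℂ (PowerSeries ℂ)) [FiniteDimensional ℂ V]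
    (hfix : ∀ z : ℂ, z ∉ Set.range (algebraMap ℚ ℂ) → ∃ σ : ℂ →+* ℂ, σ z ≠ z)
    (hV : ∀ σ : ℂ →+* ℂ, ∀ p ∈ V, p.map σ ∈ V) :
    V ≤ Submodule.span ℂ {r : PowerSeries ℂ | r ∈ V ∧ IsRatSeries r} := by
  classical
  -- a basis of the dual consisting of coefficient functionals
  have hs : (⊤ : Submodule ℂ (Module.Dual ℂ V)) ≤ Submodule.span ℂ (Set.range (cf V)) :=
    (span_cf_eq_top V).ge
  set b := Module.Basis.ofSpan hs with hb
  have hbmem : ∀ i, ∃ n : ℕ, cf V n = b i := fun i =>
    Module.Basis.ofSpan_subset hs ⟨i, rfl⟩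
  choose idx hidx using hbmem
  have : Fintype ((linearIndepOn_empty ℂ id).extend (Set.empty_subset (Set.range (cf V)))) :=
    FiniteDimensional.fintypeBasisIndex b
  -- the dual basis, transported to `V`
  set e : _ → V := fun j => (Module.evalEquiv ℂ V).symm (b.dualBasis j) with he
  have hbe : ∀ i j, b i (e j) = if i = j then 1 else 0 := by
    intro i j
    rw [he]
    simp only [Module.apply_evalEquiv_symm_apply]
    rw [Module.Basis.dualBasis_apply_self]
  -- elements of `V` are determined by their `b`-coordinates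
  have hsep : ∀ v : V, (∀ i, b i v = 0) → v = 0 := by
    intro v hv
    have h2 : ∀ φ : Module.Dual ℂ V, φ v = 0 := by
      intro φ
      have h3 := congrArg (fun ψ : Module.Dual ℂ V => ψ v) (b.sum_repr φ)
      simp only [LinearMap.sum_apply, LinearMap.smul_apply, hv, smul_zero,
        Finset.sum_const_zero] at h3
      exact h3.symm
    exact (Module.forall_dual_apply_eq_zero_iff ℂ v).mp h2
  -- each `e j` is fixed by all `σ`
  have hfixe : ∀ (σ : ℂ →+* ℂ) j, (e j : PowerSeries ℂ).map σ = (e j : PowerSeries ℂ) := by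
    intro σ j
    have hmem : (e j : PowerSeries ℂ).map σ ∈ V := hV σ _ (e j).2
    have h0 : (⟨_, hmem⟩ : V) - e j = 0 := by
      apply hsep
      intro i
      rw [map_sub, ← hidx i, cf_apply, cf_apply]
      have h1 : PowerSeries.coeff (idx i) ((e j : PowerSeries ℂ)) = if i = j then 1 else 0 := by
        rw [← cf_apply, hidx i, hbe]
      simp only [PowerSeries.coeff_map, h1]
      split_ifs <;> simp
    have h1 := sub_eq_zero.mp h0
    exact congrArg Subtype.val h1
  have hrat : ∀ j, IsRatSeries (e j : PowerSeries ℂ) := by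
    intro j n
    by_contra hcon
    have hz : PowerSeries.coeff n (e j : PowerSeries ℂ) ∉ Set.range (algebraMap ℚ ℂ) := by
      rintro ⟨r, hr⟩
      exact hcon ⟨r, hr.symm⟩
    obtain ⟨σ, hσ⟩ := hfix _ hz
    apply hσ
    have := congrArg (PowerSeries.coeff n) (hfixe σ j)
    simpa [PowerSeries.coeff_map] using this
  -- every element of `V` is a combination of the `e j`
  intro p hp
  have hdecomp : (⟨p, hp⟩ : V) = ∑ j, (b j ⟨p, hp⟩) • e j := by
    rw [← sub_eq_zero]
    apply hsep
    intro i
    rw [map_sub, map_sum]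
    simp only [map_smul, hbe, smul_eq_mul, mul_ite, mul_one, mul_zero, Finset.sum_ite_eq,
      Finset.mem_univ, if_true, sub_self]
  have hp' : p = ∑ j, (b j ⟨p, hp⟩) • (e j : PowerSeries ℂ) := by
    have := congrArg Subtype.val hdecomp
    simpa using this
  rw [hp']
  refine Submodule.sum_mem _ fun j _ => Submodule.smul_mem _ _ (Submodule.subset_span ?_)
  exact ⟨(e j).2, hrat j⟩

end Fermat.Agent.S23
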