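import Fermat.Agent.S23.Defs

/-! # WP9 FixedField: ring endomorphisms of `ℂ` fix only `ℚ`.

Proof: a ring automorphism of the polynomial ring on a transcendence basis extends to an
automorphism of the algebraically closed field (`IsAlgClosure.equivOfEquiv`).  Hence a number
fixed by every automorphism of `ℂ` is algebraic (translate a transcendence basis element) and
then rational (extend automorphisms of `algebraicClosure ℚ ℂ` and use infinite Galois theory). -/

set_option autoImplicit false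

namespace Fermat.Agent.S23.FixedField

open MvPolynomial

/-- Extension of a ring automorphism of the polynomial ring on a transcendence basis to the
algebraically closed field. -/
theorem autC_exists_extension {R K : Type*} {ι : Type*} [CommRing R] [Field K] [Algebra R K]
    [IsAlgClosed K] (v : ι → K) (hv : IsTranscendenceBasis R v)
    (e : MvPolynomial ι R ≃+* MvPolynomial ι R) :
    ∃ σ : K ≃+* K, ∀ p : MvPolynomial ι R, σ (aeval v p) = aeval v (e p) := by
  classical
  have hcl := IsAlgClosed.isAlgClosure_of_transcendence_basis v hv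
  let E : Algebra.adjoin R (Set.range v) ≃+* Algebra.adjoin R (Set.range v) :=
    hv.1.aevalEquiv.symm.toRingEquiv.trans (e.trans hv.1.aevalEquiv.toRingEquiv)
  refine ⟨IsAlgClosure.equivOfEquiv K K E, fun p => ?_⟩
  have h1 : (aeval v p : K) = algebraMap (Algebra.adjoin R (Set.range v)) K (hv.1.aevalEquiv p) :=
    (AlgebraicIndependent.algebraMap_aevalEquiv hv.1 p).symm
  have h2 : (aeval v (e p) : K)
      = algebraMap (Algebra.adjoin R (Set.range v)) K (hv.1.aevalEquiv (e p)) :=
    (AlgebraicIndependent.algebraMap_aevalEquiv hv.1 (e p)).symm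
  rw [h1, h2, IsAlgClosure.equivOfEquiv_algebraMap]
  congr 1
  simp [E]

/-- A complex number fixed by all ring automorphisms of `ℂ` is algebraic over `ℚ`. -/
theorem autC_isAlgebraic_of_fixed (x : ℂ) (hx : ∀ σ : ℂ ≃+* ℂ, σ x = x) : IsAlgebraic ℚ x := by
  classical
  by_contra hx'
  have htr : Transcendental ℚ x := hx'
  have hind : AlgebraicIndepOn ℚ id ({x} : Set ℂ) :=
    (algebraicIndependent_unique_type_iff (R := ℚ) (x := fun i : ({x} : Set ℂ) => id (i : ℂ))).mpr htr
  obtain ⟨t, hst, ht⟩ := exists_isTranscendenceBasis_superset hind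
  have hxt : x ∈ t := hst (Set.mem_singleton x)
  let x₀ : t := ⟨x, hxt⟩
  let c : t → ℚ := fun i => if i = x₀ then 1 else 0
  let f : MvPolynomial t ℚ →ₐ[ℚ] MvPolynomial t ℚ := aeval (fun i => X i + C (c i))
  let g : MvPolynomial t ℚ →ₐ[ℚ] MvPolynomial t ℚ := aeval (fun i => X i - C (c i))
  have hfg : f.comp g = AlgHom.id ℚ _ := by
    apply MvPolynomial.algHom_ext
    intro i
    simp [f, g]
  have hgf : g.comp f = AlgHom.id ℚ _ := by
    apply MvPolynomial.algHom_ext
    intro i
    simp [f, g]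
  let e : MvPolynomial t ℚ ≃ₐ[ℚ] MvPolynomial t ℚ := AlgEquiv.ofAlgHom f g hfg hgf
  obtain ⟨σ, hσ⟩ := autC_exists_extension (Subtype.val : t → ℂ) ht e.toRingEquiv
  have h := hσ (X x₀)
  have h3 : (e.toRingEquiv (X x₀) : MvPolynomial t ℚ) = X x₀ + C 1 := by
    simp [e, f, c]
  rw [h3] at h
  simp only [aeval_X, map_add, map_one] at h
  rw [show ((x₀ : t) : ℂ) = x from rfl, hx σ] at h
  simp at h

/-- A complex number fixed by every ring automorphism of `ℂ` is rational. -/
theorem rat_of_forall_ringEquiv_fixed (x : ℂ) (hx : ∀ σ : ℂ ≃+* ℂ, σ x = x) :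
    ∃ r : ℚ, x = (r : ℂ) := by
  classical
  have halg : IsAlgebraic ℚ x := autC_isAlgebraic_of_fixed x hx
  let Qb : IntermediateField ℚ ℂ := algebraicClosure ℚ ℂ
  have hxQ : x ∈ Qb := mem_algebraicClosure_iff.mpr halg
  have hQ : IsAlgClosure ℚ Qb := algebraicClosure.isAlgClosure ℚ ℂ
  have : Normal ℚ Qb := IsAlgClosure.normal ℚ Qb
  have : Algebra.IsAlgebraic ℚ Qb := hQ.isAlgebraic
  have : Algebra.IsSeparable ℚ Qb := inferInstance
  have : IsGalois ℚ Qb := ⟨⟩
  obtain ⟨ι, v, hv⟩ := exists_isTranscendenceBasis' (R := Qb) (A := ℂ)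
  have hfix : ∀ φ : Qb ≃ₐ[ℚ] Qb, φ ⟨x, hxQ⟩ = ⟨x, hxQ⟩ := by
    intro φ
    obtain ⟨σ, hσ⟩ := autC_exists_extension v hv (MvPolynomial.mapEquiv ι φ.toRingEquiv)
    have h := hσ (C ⟨x, hxQ⟩)
    simp only [aeval_C, MvPolynomial.mapEquiv_apply, map_C] at h
    apply Subtype.ext
    have h' : σ x = ((φ ⟨x, hxQ⟩ : Qb) : ℂ) := by simpa using h
    rw [← h', hx σ]
  obtain ⟨r, hr⟩ := (InfiniteGalois.mem_range_algebraMap_iff_fixed (k := ℚ) (K := Qb) ⟨x, hxQ⟩).mpr hfix
  refine ⟨r, ?_⟩
  have := congrArg (Subtype.val : Qb → ℂ) hr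
  simpa using this.symm

end Fermat.Agent.S23.FixedField

namespace Fermat.Agent.S23

/-- **D1.** -/
theorem exists_ringHom_ne (z : ℂ) (hz : z ∉ Set.range (algebraMap ℚ ℂ)) :
    ∃ σ : ℂ →+* ℂ, σ z ≠ z := by
  by_contra hcon
  push Not at hcon
  obtain ⟨r, hr⟩ := FixedField.rat_of_forall_ringEquiv_fixed z (fun σ => hcon σ.toRingHom)
  exact hz ⟨r, by rw [hr]; simp⟩

end Fermat.Agent.S23
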