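import Fermat.Agent.S23.GaloisStable
import Fermat.Agent.S23.FixedField
import Fermat.Agent.S23.Descent
import Fermat.Agent.S23.BoundedDenom
import Fermat.Prelude.Thm_ModularForm_sturm_bound_Gamma0
import Fermat.Prelude.Thm_CuspForm_intLattice_fg

/-! # WP14 Main: integral structure in every weight (DONE, helper83).
`V` = image of `S_k(Γ₀(N))` under `qExpansion 1` (a `ℂ`-linear injective map; the space is
finite-dimensional by the Prelude Sturm bound).  `exists_map` ⇒ `V` stable;
`rat_span_of_stable` + `exists_ringHom_ne` ⇒ every `f` is a `ℂ`-combination of cusp forms `g` with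
rational q-expansion; `exists_int_multiple` ⇒ `D • g` has integral q-expansion, i.e. lies in
`CuspForm.intLattice N k`. -/

set_option autoImplicit false

namespace Fermat.Agent.S23

open UpperHalfPlane ModularForm CongruenceSubgroup
open scoped MatrixGroups ModularForm Manifold

namespace Main

variable {N : ℕ} {k : ℤ}

theorem one_mem (N : ℕ) : (1 : ℝ) ∈ (Gamma0 N : Subgroup (GL (Fin 2) ℝ)).strictPeriods :=
  CongruenceSubgroup.one_mem_strictPeriods_Gamma0 N

/-- The q-expansion as a `ℂ`-linear map on cusp forms. -/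
noncomputable def qExpLin (N : ℕ) (k : ℤ) :
    CuspForm (Gamma0 N : Subgroup (GL (Fin 2) ℝ)) k →ₗ[ℂ] PowerSeries ℂ where
  toFun f := qExpansion 1 f
  map_add' f g := by
    rw [FunLike.coe_add]
    exact ModularForm.qExpansion_add one_pos (one_mem N) f g
  map_smul' c f := by
    have h1 : ⇑(c • f) = c • ⇑f := by
      ext z
      simp
    rw [h1]
    simpa using ModularForm.qExpansion_smul one_pos (one_mem N) c f

theorem qExpLin_apply (f : CuspForm (Gamma0 N : Subgroup (GL (Fin 2) ℝ)) k) :
    qExpLin N k f = qExpansion 1 f := rfl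

theorem qExpLin_injective (N : ℕ) [NeZero N] (k : ℤ) : Function.Injective (qExpLin N k) := by
  refine (injective_iff_map_eq_zero _).mpr fun f hf ↦ ?_
  rw [qExpLin_apply] at hf
  have hmf : qExpansion 1 (ModularFormClass.modularForm f :
      ModularForm (Gamma0 N : Subgroup (GL (Fin 2) ℝ)) k) = 0 := hf
  rw [ModularForm.qExpansion_eq_zero_iff one_pos (one_mem N)] at hmf
  have hcoe : (⇑f : ℍ → ℂ) = 0 := by
    have := congrArg (fun F : ModularForm (Gamma0 N : Subgroup (GL (Fin 2) ℝ)) k ↦ (⇑F : ℍ → ℂ)) hmf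
    simpa using this
  exact DFunLike.coe_injective (hcoe.trans FunLike.coe_zero.symm)

/-- Finite-dimensionality of the space of cusp forms, from the Sturm bound. -/
theorem finiteDimensional (N : ℕ) [NeZero N] (k : ℤ) :
    FiniteDimensional ℂ (CuspForm (Gamma0 N : Subgroup (GL (Fin 2) ℝ)) k) := by
  classical
  let B : ℕ := (k * (Gamma0 N).index).toNat / 12
  let T : CuspForm (Gamma0 N : Subgroup (GL (Fin 2) ℝ)) k →ₗ[ℂ] (Fin (B + 1) → ℂ) :=
    { toFun := fun f i => (qExpLin N k f).coeff i
      map_add' := fun f g => by funext i; simp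
      map_smul' := fun c f => by funext i; simp }
  refine FiniteDimensional.of_injective T ?_
  refine (injective_iff_map_eq_zero _).mpr fun f hf ↦ ?_
  have hmf : (ModularFormClass.modularForm f :
      ModularForm (Gamma0 N : Subgroup (GL (Fin 2) ℝ)) k) = 0 := by
    refine ModularForm.sturm_bound_Gamma0 N _ fun n hn ↦ ?_
    have := congrFun hf ⟨n, Nat.lt_succ_of_le hn⟩
    simpa [T, qExpLin] using this
  have hcoe : (⇑f : ℍ → ℂ) = 0 := by
    have := congrArg (fun F : ModularForm (Gamma0 N : Subgroup (GL (Fin 2) ℝ)) k ↦ (⇑F : ℍ → ℂ)) hmf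
    simpa using this
  exact DFunLike.coe_injective (hcoe.trans FunLike.coe_zero.symm)

end Main

open Main in
/-- **M.** The integral structure theorem for `S_k(Γ₀(N))`, all weights. -/
theorem hasIntegralStructure (N : ℕ) [NeZero N] (k : ℤ) : CuspForm.HasIntegralStructure N k := by
  classical
  have := Main.finiteDimensional N k
  unfold CuspForm.HasIntegralStructure
  rw [eq_top_iff]
  intro f _
  set W : Submodule ℂ (CuspForm (Gamma0 N : Subgroup (GL (Fin 2) ℝ)) k) :=
    Submodule.span ℂ ((CuspForm.intLattice N k : Submodule ℤ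
      (CuspForm (Gamma0 N : Subgroup (GL (Fin 2) ℝ)) k)) :
      Set (CuspForm (Gamma0 N : Subgroup (GL (Fin 2) ℝ)) k)) with hW
  -- the image of the q-expansion map
  set V : Submodule ℂ (PowerSeries ℂ) := LinearMap.range (qExpLin N k) with hV
  have hstab : ∀ σ : ℂ →+* ℂ, ∀ p ∈ V, p.map σ ∈ V := by
    rintro σ p ⟨g, rfl⟩
    obtain ⟨g', hg'⟩ := exists_map N σ g
    exact ⟨g', by rw [qExpLin_apply, qExpLin_apply, hg']⟩
  have hspan := rat_span_of_stable V exists_ringHom_ne hstab
  -- rational elements of `V` come from `W`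
  have hrat : {r : PowerSeries ℂ | r ∈ V ∧ IsRatSeries r} ⊆ (W.map (qExpLin N k) : Set _) := by
    rintro r ⟨⟨g, rfl⟩, hr⟩
    rw [qExpLin_apply] at hr
    obtain ⟨D, hD0, hD⟩ := exists_int_multiple N g hr
    refine ⟨g, ?_, rfl⟩
    have hDg : (D : ℂ) • g ∈ W := by
      refine Submodule.subset_span (Submodule.subset_span ?_)
      intro n
      obtain ⟨m, hm⟩ := hD n
      refine ⟨m, ?_⟩
      rw [← hm, ModularFormClass.qCoeff, ← qExpLin_apply, map_smul, qExpLin_apply]
    have hDc : (D : ℂ) ≠ 0 := by exact_mod_cast hD0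
    have : g = (D : ℂ)⁻¹ • ((D : ℂ) • g) := by
      rw [smul_smul, inv_mul_cancel₀ hDc, one_smul]
    rw [this]
    exact W.smul_mem _ hDg
  have hf : qExpLin N k f ∈ W.map (qExpLin N k) :=
    Submodule.span_le.mpr hrat (hspan ⟨f, rfl⟩)
  obtain ⟨g, hg, hgf⟩ := hf
  rwa [← qExpLin_injective N k hgf]

end Fermat.Agent.S23
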