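import Mathlib
import Fermat.Prelude.Def_CuspForm_IntegralStructure
import Fermat.Prelude.Def_ModularForm_HeckeOperator

/-!
# S23 squad: common definitions (FROZEN interface, do not edit statements)

Everything lives in `namespace Fermat.Agent.S23`.  Auxiliary lemmas of a work package go in
the sub-namespace named after its file (e.g. `Fermat.Agent.S23.Removable`).
-/

set_option autoImplicit false

namespace Fermat.Agent.S23

open UpperHalfPlane ModularForm CongruenceSubgroup
open scoped MatrixGroups ModularForm Manifold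

noncomputable section

/-- A power series over `ℂ` all of whose coefficients are (images of) integers. -/
def IsIntSeries (p : PowerSeries ℂ) : Prop := ∀ n : ℕ, ∃ m : ℤ, p.coeff n = (m : ℂ)

/-- A power series over `ℂ` all of whose coefficients are (images of) rationals. -/
def IsRatSeries (p : PowerSeries ℂ) : Prop := ∀ n : ℕ, ∃ r : ℚ, p.coeff n = (r : ℂ)

/-- `F` is the underlying function of a modular form of weight `w` for `Γ`. -/
def IsMF (Γ : Subgroup (GL (Fin 2) ℝ)) (w : ℤ) (F : ℍ → ℂ) : Prop :=
  ∃ G : ModularForm Γ w, ⇑G = F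

/-- `F` is the underlying function of a cusp form of weight `w` for `Γ`. -/
def IsCF (Γ : Subgroup (GL (Fin 2) ℝ)) (w : ℤ) (F : ℍ → ℂ) : Prop :=
  ∃ G : CuspForm Γ w, ⇑G = F

/-- The level-raised discriminant `u = Δ ∣[12] diag(N,1)`, i.e. `u z = N ^ 11 * Δ (N z)`. -/
def uFun (N : ℕ) : ℍ → ℂ :=
  (ModularForm.discriminant : ℍ → ℂ) ∣[(12 : ℤ)] ModularForm.heckeDiagMatrix N

/-- Coefficientwise application of a `ℚ`-linear functional `ℂ → ℚ` to a power series. -/
def mapQ (ρ : ℂ →ₗ[ℚ] ℚ) (p : PowerSeries ℂ) : PowerSeries ℂ :=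
  PowerSeries.mk fun n => ((ρ (p.coeff n) : ℚ) : ℂ)

end

end Fermat.Agent.S23
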