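import Fermat.Agent.S23.Defs

/-! # WP6 Removable: division of holomorphic functions on `ℍ` under an integrality relation.
Math: zeros of `B` are isolated (`B ≠ 0`, `ℍ` connected).  Off the zeros, `g = A / B` satisfies the
monic equation, hence `‖g‖ ≤ 1 + ∑ ‖s j‖` is locally bounded near each zero of `B`; removable
singularity (`Complex.differentiableOn_update_limUnder_of_bddAbove` and friends), or compare
`analyticOrderAt A z₀ ≥ analyticOrderAt B z₀` and factor.  The monic identity for `g` holds off the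
zeros of `B`, hence everywhere by continuity.  Transfer between `ℍ → ℂ` and `ℂ → ℂ` with
`UpperHalfPlane.mdifferentiable_iff` / `ofComplex`. -/

set_option autoImplicit false

namespace Fermat.Agent.S23

open UpperHalfPlane
open scoped Manifold

namespace Removable

open Filter Topology Set Function

/-- Division lemma on an open preconnected set of `ℂ`: if `a`, `b` are holomorphic on `U`, `a` is
not identically zero and `b / a` is locally bounded, then `b = g * a` with `g` holomorphic. -/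
theorem exists_differentiableOn_mul_eq {U : Set ℂ} (hU : IsOpen U) (hUc : IsPreconnected U)
    {a b : ℂ → ℂ} (ha : DifferentiableOn ℂ a U) (hb : DifferentiableOn ℂ b U)
    (ha0 : ∃ z ∈ U, a z ≠ 0)
    (hbdd : ∀ z ∈ U, ∃ C : ℝ, ∀ᶠ w in 𝓝 z, ‖b w‖ ≤ C * ‖a w‖) :
    ∃ g : ℂ → ℂ, DifferentiableOn ℂ g U ∧ ∀ z ∈ U, g z * a z = b z := by
  have haA : AnalyticOnNhd ℂ a U := ha.analyticOnNhd hU
  -- zeros of `a` are isolated
  have key1 : ∀ z ∈ U, ∀ᶠ w in 𝓝[≠] z, a w ≠ 0 := by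
    intro z hz
    rcases (haA z hz).eventually_eq_zero_or_eventually_ne_zero with h | h
    · exfalso
      obtain ⟨z1, hz1, hz1'⟩ := ha0
      exact hz1' (haA.eqOn_zero_of_preconnected_of_eventuallyEq_zero hUc hz h hz1)
    · exact h
  set f : ℂ → ℂ := fun w => b w / a w with hf
  set g : ℂ → ℂ := fun z => limUnder (𝓝[≠] z) f with hg
  -- where `a` does not vanish, `g = f`
  have hgf : ∀ w ∈ U, a w ≠ 0 → g w = f w := by
    intro w hw haw
    have hcont : ContinuousAt f w :=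
      ((hb.differentiableAt (hU.mem_nhds hw)).continuousAt).div
        ((ha.differentiableAt (hU.mem_nhds hw)).continuousAt) haw
    exact (hcont.tendsto.mono_left nhdsWithin_le_nhds).limUnder_eq
  refine ⟨g, ?_, ?_⟩
  · intro z0 hz0
    obtain ⟨C, hC⟩ := hbdd z0 hz0
    have h1 : ∀ᶠ w in 𝓝 z0, w ≠ z0 → a w ≠ 0 := eventually_nhdsWithin_iff.mp (key1 z0 hz0)
    have h2 : ∀ᶠ w in 𝓝 z0, w ∈ U := hU.mem_nhds hz0
    obtain ⟨t, ht, htopen, hz0t⟩ := mem_nhds_iff.mp (h1.and (h2.and hC))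
    have htn : t ∈ 𝓝 z0 := htopen.mem_nhds hz0t
    have hd : DifferentiableOn ℂ f (t \ {z0}) := by
      intro w hw
      have hwt := ht hw.1
      have hwU : w ∈ U := hwt.2.1
      have haw : a w ≠ 0 := hwt.1 hw.2
      exact ((hb.differentiableAt (hU.mem_nhds hwU)).div
        (ha.differentiableAt (hU.mem_nhds hwU)) haw).differentiableWithinAt
    have hbd : BddAbove (norm ∘ f '' (t \ {z0})) := by
      refine ⟨C, ?_⟩
      rintro _ ⟨w, hw, rfl⟩
      have hwt := ht hw.1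
      have haw : a w ≠ 0 := hwt.1 hw.2
      have hle : ‖b w‖ ≤ C * ‖a w‖ := hwt.2.2
      simp only [comp_apply, hf, norm_div]
      rw [div_le_iff₀ (norm_pos_iff.mpr haw)]
      exact hle
    have hupd := Complex.differentiableOn_update_limUnder_of_bddAbove htn hd hbd
    have heq : ∀ w ∈ t, g w = update f z0 (limUnder (𝓝[≠] z0) f) w := by
      intro w hw
      by_cases hwz : w = z0
      · subst hwz
        simp [hg]
      · rw [update_of_ne hwz]
        exact hgf w (ht hw).2.1 ((ht hw).1 hwz)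
    have hgt : DifferentiableOn ℂ g t := hupd.congr heq
    exact (hgt.differentiableAt htn).differentiableWithinAt
  · intro z hz
    by_cases haz : a z = 0
    · obtain ⟨C, hC⟩ := hbdd z hz
      have := hC.self_of_nhds
      rw [haz, norm_zero, mul_zero] at this
      rw [haz, mul_zero]
      exact (norm_le_zero_iff.mp this).symm
    · rw [hgf z hz haz, hf]
      field_simp

/-- Division lemma on the upper half plane: if `A`, `B` are holomorphic, `A ≠ 0` and `B / A` is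
locally bounded, then `B = g * A` with `g` holomorphic. -/
theorem exists_mdiff_mul_eq {A B : ℍ → ℂ} (hA : MDiff A) (hB : MDiff B) (hA0 : A ≠ 0)
    (hbdd : ∀ τ : ℍ, ∃ C : ℝ, ∀ᶠ w in 𝓝 τ, ‖B w‖ ≤ C * ‖A w‖) :
    ∃ g : ℍ → ℂ, MDiff g ∧ ∀ τ, g τ * A τ = B τ := by
  have hA' := UpperHalfPlane.mdifferentiable_iff.mp hA
  have hB' := UpperHalfPlane.mdifferentiable_iff.mp hB
  have hUc : IsPreconnected {z : ℂ | 0 < z.im} :=
    (Complex.isConnected_of_upperHalfPlane (r := 0) subset_rfl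
      (fun z (hz : 0 < z.im) => le_of_lt hz)).isPreconnected
  have ha0 : ∃ z ∈ {z : ℂ | 0 < z.im}, (A ∘ ofComplex) z ≠ 0 := by
    by_contra hcon
    push Not at hcon
    apply hA0
    ext τ
    have := hcon (τ : ℂ) τ.im_pos
    simpa using this
  have hbdd' : ∀ z ∈ {z : ℂ | 0 < z.im}, ∃ C : ℝ,
      ∀ᶠ w in 𝓝 z, ‖(B ∘ ofComplex) w‖ ≤ C * ‖(A ∘ ofComplex) w‖ := by
    intro z hz
    obtain ⟨C, hC⟩ := hbdd ⟨z, hz⟩
    refine ⟨C, ?_⟩
    have hcont : ContinuousAt ofComplex z :=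
      (UpperHalfPlane.contMDiffAt_ofComplex (n := 0) hz).continuousAt
    have hz' : ofComplex z = ⟨z, hz⟩ := ofComplex_apply_of_im_pos hz
    rw [← hz'] at hC
    exact hcont.eventually hC
  obtain ⟨g, hg, hmul⟩ := exists_differentiableOn_mul_eq UpperHalfPlane.isOpen_upperHalfPlaneSet
    hUc hA' hB' ha0 hbdd'
  refine ⟨fun τ => g (τ : ℂ), ?_, ?_⟩
  · rw [UpperHalfPlane.mdifferentiable_iff]
    refine hg.congr ?_
    intro z hz
    simp only [comp_apply]
    rw [ofComplex_apply_of_im_pos hz]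
  · intro τ
    have := hmul (τ : ℂ) τ.im_pos
    simpa using this

/-- Cauchy-type root bound: a root of a monic polynomial is bounded by `1 + ∑ ‖cⱼ‖`. -/
theorem norm_le_one_add_sum {μ : ℕ} (hμ : 0 < μ) {x : ℂ} {c : ℕ → ℂ}
    (h : x ^ μ + ∑ j ∈ Finset.Icc 1 μ, c j * x ^ (μ - j) = 0) :
    ‖x‖ ≤ 1 + ∑ j ∈ Finset.Icc 1 μ, ‖c j‖ := by
  have hS : 0 ≤ ∑ j ∈ Finset.Icc 1 μ, ‖c j‖ := Finset.sum_nonneg fun i _ => norm_nonneg _
  by_cases hx : ‖x‖ ≤ 1
  · linarith
  · push Not at hx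
    have hxpos : 0 < ‖x‖ := by linarith
    have h1 : ‖x‖ ^ μ ≤ (∑ j ∈ Finset.Icc 1 μ, ‖c j‖) * ‖x‖ ^ (μ - 1) := by
      have h2 : x ^ μ = -∑ j ∈ Finset.Icc 1 μ, c j * x ^ (μ - j) := eq_neg_of_add_eq_zero_left h
      calc ‖x‖ ^ μ = ‖x ^ μ‖ := (norm_pow _ _).symm
        _ = ‖∑ j ∈ Finset.Icc 1 μ, c j * x ^ (μ - j)‖ := by rw [h2, norm_neg]
        _ ≤ ∑ j ∈ Finset.Icc 1 μ, ‖c j * x ^ (μ - j)‖ := norm_sum_le _ _
        _ ≤ ∑ j ∈ Finset.Icc 1 μ, ‖c j‖ * ‖x‖ ^ (μ - 1) := by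
            refine Finset.sum_le_sum fun j hj => ?_
            rw [norm_mul, norm_pow]
            refine mul_le_mul_of_nonneg_left ?_ (norm_nonneg _)
            have hj1 : 1 ≤ j := (Finset.mem_Icc.mp hj).1
            exact pow_le_pow_right₀ hx.le (by omega)
        _ = (∑ j ∈ Finset.Icc 1 μ, ‖c j‖) * ‖x‖ ^ (μ - 1) := by rw [Finset.sum_mul]
    have h3 : ‖x‖ ^ μ = ‖x‖ * ‖x‖ ^ (μ - 1) := by
      rw [← pow_succ']
      congr 1
      omega
    rw [h3] at h1
    have h4 : ‖x‖ ≤ ∑ j ∈ Finset.Icc 1 μ, ‖c j‖ := le_of_mul_le_mul_right h1 (pow_pos hxpos _)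
    linarith

/-- Homogeneous version: if `a^μ + ∑ cⱼ a^(μ-j) b^j = 0` then `‖a‖ ≤ (1 + ∑ ‖cⱼ‖) ‖b‖`. -/
theorem norm_le_mul_of_homogeneous {μ : ℕ} (hμ : 0 < μ) {a b : ℂ} {c : ℕ → ℂ}
    (h : a ^ μ + ∑ j ∈ Finset.Icc 1 μ, c j * a ^ (μ - j) * b ^ j = 0) :
    ‖a‖ ≤ (1 + ∑ j ∈ Finset.Icc 1 μ, ‖c j‖) * ‖b‖ := by
  by_cases hb : b = 0
  · subst hb
    have h0 : ∑ j ∈ Finset.Icc 1 μ, c j * a ^ (μ - j) * (0 : ℂ) ^ j = 0 := by
      refine Finset.sum_eq_zero fun j hj => ?_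
      have : j ≠ 0 := by have := (Finset.mem_Icc.mp hj).1; omega
      rw [zero_pow this, mul_zero]
    rw [h0, add_zero] at h
    have ha : a = 0 := pow_eq_zero_iff (by omega) |>.mp h
    simp [ha]
  · have hpow : b ^ μ ≠ 0 := pow_ne_zero _ hb
    have hrel : (a / b) ^ μ + ∑ j ∈ Finset.Icc 1 μ, c j * (a / b) ^ (μ - j) = 0 := by
      have : ((a / b) ^ μ + ∑ j ∈ Finset.Icc 1 μ, c j * (a / b) ^ (μ - j)) * b ^ μ = 0 := by
        rw [add_mul, Finset.sum_mul, div_pow, div_mul_cancel₀ _ hpow]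
        rw [← h]
        congr 1
        refine Finset.sum_congr rfl fun j hj => ?_
        have hj2 : j ≤ μ := (Finset.mem_Icc.mp hj).2
        have : b ^ μ = b ^ (μ - j) * b ^ j := by
          rw [← pow_add]; congr 1; omega
        rw [this, div_pow]
        field_simp
      exact (mul_eq_zero.mp this).resolve_right hpow
    have hbound := norm_le_one_add_sum hμ hrel
    rw [norm_div, div_le_iff₀ (norm_pos_iff.mpr hb)] at hbound
    exact hbound

end Removable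

open Removable in
/-- **R.** -/
theorem exists_holo_quotient (A B : ℍ → ℂ) (hA : MDiff A) (hB : MDiff B) (hB0 : B ≠ 0)
    (μ : ℕ) (hμ : 0 < μ) (s : ℕ → ℍ → ℂ) (hs : ∀ j ∈ Finset.Icc 1 μ, MDiff (s j))
    (h : A ^ μ + ∑ j ∈ Finset.Icc 1 μ, s j * A ^ (μ - j) * B ^ j = 0) :
    ∃ g : ℍ → ℂ, MDiff g ∧ g * B = A ∧
      g ^ μ + ∑ j ∈ Finset.Icc 1 μ, s j * g ^ (μ - j) = 0 := by
  -- pointwise form of the relation
  have hpt : ∀ τ : ℍ, A τ ^ μ + ∑ j ∈ Finset.Icc 1 μ, s j τ * A τ ^ (μ - j) * B τ ^ j = 0 := by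
    intro τ
    have := congrFun h τ
    simpa using this
  -- local bound
  have hbdd : ∀ τ : ℍ, ∃ C : ℝ, ∀ᶠ w in nhds τ, ‖A w‖ ≤ C * ‖B w‖ := by
    intro τ
    refine ⟨1 + ∑ j ∈ Finset.Icc 1 μ, (‖s j τ‖ + 1), ?_⟩
    have hev : ∀ j ∈ Finset.Icc 1 μ, ∀ᶠ w in nhds τ, ‖s j w‖ ≤ ‖s j τ‖ + 1 := by
      intro j hj
      have hc : ContinuousAt (fun w => ‖s j w‖) τ := ((hs j hj).continuous.continuousAt).norm
      have : ∀ᶠ w in nhds τ, ‖s j w‖ < ‖s j τ‖ + 1 :=
        hc.eventually (gt_mem_nhds (lt_add_one _))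
      exact this.mono fun w hw => hw.le
    have hall : ∀ᶠ w in nhds τ, ∀ j ∈ Finset.Icc 1 μ, ‖s j w‖ ≤ ‖s j τ‖ + 1 :=
      (Filter.eventually_all_finset _).mpr hev
    filter_upwards [hall] with w hw
    refine (norm_le_mul_of_homogeneous hμ (hpt w)).trans ?_
    refine mul_le_mul_of_nonneg_right ?_ (norm_nonneg _)
    exact add_le_add_right (Finset.sum_le_sum hw) 1
  obtain ⟨g, hg, hmul⟩ := exists_mdiff_mul_eq hB hA hB0 hbdd
  have hgB : g * B = A := funext hmul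
  refine ⟨g, hg, hgB, ?_⟩
  -- the monic relation for `g`
  set G : ℍ → ℂ := g ^ μ + ∑ j ∈ Finset.Icc 1 μ, s j * g ^ (μ - j) with hG
  have hGB : G * B ^ μ = 0 := by
    rw [← h, hG, ← hgB, add_mul, Finset.sum_mul, mul_pow]
    congr 1
    refine Finset.sum_congr rfl fun j hj => ?_
    have hj2 : j ≤ μ := (Finset.mem_Icc.mp hj).2
    have : B ^ μ = B ^ (μ - j) * B ^ j := by
      rw [← pow_add]; congr 1; omega
    rw [this, mul_pow]
    ring
  have hGd : MDiff G := by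
    rw [hG]
    refine (hg.pow μ).add ?_
    refine MDifferentiable.sum fun j hj => ?_
    exact (hs j hj).mul (hg.pow _)
  rcases (UpperHalfPlane.mul_eq_zero_iff hGd (hB.pow μ)).mp hGB with h0 | h0
  · exact h0
  · exfalso
    apply hB0
    ext τ
    have := congrFun h0 τ
    simpa using pow_eq_zero_iff (by omega : μ ≠ 0) |>.mp this

end Fermat.Agent.S23
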