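import Fermat.Agent.S23.Twist
import Fermat.Agent.S23.Removable
import Fermat.Prelude.Thm_CongruenceSubgroup_one_mem_strictPeriods_Gamma0

/-! # WP8 GaloisStable: `S_k(Γ₀(N))` is stable under coefficientwise ring homs.
Math for `exists_cuspForm_of_relation`: `exists_holo_quotient` gives holomorphic `g` with
`g * B = A` and `g^μ + ∑ s j * g^(μ-j) = 0`.  Invariance: for `γ ∈ Γ₀(N)`,
`(g ∣[k] γ) * B = (g * B) ∣[k+w] γ = A = g * B`, so `g ∣[k] γ = g` off the zeros of `B`, hence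
everywhere (continuity, isolated zeros).  Cusps (`OnePoint.isZeroAt_iff_forall_SL2Z`,
`Subgroup.IsArithmetic.isCusp_iff_isCusp_SL2Z`): for `γ : SL(2,ℤ)`, `h = g ∣[k] γ` satisfies the
same monic relation (the `s j` are level one of weight `k * j`), and the `s j` tend to `0` at `i∞`,
so `h → 0` (roots of a monic polynomial are bounded by `1 + ∑ ‖coeff‖`, then
`‖h‖^μ ≤ ∑ ‖s j‖ * ‖h‖^(μ-j)`).  For `exists_map`: cancel `qExpansion 1 B ≠ 0` in `ℂ⟦X⟧`. -/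

set_option autoImplicit false

namespace Fermat.Agent.S23

open UpperHalfPlane ModularForm CongruenceSubgroup Filter Topology
open scoped MatrixGroups ModularForm Manifold

namespace GaloisStable

/-- Root bound: a root of a monic polynomial is bounded by `1 + ∑ ‖c_j‖`. -/
theorem norm_le_of_monic_root {μ : ℕ} (c : ℕ → ℂ) (x : ℂ)
    (h : x ^ μ + ∑ j ∈ Finset.Icc 1 μ, c j * x ^ (μ - j) = 0) :
    ‖x‖ ≤ 1 + ∑ j ∈ Finset.Icc 1 μ, ‖c j‖ := by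
  by_contra hlt
  push Not at hlt
  have hS : 0 ≤ ∑ j ∈ Finset.Icc 1 μ, ‖c j‖ := Finset.sum_nonneg fun _ _ => norm_nonneg _
  have hx1 : 1 < ‖x‖ := by linarith
  rcases Nat.eq_zero_or_pos μ with rfl | hμ
  · simp at h
  have h1 : x ^ μ = - ∑ j ∈ Finset.Icc 1 μ, c j * x ^ (μ - j) := eq_neg_of_add_eq_zero_left h
  have h2 : ‖x‖ ^ μ ≤ (∑ j ∈ Finset.Icc 1 μ, ‖c j‖) * ‖x‖ ^ (μ - 1) := by
    calc ‖x‖ ^ μ = ‖x ^ μ‖ := (norm_pow x μ).symm
      _ = ‖∑ j ∈ Finset.Icc 1 μ, c j * x ^ (μ - j)‖ := by rw [h1, norm_neg]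
      _ ≤ ∑ j ∈ Finset.Icc 1 μ, ‖c j * x ^ (μ - j)‖ := norm_sum_le _ _
      _ ≤ ∑ j ∈ Finset.Icc 1 μ, ‖c j‖ * ‖x‖ ^ (μ - 1) := by
          refine Finset.sum_le_sum fun j hj => ?_
          rw [norm_mul, norm_pow]
          have hj1 : 1 ≤ j := (Finset.mem_Icc.mp hj).1
          exact mul_le_mul_of_nonneg_left (pow_le_pow_right₀ hx1.le (by omega)) (norm_nonneg _)
      _ = (∑ j ∈ Finset.Icc 1 μ, ‖c j‖) * ‖x‖ ^ (μ - 1) := by rw [Finset.sum_mul]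
  have h3 : ‖x‖ ^ μ = ‖x‖ * ‖x‖ ^ (μ - 1) := by
    rw [← pow_succ', Nat.sub_add_cancel hμ]
  have hpos : 0 < ‖x‖ ^ (μ - 1) := pow_pos (by linarith) _
  rw [h3] at h2
  have := le_of_mul_le_mul_right h2 hpos
  linarith

/-- Root bound, quantitative version tending to `0` with the coefficients. -/
theorem norm_pow_le_of_monic_root {μ : ℕ} (c : ℕ → ℂ) (x : ℂ)
    (h : x ^ μ + ∑ j ∈ Finset.Icc 1 μ, c j * x ^ (μ - j) = 0) :
    ‖x‖ ^ μ ≤ (∑ j ∈ Finset.Icc 1 μ, ‖c j‖) * (1 + ∑ j ∈ Finset.Icc 1 μ, ‖c j‖) ^ (μ - 1) := by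
  have hb := norm_le_of_monic_root c x h
  have hS : 0 ≤ ∑ j ∈ Finset.Icc 1 μ, ‖c j‖ := Finset.sum_nonneg fun _ _ => norm_nonneg _
  have h1 : x ^ μ = - ∑ j ∈ Finset.Icc 1 μ, c j * x ^ (μ - j) := eq_neg_of_add_eq_zero_left h
  calc ‖x‖ ^ μ = ‖x ^ μ‖ := (norm_pow x μ).symm
    _ = ‖∑ j ∈ Finset.Icc 1 μ, c j * x ^ (μ - j)‖ := by rw [h1, norm_neg]
    _ ≤ ∑ j ∈ Finset.Icc 1 μ, ‖c j * x ^ (μ - j)‖ := norm_sum_le _ _
    _ ≤ ∑ j ∈ Finset.Icc 1 μ, ‖c j‖ * (1 + ∑ j ∈ Finset.Icc 1 μ, ‖c j‖) ^ (μ - 1) := by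
        refine Finset.sum_le_sum fun j hj => ?_
        rw [norm_mul, norm_pow]
        refine mul_le_mul_of_nonneg_left ?_ (norm_nonneg _)
        have hj1 : 1 ≤ j := (Finset.mem_Icc.mp hj).1
        calc ‖x‖ ^ (μ - j) ≤ (1 + ∑ j ∈ Finset.Icc 1 μ, ‖c j‖) ^ (μ - j) :=
              pow_le_pow_left₀ (norm_nonneg _) hb _
          _ ≤ (1 + ∑ j ∈ Finset.Icc 1 μ, ‖c j‖) ^ (μ - 1) :=
              pow_le_pow_right₀ (by linarith) (by omega)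
    _ = (∑ j ∈ Finset.Icc 1 μ, ‖c j‖) * (1 + ∑ j ∈ Finset.Icc 1 μ, ‖c j‖) ^ (μ - 1) := by
        rw [Finset.sum_mul]

end GaloisStable

open GaloisStable in
/-- **G2a.** -/
theorem exists_cuspForm_of_relation (N : ℕ) [NeZero N] {k w : ℤ} (A B : ℍ → ℂ) (μ : ℕ)
    (s : ℕ → ℍ → ℂ)
    (hA : IsMF (Gamma0 N : Subgroup (GL (Fin 2) ℝ)) (k + w) A)
    (hB : IsMF (Gamma0 N : Subgroup (GL (Fin 2) ℝ)) w B) (hB0 : B ≠ 0) (hμ : 0 < μ)
    (hs : ∀ j ∈ Finset.Icc 1 μ, IsCF 𝒮ℒ (k * j) (s j))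
    (h : A ^ μ + ∑ j ∈ Finset.Icc 1 μ, s j * A ^ (μ - j) * B ^ j = 0) :
    ∃ g : CuspForm (Gamma0 N : Subgroup (GL (Fin 2) ℝ)) k, ⇑g * B = A := by
  obtain ⟨FA, rfl⟩ := hA
  obtain ⟨FB, rfl⟩ := hB
  have hsd : ∀ j ∈ Finset.Icc 1 μ, MDiff (s j) := fun j hj => by
    obtain ⟨S, hS⟩ := hs j hj
    rw [← hS]; exact S.holo'
  obtain ⟨g, hg, hgB, hmon⟩ :=
    exists_holo_quotient (⇑FA) (⇑FB) FA.holo' FB.holo' hB0 μ hμ s hsd h
  -- invariance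
  have hinv : ∀ γ : SL(2, ℤ), γ ∈ Gamma0 N → g ∣[k] γ = g := by
    intro γ hγ
    have h1 : (g * ⇑FB) ∣[k + w] γ = (g ∣[k] γ) * (⇑FB ∣[w] γ) := mul_slash_SL2 k w γ _ _
    have h2 : (⇑FB : ℍ → ℂ) ∣[w] γ = ⇑FB :=
      FB.slash_action_eq' (Matrix.SpecialLinearGroup.mapGL ℝ γ) ⟨γ, hγ, rfl⟩
    have h3 : (⇑FA : ℍ → ℂ) ∣[k + w] γ = ⇑FA :=
      FA.slash_action_eq' (Matrix.SpecialLinearGroup.mapGL ℝ γ) ⟨γ, hγ, rfl⟩
    have h4 : (g ∣[k] γ - g) * ⇑FB = 0 := by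
      rw [sub_mul, hgB]
      nth_rewrite 1 [← h2]
      rw [← h1, hgB, h3, sub_self]
    rcases (UpperHalfPlane.mul_eq_zero_iff ((hg.slash k _).sub hg) FB.holo').mp h4 with h0 | h0
    · exact sub_eq_zero.mp h0
    · exact absurd h0 hB0
  -- vanishing at the cusps
  have hzero : ∀ γ : SL(2, ℤ), IsZeroAtImInfty (g ∣[k] γ) := by
    intro γ
    have heq : ∀ τ : ℍ, (g ∣[k] γ) τ ^ μ +
        ∑ j ∈ Finset.Icc 1 μ, s j τ * (g ∣[k] γ) τ ^ (μ - j) = 0 := by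
      intro τ
      have h1 := congrFun hmon (γ • τ)
      simp only [Pi.add_apply, Pi.pow_apply, Finset.sum_apply, Pi.mul_apply, Pi.zero_apply] at h1
      have hsj : ∀ j ∈ Finset.Icc 1 μ,
          s j τ = s j (γ • τ) * (denom γ τ ^ (-k)) ^ j := by
        intro j hj
        obtain ⟨S, hS⟩ := hs j hj
        have h5 := congrFun (S.slash_action_eq' (Matrix.SpecialLinearGroup.mapGL ℝ γ)
          ⟨γ, rfl⟩) τ
        have h6 : ((⇑S : ℍ → ℂ) ∣[k * (j : ℤ)] γ) τ = S τ := h5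
        rw [SL_slash_apply] at h6
        rw [← hS, ← h6, ← zpow_natCast, ← zpow_mul]
        congr 2
        ring
      rw [SL_slash_apply]
      have key : (g (γ • τ) * denom γ τ ^ (-k)) ^ μ + ∑ j ∈ Finset.Icc 1 μ,
          s j τ * (g (γ • τ) * denom γ τ ^ (-k)) ^ (μ - j) =
          (denom γ τ ^ (-k)) ^ μ * (g (γ • τ) ^ μ +
            ∑ j ∈ Finset.Icc 1 μ, s j (γ • τ) * g (γ • τ) ^ (μ - j)) := by
        rw [mul_add, Finset.mul_sum, mul_pow]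
        congr 1
        · ring
        · refine Finset.sum_congr rfl fun j hj => ?_
          have hj2 : j ≤ μ := (Finset.mem_Icc.mp hj).2
          have hpow : (denom γ τ ^ (-k)) ^ μ =
              (denom γ τ ^ (-k)) ^ j * (denom γ τ ^ (-k)) ^ (μ - j) := by
            rw [← pow_add]
            congr 1
            omega
          rw [hsj j hj, hpow, mul_pow]
          ring
      rw [key, h1, mul_zero]
    have hS : Tendsto (fun τ : ℍ => ∑ j ∈ Finset.Icc 1 μ, ‖s j τ‖) atImInfty (𝓝 0) := by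
      have h7 : ∀ j ∈ Finset.Icc 1 μ, Tendsto (fun τ : ℍ => ‖s j τ‖) atImInfty (𝓝 0) := by
        intro j hj
        obtain ⟨S, hS⟩ := hs j hj
        have h8 : IsZeroAtImInfty S := CuspFormClass.zero_at_infty S
        rw [← hS]
        exact tendsto_zero_iff_norm_tendsto_zero.mp h8
      have h9 := tendsto_finsetSum (Finset.Icc 1 μ) h7
      simpa using h9
    have hBd : Tendsto (fun τ : ℍ => (∑ j ∈ Finset.Icc 1 μ, ‖s j τ‖) *
        (1 + ∑ j ∈ Finset.Icc 1 μ, ‖s j τ‖) ^ (μ - 1)) atImInfty (𝓝 0) := by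
      have h10 := hS.mul ((tendsto_const_nhds (x := (1 : ℝ))).add hS |>.pow (μ - 1))
      simpa using h10
    rw [IsZeroAtImInfty, ZeroAtFilter, tendsto_zero_iff_norm_tendsto_zero,
      Metric.tendsto_nhds]
    intro ε hε
    have h11 : ∀ᶠ τ in atImInfty, (∑ j ∈ Finset.Icc 1 μ, ‖s j τ‖) *
        (1 + ∑ j ∈ Finset.Icc 1 μ, ‖s j τ‖) ^ (μ - 1) < ε ^ μ :=
      hBd.eventually (gt_mem_nhds (pow_pos hε μ))
    filter_upwards [h11] with τ hτ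
    have h12 := norm_pow_le_of_monic_root (fun j => s j τ) ((g ∣[k] γ) τ) (heq τ)
    have h13 : ‖(g ∣[k] γ) τ‖ < ε := lt_of_pow_lt_pow_left₀ μ hε.le (lt_of_le_of_lt h12 hτ)
    simpa using h13
  refine ⟨{ toFun := g
            slash_action_eq' := ?_
            holo' := hg
            zero_at_cusps' := ?_ }, hgB⟩
  · rintro _ ⟨γ, hγ, rfl⟩
    exact hinv γ hγ
  · intro c hc
    have hc' : IsCusp c 𝒮ℒ := (Subgroup.IsArithmetic.isCusp_iff_isCusp_SL2Z _).mp hc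
    exact (OnePoint.isZeroAt_iff_forall_SL2Z hc').mpr fun γ _ => hzero γ

/-- **G2b = Theorem A.** -/
theorem exists_map (N : ℕ) [NeZero N] {k : ℤ} (σ : ℂ →+* ℂ)
    (f : CuspForm (Gamma0 N : Subgroup (GL (Fin 2) ℝ)) k) :
    ∃ g : CuspForm (Gamma0 N : Subgroup (GL (Fin 2) ℝ)) k,
      qExpansion 1 g = (qExpansion 1 f).map σ := by
  obtain ⟨w, A, B, μ, s, hA, hB, hB0, hμ, hs, hrel, hq⟩ := exists_twisted_data N σ f
  obtain ⟨g, hg⟩ := exists_cuspForm_of_relation N A B μ s hA hB hB0 hμ hs hrel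
  refine ⟨g, ?_⟩
  obtain ⟨FB, rfl⟩ := hB
  have h1 : (1 : ℝ) ∈ (Gamma0 N : Subgroup (GL (Fin 2) ℝ)).strictPeriods :=
    CongruenceSubgroup.one_mem_strictPeriods_Gamma0 N
  have hqB : qExpansion 1 (⇑FB) ≠ 0 := by
    intro h0
    apply hB0
    have h2 := (ModularForm.qExpansion_eq_zero_iff one_pos h1 FB).mp h0
    rw [h2]
    rfl
  have h3 : qExpansion 1 (⇑g * ⇑FB) = qExpansion 1 g * qExpansion 1 FB :=
    ModularForm.qExpansion_mul_coe one_pos h1 g FB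
  rw [hg, ← hq] at h3
  exact (mul_right_cancel₀ hqB h3).symm

end Fermat.Agent.S23
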