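import Fermat.Agent.S23.Defs

set_option autoImplicit false

/-! # WP1 LevelOne: level-one forms are Galois-stable and integrally spanned.

For every weight `k`, the space `ModularForm 𝒮ℒ k` is spanned over `ℂ` by forms whose
`q`-expansion has integer coefficients (`LevelOne.intSpanOne_eq_top`): induction on the weight,
subtracting a multiple of an integral multiple of the Eisenstein series and dividing by
`Δ = (E₄³ - E₆²) / 1728`.  Consequences: stability under coefficientwise additive maps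
(`LevelOne.exists_levelOne_map`), bounded denominators (`LevelOne.exists_int_smul_intQ`). -/

namespace Fermat.Agent.S23.LevelOne

noncomputable section

open UpperHalfPlane ModularForm EisensteinSeries MatrixGroups

/-- Power series over `ℂ` all of whose coefficients are integers. -/
def intPS : Subring (PowerSeries ℂ) := (PowerSeries.map (Int.castRingHom ℂ)).range

theorem mem_intPS_iff (p : PowerSeries ℂ) :
    p ∈ intPS ↔ ∀ n : ℕ, ∃ m : ℤ, p.coeff n = (m : ℂ) := by
  constructor
  · rintro ⟨P, rfl⟩ n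
    exact ⟨P.coeff n, by simp⟩
  · intro h
    choose m hm using h
    refine ⟨PowerSeries.mk m, ?_⟩
    ext n
    simp [hm n]

/-- `f` has an integral `q`-expansion (with respect to the period `1`). -/
def IntQ (f : ℍ → ℂ) : Prop := qExpansion 1 f ∈ intPS

theorem intQ_iff (f : ℍ → ℂ) :
    IntQ f ↔ ∀ n : ℕ, ∃ m : ℤ, (qExpansion 1 f).coeff n = (m : ℂ) :=
  mem_intPS_iff _

theorem natCast_mem_intPS (n : ℕ) : (PowerSeries.C (n : ℂ)) ∈ intPS :=
  ⟨PowerSeries.C (n : ℤ), by simp⟩

theorem intCast_mem_intPS (n : ℤ) : (PowerSeries.C (n : ℂ)) ∈ intPS :=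
  ⟨PowerSeries.C (n : ℤ), by simp⟩

/-- The span of the level one forms of weight `k` with integral `q`-expansion. -/
def intSpanOne (k : ℤ) : Submodule ℂ (ModularForm 𝒮ℒ k) :=
  Submodule.span ℂ {f | IntQ f}

theorem IntQ.mul {a b : ℤ} {f : ModularForm 𝒮ℒ a} {g : ModularForm 𝒮ℒ b}
    (hf : IntQ f) (hg : IntQ g) : IntQ (f.mul g) := by
  unfold IntQ at *
  rw [ModularForm.qExpansion_mul one_pos one_mem_strictPeriods_SL]
  exact mul_mem hf hg

theorem IntQ.pow {a : ℤ} {f : ModularForm 𝒮ℒ a} (hf : IntQ f) (n : ℕ) : IntQ (f.pow n) := by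
  unfold IntQ at *
  rw [ModularForm.qExpansion_pow one_pos one_mem_strictPeriods_SL]
  exact pow_mem hf n

theorem IntQ.sub {a : ℤ} {f g : ModularForm 𝒮ℒ a} (hf : IntQ f) (hg : IntQ g) :
    IntQ (f - g : ModularForm 𝒮ℒ a) := by
  unfold IntQ at *
  rw [FunLike.coe_sub, ModularForm.qExpansion_sub one_pos one_mem_strictPeriods_SL]
  exact sub_mem hf hg

theorem IntQ.mcast {a b : ℤ} {f : ModularForm 𝒮ℒ a} (hf : IntQ f) (h : a = b) :
    IntQ (ModularForm.mcast h f : ModularForm 𝒮ℒ b) := hf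

theorem intQ_intSmul {a : ℤ} {f : ModularForm 𝒮ℒ a} (hf : IntQ f) (c : ℤ) :
    IntQ ((c : ℂ) • f : ModularForm 𝒮ℒ a) := by
  unfold IntQ at *
  rw [FunLike.coe_smul, ModularForm.qExpansion_smul one_pos one_mem_strictPeriods_SL]
  rw [PowerSeries.smul_eq_C_mul]
  exact mul_mem (intCast_mem_intPS c) hf

/-- A nonzero integer multiple of the Eisenstein series has integral `q`-expansion. -/
theorem exists_intQ_smul_E {k : ℕ} (hk : 3 ≤ k) (hk2 : Even k) :
    ∃ d : ℤ, d ≠ 0 ∧ IntQ ((d : ℂ) • E hk : ModularForm 𝒮ℒ k) := by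
  set r : ℚ := -(2 * k / bernoulli k) with hr
  refine ⟨r.den, by exact_mod_cast r.den_ne_zero, ?_⟩
  rw [intQ_iff]
  intro n
  rw [FunLike.coe_smul, ModularForm.qExpansion_smul one_pos one_mem_strictPeriods_SL,
    PowerSeries.coeff_smul, E_qExpansion_coeff hk hk2]
  by_cases hn : n = 0
  · refine ⟨r.den, ?_⟩
    simp [hn]
  · refine ⟨r.num * (ArithmeticFunction.sigma (k - 1) n : ℤ), ?_⟩
    rw [if_neg hn]
    have h1 : (-(2 * (k : ℂ) / (bernoulli k : ℂ)) : ℂ) = ((r : ℚ) : ℂ) := by
      rw [hr]; push_cast; ring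
    have h2 : ((r.den : ℤ) : ℂ) * ((r : ℚ) : ℂ) = ((r.num : ℤ) : ℂ) := by
      have := Rat.den_mul_eq_num r
      have h3 : ((r.den : ℚ) * r : ℚ) = (r.num : ℚ) := this
      exact_mod_cast congrArg (fun x : ℚ => (x : ℂ)) h3
    rw [h1]
    push_cast
    rw [smul_eq_mul, ← mul_assoc]
    have h2' : ((r.den : ℕ) : ℂ) * ((r : ℚ) : ℂ) = ((r.num : ℤ) : ℂ) := by exact_mod_cast h2
    rw [h2']

/-- Multiplication by the discriminant, as a linear map raising the weight by `12`. -/
def mulDelta (k : ℤ) : ModularForm 𝒮ℒ (k - 12) →ₗ[ℂ] ModularForm 𝒮ℒ k where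
  toFun h := ModularForm.mcast (by ring) ((CuspForm.discriminant : ModularForm 𝒮ℒ 12).mul h)
  map_add' a b := by
    ext z
    simp [ModularForm.mcast_apply, mul_add]
  map_smul' c a := by
    ext z
    simp [ModularForm.mcast_apply, mul_left_comm]

theorem mulDelta_apply (k : ℤ) (h : ModularForm 𝒮ℒ (k - 12)) (z : ℍ) :
    mulDelta k h z = ModularForm.discriminant z * h z := rfl

theorem intQ_E₄ : IntQ (E₄ : ModularForm 𝒮ℒ 4) := by
  rw [intQ_iff]
  intro n
  have h := E_qExpansion_coeff (k := 4) (by norm_num) ⟨2, rfl⟩ n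
  by_cases hn : n = 0
  · exact ⟨1, by rw [h, if_pos hn]; simp⟩
  · refine ⟨240 * (ArithmeticFunction.sigma 3 n : ℤ), ?_⟩
    rw [h, if_neg hn]
    norm_num [show bernoulli 4 = -1 / 30 by decide +kernel]

theorem intQ_E₆ : IntQ (E₆ : ModularForm 𝒮ℒ 6) := by
  rw [intQ_iff]
  intro n
  have h := E_qExpansion_coeff (k := 6) (by norm_num) ⟨3, rfl⟩ n
  by_cases hn : n = 0
  · exact ⟨1, by rw [h, if_pos hn]; simp⟩
  · refine ⟨-504 * (ArithmeticFunction.sigma 5 n : ℤ), ?_⟩
    rw [h, if_neg hn]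
    norm_num [show bernoulli 6 = 1 / 42 by decide +kernel]

/-- `E₄³ h` as a form of weight `k`. -/
def e4CubeMul (k : ℤ) (h : ModularForm 𝒮ℒ (k - 12)) : ModularForm 𝒮ℒ k :=
  ModularForm.mcast (by ring) ((E₄.pow 3).mul h)

/-- `E₆² h` as a form of weight `k`. -/
def e6SqMul (k : ℤ) (h : ModularForm 𝒮ℒ (k - 12)) : ModularForm 𝒮ℒ k :=
  ModularForm.mcast (by ring) ((E₆.pow 2).mul h)

theorem mulDelta_eq (k : ℤ) (h : ModularForm 𝒮ℒ (k - 12)) :
    mulDelta k h = (1 / 1728 : ℂ) • (e4CubeMul k h - e6SqMul k h) := by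
  ext z
  rw [mulDelta_apply, discriminant_eq_E₄_cube_sub_E₆_sq]
  simp only [e4CubeMul, e6SqMul, smul_apply, sub_apply, ModularForm.mcast_apply, ModularForm.coe_mul,
    ModularForm.coe_pow, Pi.mul_apply, Pi.pow_apply, smul_eq_mul]
  ring

theorem mulDelta_mem_intSpanOne (k : ℤ) (h : ModularForm 𝒮ℒ (k - 12))
    (hh : h ∈ intSpanOne (k - 12)) : mulDelta k h ∈ intSpanOne k := by
  unfold intSpanOne at hh
  induction hh using Submodule.span_induction with
  | mem x hx =>
    rw [mulDelta_eq]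
    refine Submodule.smul_mem _ _ (Submodule.subset_span ?_)
    exact IntQ.sub (IntQ.mcast ((intQ_E₄.pow 3).mul hx) _) (IntQ.mcast ((intQ_E₆.pow 2).mul hx) _)
  | zero => simp
  | add x y _ _ hx hy => rw [map_add]; exact add_mem hx hy
  | smul c x _ hx => rw [map_smul]; exact Submodule.smul_mem _ _ hx

theorem intQ_one : IntQ ((1 : ModularForm 𝒮ℒ 0) : ℍ → ℂ) := by
  unfold IntQ
  rw [ModularForm.qExpansion_one]
  exact one_mem _

theorem intSpanOne_eq_top_of_forall_zero {k : ℤ} (h : ∀ f : ModularForm 𝒮ℒ k, f = 0) :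
    intSpanOne k = ⊤ := by
  rw [eq_top_iff]
  intro f _
  rw [h f]
  exact zero_mem _

/-- A level one modular form with vanishing constant term is `Δ` times a form of weight `k - 12`. -/
theorem exists_mulDelta_eq {k : ℤ} (f : ModularForm 𝒮ℒ k) (h0 : (qExpansion 1 f).coeff 0 = 0) :
    ∃ h : ModularForm 𝒮ℒ (k - 12), mulDelta k h = f := by
  refine ⟨CuspForm.discriminantEquiv (toCuspForm f h0), ?_⟩
  ext z
  rw [mulDelta_apply, ModularForm.discriminant_mul_discriminantEquiv_apply]
  rfl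

/-- **Level one forms have an integral structure**: for every weight `k`, the space of level one
modular forms is spanned by forms with integral `q`-expansion. -/
theorem intSpanOne_eq_top (k : ℤ) : intSpanOne k = ⊤ := by
  induction hn : k.toNat using Nat.strong_induction_on generalizing k with
  | _ n ih =>
  rcases lt_or_ge k 0 with hk | hk
  · exact intSpanOne_eq_top_of_forall_zero fun f =>
      rank_zero_iff_forall_zero.mp (levelOne_neg_weight_rank_zero hk) f
  rcases Int.even_or_odd k with hev | hodd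
  swap
  · exact intSpanOne_eq_top_of_forall_zero fun f => levelOne_odd_weight_eq_zero hodd f
  lift k to ℕ using hk
  have hev' : Even k := by exact_mod_cast hev
  rcases Nat.lt_or_ge k 3 with hk3 | hk3
  · -- weights `0` and `2`
    have : k = 0 ∨ k = 2 := by
      rcases hev' with ⟨m, rfl⟩
      omega
    rcases this with rfl | rfl
    · rw [eq_top_iff]
      intro f _
      obtain ⟨c, hc⟩ := ModularFormClass.levelOne_weight_zero_const (F := ModularForm 𝒮ℒ ((0 : ℕ) : ℤ)) f
      have hf : f = c • (1 : ModularForm 𝒮ℒ 0) := by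
        ext z
        rw [hc]
        simp
      rw [hf]
      exact Submodule.smul_mem _ _ (Submodule.subset_span intQ_one)
    · exact intSpanOne_eq_top_of_forall_zero fun f =>
        rank_zero_iff_forall_zero.mp levelOne_weight_two_rank_zero f
  · -- even weight `k ≥ 4`
    obtain ⟨d, hd0, hd⟩ := exists_intQ_smul_E hk3 hev'
    have hG0 : (qExpansion 1 ((d : ℂ) • E hk3 : ModularForm 𝒮ℒ k)).coeff 0 = d := by
      rw [FunLike.coe_smul, ModularForm.qExpansion_smul one_pos one_mem_strictPeriods_SL,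
        PowerSeries.coeff_smul, E_qExpansion_coeff_zero hk3 hev']
      simp
    have hIH : intSpanOne ((k : ℤ) - 12) = ⊤ := by
      refine ih ((k : ℤ) - 12).toNat ?_ _ rfl
      rw [← hn]
      omega
    rw [eq_top_iff]
    intro f _
    set c : ℂ := (qExpansion 1 f).coeff 0 / d with hc
    have hd0' : (d : ℂ) ≠ 0 := by exact_mod_cast hd0
    have h0 : (qExpansion 1 (f - c • ((d : ℂ) • E hk3) : ModularForm 𝒮ℒ k)).coeff 0 = 0 := by
      rw [FunLike.coe_sub, ModularForm.qExpansion_sub one_pos one_mem_strictPeriods_SL,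
        FunLike.coe_smul, ModularForm.qExpansion_smul one_pos one_mem_strictPeriods_SL,
        map_sub, PowerSeries.coeff_smul, hG0, hc, smul_eq_mul, div_mul_cancel₀ _ hd0', sub_self]
    obtain ⟨h, hh⟩ := exists_mulDelta_eq _ h0
    have hmem : mulDelta k h ∈ intSpanOne k := mulDelta_mem_intSpanOne k h (by rw [hIH]; trivial)
    have hf : f = mulDelta k h + c • ((d : ℂ) • E hk3) := by
      rw [hh]; abel
    rw [hf]
    exact add_mem hmem (Submodule.smul_mem _ _ (Submodule.subset_span hd))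

/-- The `q`-expansion as a linear map on level one forms. -/
def qExpLin (k : ℤ) : ModularForm 𝒮ℒ k →ₗ[ℂ] PowerSeries ℂ where
  toFun f := qExpansion 1 f
  map_add' f g := ModularForm.qExpansion_add one_pos one_mem_strictPeriods_SL f g
  map_smul' c f := ModularForm.qExpansion_smul one_pos one_mem_strictPeriods_SL c f

@[simp] theorem qExpLin_apply (k : ℤ) (f : ModularForm 𝒮ℒ k) : qExpLin k f = qExpansion 1 f := rfl

theorem qExpLin_injective (k : ℤ) : Function.Injective (qExpLin k) := by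
  refine (injective_iff_map_eq_zero _).mpr fun f hf => ?_
  exact (ModularForm.qExpansion_eq_zero_iff one_pos one_mem_strictPeriods_SL f).mp hf

/-- Every level one form is a finite complex combination of forms with integral `q`-expansion. -/
theorem exists_eq_sum_intQ {k : ℤ} (f : ModularForm 𝒮ℒ k) :
    ∃ (n : ℕ) (c : Fin n → ℂ) (x : Fin n → ModularForm 𝒮ℒ k),
      (∀ i, IntQ (x i)) ∧ f = ∑ i, c i • x i := by
  have hf : f ∈ intSpanOne k := by rw [intSpanOne_eq_top]; trivial
  obtain ⟨n, c, x, hx⟩ := Submodule.mem_span_set'.mp hf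
  exact ⟨n, c, fun i => (x i : ModularForm 𝒮ℒ k), fun i => (x i).2, hx.symm⟩

/-- **Conjugation of level one forms**: for every additive map `φ : ℂ →+ ℂ` and every level one
form `f` there is a level one form of the same weight whose `q`-expansion is obtained by applying
`φ` to the coefficients of the `q`-expansion of `f`. -/
theorem exists_levelOne_map (φ : ℂ →+ ℂ) {k : ℤ} (f : ModularForm 𝒮ℒ k) :
    ∃ g : ModularForm 𝒮ℒ k, ∀ n : ℕ,
      (qExpansion 1 g).coeff n = φ ((qExpansion 1 f).coeff n) := by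
  obtain ⟨m, c, x, hx, rfl⟩ := exists_eq_sum_intQ f
  refine ⟨∑ i, φ (c i) • x i, fun n => ?_⟩
  have h1 : qExpansion 1 (∑ i, φ (c i) • x i : ModularForm 𝒮ℒ k)
      = ∑ i, φ (c i) • qExpansion 1 (x i) := by
    rw [← qExpLin_apply, map_sum]
    simp
  have h2 : qExpansion 1 (∑ i, c i • x i : ModularForm 𝒮ℒ k)
      = ∑ i, c i • qExpansion 1 (x i) := by
    rw [← qExpLin_apply, map_sum]
    simp
  rw [h1, h2, map_sum, map_sum, map_sum]
  refine Finset.sum_congr rfl fun i _ => ?_
  obtain ⟨a, ha⟩ := (intQ_iff _).mp (hx i) n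
  rw [PowerSeries.coeff_smul, PowerSeries.coeff_smul, ha, smul_eq_mul, smul_eq_mul, mul_comm,
    mul_comm (c i), ← zsmul_eq_mul, ← zsmul_eq_mul, map_zsmul]

/-- A level one form with rational `q`-expansion has bounded denominators. -/
theorem exists_int_smul_intQ {k : ℤ} (f : ModularForm 𝒮ℒ k)
    (hf : ∀ n : ℕ, ∃ r : ℚ, (qExpansion 1 f).coeff n = (r : ℂ)) :
    ∃ D : ℤ, D ≠ 0 ∧ IntQ ((D : ℂ) • f : ModularForm 𝒮ℒ k) := by
  obtain ⟨π, hπ⟩ := LinearMap.exists_leftInverse_of_injective (Algebra.linearMap ℚ ℂ)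
    (by simp [LinearMap.ker_eq_bot, Algebra.linearMap]; exact Rat.cast_injective)
  have hπ' : ∀ r : ℚ, π (r : ℂ) = r := fun r => by
    have := LinearMap.congr_fun hπ r
    simpa using this
  obtain ⟨m, c, x, hx, hfx⟩ := exists_eq_sum_intQ f
  -- the form with the projected coefficients equals `f`
  have key : f = ∑ i, ((π (c i) : ℚ) : ℂ) • x i := by
    apply qExpLin_injective
    rw [hfx, map_sum, map_sum]
    ext n
    rw [map_sum, map_sum]
    have hn : ∀ i, ∃ a : ℤ, (qExpansion 1 (x i)).coeff n = (a : ℂ) := fun i =>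
      (intQ_iff _).mp (hx i) n
    choose a ha using hn
    simp only [map_smul, qExpLin_apply, ha, smul_eq_mul]
    obtain ⟨r, hr⟩ := hf n
    have h3 : ∑ i, c i * (a i : ℂ) = (r : ℂ) := by
      rw [← hr, hfx, ← qExpLin_apply, map_sum, map_sum]
      simp [ha]
    rw [h3]
    have h4 : π (∑ i, c i * (a i : ℂ)) = r := by rw [h3, hπ']
    rw [map_sum] at h4
    have h5 : ∀ i, π (c i * (a i : ℂ)) = π (c i) * (a i : ℚ) := fun i => by
      rw [mul_comm, ← zsmul_eq_mul, map_zsmul, zsmul_eq_mul, mul_comm]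
    simp only [h5] at h4
    rw [← h4]
    push_cast
    rfl
  refine ⟨∏ i, ((π (c i)).den : ℤ), ?_, ?_⟩
  · exact Finset.prod_ne_zero_iff.mpr fun i _ => by exact_mod_cast (π (c i)).den_ne_zero
  · set D : ℤ := ∏ i, ((π (c i)).den : ℤ) with hD
    have hdiv : ∀ i, ∃ b : ℤ, ((D : ℂ) * ((π (c i) : ℚ) : ℂ)) = (b : ℂ) := fun i => by
      obtain ⟨e, he⟩ : ((π (c i)).den : ℤ) ∣ D :=
        Finset.dvd_prod_of_mem _ (Finset.mem_univ i)
      refine ⟨e * (π (c i)).num, ?_⟩
      have h6 : (((π (c i)).den : ℤ) : ℂ) * ((π (c i) : ℚ) : ℂ) = (((π (c i)).num : ℤ) : ℂ) := by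
        have := Rat.den_mul_eq_num (π (c i))
        exact_mod_cast congrArg (fun x : ℚ => (x : ℂ)) this
      rw [he]
      push_cast
      push_cast at h6
      rw [mul_comm ((π (c i)).den : ℂ) (e : ℂ), mul_assoc, h6]
    choose b hb using hdiv
    have : ((D : ℂ) • f : ModularForm 𝒮ℒ k) = ∑ i, (b i : ℂ) • x i := by
      conv_lhs => rw [key]
      rw [Finset.smul_sum]
      refine Finset.sum_congr rfl fun i _ => ?_
      rw [smul_smul, hb]
    rw [this]
    unfold IntQ
    rw [← qExpLin_apply, map_sum]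
    refine Subring.sum_mem _ fun i _ => ?_
    rw [map_smul, qExpLin_apply, PowerSeries.smul_eq_C_mul]
    exact mul_mem (intCast_mem_intPS _) (hx i)

end

end Fermat.Agent.S23.LevelOne

namespace Fermat.Agent.S23

open UpperHalfPlane ModularForm
open scoped MatrixGroups ModularForm Manifold

/-- **L1a.** Level-one modular forms are stable under coefficientwise ring homs `ℂ →+* ℂ`. -/
theorem levelOne_map (σ : ℂ →+* ℂ) {k : ℤ} (F : ModularForm 𝒮ℒ k) :
    ∃ G : ModularForm 𝒮ℒ k, qExpansion 1 G = (qExpansion 1 F).map σ := by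
  obtain ⟨G, hG⟩ := LevelOne.exists_levelOne_map σ.toAddMonoidHom F
  refine ⟨G, ?_⟩
  ext n
  rw [hG n, PowerSeries.coeff_map]
  rfl

/-- **L1b.** q-expansions of level-one forms are `ℂ`-linear combinations of integral series. -/
theorem levelOne_int_span {k : ℤ} (F : ModularForm 𝒮ℒ k) :
    qExpansion 1 F ∈ Submodule.span ℂ {p : PowerSeries ℂ | IsIntSeries p} := by
  obtain ⟨n, c, x, hx, rfl⟩ := LevelOne.exists_eq_sum_intQ F
  rw [← LevelOne.qExpLin_apply, map_sum]
  refine Submodule.sum_mem _ fun i _ => ?_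
  rw [map_smul]
  exact Submodule.smul_mem _ _ (Submodule.subset_span ((LevelOne.intQ_iff _).mp (hx i)))

end Fermat.Agent.S23
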