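import Fermat.Agent.S23.LevelOne
import Fermat.Agent.S23.LevelRaise
import Fermat.Agent.S23.Stabilizer
import Fermat.Agent.S23.Monic
import Fermat.Agent.S23.Lagrange

/-! # WP7 Twist: the `σ`-twisted Lagrange data.
Math: take `(m, a, b)` from `exists_lagrange_relation` and `(μ, s)` from `exists_monic_relation`.
With `A₀ = ∑ a i * u^i`, `B₀ = ∑ b i * u^i` we have `f * B₀ = A₀` and (multiply the monic relation
by `B₀^μ`) `A₀^μ + ∑ s j * A₀^(μ-j) * B₀^j = 0`.  Replace each level-one form `a i, b i, s j` by its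
`σ`-twist (`levelOne_map`; the twist of a cusp form is a cusp form:
`ModularForm.isCuspForm_iff_coeffZero_eq_zero` / `ModularForm.toCuspForm`), keep `u`
(`uFun_qExpansion_int` ⇒ its q-expansion is fixed by `σ`).  All functions involved are modular
forms on `Γ₀(N)` (a level-one form is a `Γ₀(N)`-form; products/sums), so
`qExpansion 1` is additive and multiplicative on them (`ModularForm.qExpansion_mul`, `_add`,
`qExpansion_of_mul`, …) and the q-expansion of the twisted relation is `σ` of the q-expansion of the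
original one, i.e. `0`; conclude with `ModularForm.qExpansion_eq_zero_iff`.  `B ≠ 0` since
`qExpansion 1 B = (qExpansion 1 B₀).map σ ≠ 0` (`σ` injective).  Here `w = 12 * m`.

Implementation: a weight-free calculus.  `Twist.Nice F` says that `F` is `1`-periodic, holomorphic
and bounded at `i∞` (closed under `+`, `*`, powers, finite sums; contains all modular forms on
groups with strict period `1`).  `Twist.Tw σ F G` says that `F`, `G` are nice and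
`qExpansion 1 G = (qExpansion 1 F).map σ` (closed under the same operations). -/

set_option autoImplicit false

namespace Fermat.Agent.S23

open UpperHalfPlane ModularForm CongruenceSubgroup
open scoped MatrixGroups ModularForm Manifold

namespace Twist

/-- Weight-free regularity: `1`-periodic, holomorphic, bounded at `i∞`. -/
def Nice (F : ℍ → ℂ) : Prop :=
  Function.Periodic (F ∘ ofComplex) ((1 : ℝ) : ℂ) ∧ MDiff F ∧ IsBoundedAtImInfty F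

theorem Nice.analytic {F : ℍ → ℂ} (h : Nice F) : AnalyticAt ℂ (cuspFunction 1 F) 0 :=
  analyticAt_cuspFunction_zero one_pos h.1 h.2.1 h.2.2

theorem Nice.add {F G : ℍ → ℂ} (hF : Nice F) (hG : Nice G) : Nice (F + G) :=
  ⟨hF.1.add hG.1, hF.2.1.add hG.2.1, hF.2.2.add hG.2.2⟩

theorem Nice.mul {F G : ℍ → ℂ} (hF : Nice F) (hG : Nice G) : Nice (F * G) :=
  ⟨hF.1.mul hG.1, hF.2.1.mul hG.2.1, hF.2.2.mul hG.2.2⟩

theorem nice_zero : Nice (0 : ℍ → ℂ) :=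
  ⟨fun _ => rfl, fun _ => mdifferentiableAt_const, Filter.const_boundedAtFilter _ 0⟩

theorem nice_one : Nice (1 : ℍ → ℂ) :=
  ⟨fun _ => rfl, fun _ => mdifferentiableAt_const, Filter.const_boundedAtFilter _ _⟩

theorem Nice.pow {F : ℍ → ℂ} (hF : Nice F) (n : ℕ) : Nice (F ^ n) := by
  induction n with
  | zero => simpa using nice_one
  | succ n ih => rw [pow_succ]; exact ih.mul hF

theorem nice_of_modularForm {Γ : Subgroup (GL (Fin 2) ℝ)} {w : ℤ}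
    (hΓ : (1 : ℝ) ∈ Γ.strictPeriods) (G : ModularForm Γ w) : Nice ⇑G := by
  have : Fact (IsCusp OnePoint.infty Γ) := ⟨Γ.isCusp_of_mem_strictPeriods one_pos hΓ⟩
  exact ⟨SlashInvariantFormClass.periodic_comp_ofComplex G hΓ, ModularFormClass.holo G,
    ModularFormClass.bdd_at_infty G⟩

theorem nice_of_cuspForm {Γ : Subgroup (GL (Fin 2) ℝ)} {w : ℤ}
    (hΓ : (1 : ℝ) ∈ Γ.strictPeriods) (G : CuspForm Γ w) : Nice ⇑G := by
  have : Fact (IsCusp OnePoint.infty Γ) := ⟨Γ.isCusp_of_mem_strictPeriods one_pos hΓ⟩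
  exact ⟨SlashInvariantFormClass.periodic_comp_ofComplex G hΓ, ModularFormClass.holo G,
    ModularFormClass.bdd_at_infty G⟩

/-- `G` is a `σ`-twist of `F`. -/
def Tw (σ : ℂ →+* ℂ) (F G : ℍ → ℂ) : Prop :=
  Nice F ∧ Nice G ∧ qExpansion 1 G = (qExpansion 1 F).map σ

variable {σ : ℂ →+* ℂ}

theorem Tw.add {F₁ G₁ F₂ G₂ : ℍ → ℂ} (h₁ : Tw σ F₁ G₁) (h₂ : Tw σ F₂ G₂) :
    Tw σ (F₁ + F₂) (G₁ + G₂) :=
  ⟨h₁.1.add h₂.1, h₁.2.1.add h₂.2.1, by
    rw [qExpansion_add h₁.2.1.analytic h₂.2.1.analytic, qExpansion_add h₁.1.analytic h₂.1.analytic,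
      map_add, h₁.2.2, h₂.2.2]⟩

theorem Tw.mul {F₁ G₁ F₂ G₂ : ℍ → ℂ} (h₁ : Tw σ F₁ G₁) (h₂ : Tw σ F₂ G₂) :
    Tw σ (F₁ * F₂) (G₁ * G₂) :=
  ⟨h₁.1.mul h₂.1, h₁.2.1.mul h₂.2.1, by
    rw [qExpansion_mul h₁.2.1.analytic h₂.2.1.analytic, qExpansion_mul h₁.1.analytic h₂.1.analytic,
      map_mul, h₁.2.2, h₂.2.2]⟩

theorem tw_zero : Tw σ 0 0 :=
  ⟨nice_zero, nice_zero, by rw [qExpansion_zero, map_zero]⟩

theorem tw_one : Tw σ 1 1 :=
  ⟨nice_one, nice_one, by rw [qExpansion_one, map_one]⟩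

theorem Tw.pow {F G : ℍ → ℂ} (h : Tw σ F G) (n : ℕ) : Tw σ (F ^ n) (G ^ n) := by
  induction n with
  | zero => simpa using (tw_one (σ := σ))
  | succ n ih => rw [pow_succ, pow_succ]; exact ih.mul h

theorem Tw.sum {ι : Type} (t : Finset ι) (F G : ι → ℍ → ℂ) (h : ∀ i ∈ t, Tw σ (F i) (G i)) :
    Tw σ (∑ i ∈ t, F i) (∑ i ∈ t, G i) := by
  classical
  induction t using Finset.induction_on with
  | empty => simpa using (tw_zero (σ := σ))
  | insert a t ha ih =>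
    rw [Finset.sum_insert ha, Finset.sum_insert ha]
    exact (h a (Finset.mem_insert_self a t)).add
      (ih fun i hi => h i (Finset.mem_insert_of_mem hi))

theorem Tw.eq_zero_iff {F G : ℍ → ℂ} (h : Tw σ F G) : G = 0 ↔ F = 0 := by
  rw [← qExpansion_eq_zero_iff one_pos h.2.1.1 h.2.1.2.1 h.2.1.2.2,
    ← qExpansion_eq_zero_iff one_pos h.1.1 h.1.2.1 h.1.2.2, h.2.2]
  exact map_eq_zero_iff _ (PowerSeries.map_injective σ σ.injective)

/-! ### `IsMF` calculus -/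

theorem isMF_cast {Γ : Subgroup (GL (Fin 2) ℝ)} {w w' : ℤ} {F : ℍ → ℂ} (h : w = w')
    (hF : IsMF Γ w F) : IsMF Γ w' F := h ▸ hF

theorem isMF_mul {Γ : Subgroup (GL (Fin 2) ℝ)} [Γ.HasDetPlusMinusOne] {w₁ w₂ : ℤ} {F G : ℍ → ℂ}
    (hF : IsMF Γ w₁ F) (hG : IsMF Γ w₂ G) : IsMF Γ (w₁ + w₂) (F * G) := by
  obtain ⟨F', rfl⟩ := hF
  obtain ⟨G', rfl⟩ := hG
  exact ⟨F'.mul G', rfl⟩

theorem isMF_pow {Γ : Subgroup (GL (Fin 2) ℝ)} [Γ.HasDetPlusMinusOne] {w : ℤ} {F : ℍ → ℂ}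
    (hF : IsMF Γ w F) (n : ℕ) : IsMF Γ (n * w) (F ^ n) := by
  obtain ⟨F', rfl⟩ := hF
  exact ⟨F'.pow n, ModularForm.coe_pow F' n⟩

theorem isMF_sum {Γ : Subgroup (GL (Fin 2) ℝ)} {w : ℤ} {ι : Type} (t : Finset ι)
    (F : ι → ℍ → ℂ) (h : ∀ i ∈ t, IsMF Γ w (F i)) : IsMF Γ w (∑ i ∈ t, F i) := by
  classical
  induction t using Finset.induction_on with
  | empty => exact ⟨0, by simp⟩
  | insert a t ha ih =>
    rw [Finset.sum_insert ha]
    obtain ⟨G₁, h₁⟩ := h a (Finset.mem_insert_self a t)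
    obtain ⟨G₂, h₂⟩ := ih fun i hi => h i (Finset.mem_insert_of_mem hi)
    exact ⟨G₁ + G₂, by rw [← h₁, ← h₂]; rfl⟩

theorem isMF_of_isCF {Γ : Subgroup (GL (Fin 2) ℝ)} {w : ℤ} {F : ℍ → ℂ} (hF : IsCF Γ w F) :
    IsMF Γ w F := by
  obtain ⟨F', rfl⟩ := hF
  exact ⟨ModularFormClass.modularForm F', rfl⟩

theorem gamma0_le (N : ℕ) : (Gamma0 N : Subgroup (GL (Fin 2) ℝ)) ≤ 𝒮ℒ :=
  Subgroup.map_le_range _ _

theorem isMF_of_levelOne (N : ℕ) {w : ℤ} {F : ℍ → ℂ} (h : IsMF 𝒮ℒ w F) :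
    IsMF (Gamma0 N : Subgroup (GL (Fin 2) ℝ)) w F := by
  obtain ⟨G, rfl⟩ := h
  exact ⟨{ toFun := G
           slash_action_eq' := fun γ hγ => G.slash_action_eq' γ (gamma0_le N hγ)
           holo' := G.holo'
           bdd_at_cusps' := fun hc => G.bdd_at_cusps' (hc.mono (gamma0_le N)) }, rfl⟩

/-! ### Twists of the building blocks -/

theorem exists_tw_levelOne (σ : ℂ →+* ℂ) {w : ℤ} {F : ℍ → ℂ} (hF : IsMF 𝒮ℒ w F) :
    ∃ G : ℍ → ℂ, IsMF 𝒮ℒ w G ∧ Tw σ F G := by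
  obtain ⟨F', rfl⟩ := hF
  obtain ⟨G', hG'⟩ := levelOne_map σ F'
  exact ⟨⇑G', ⟨G', rfl⟩, nice_of_modularForm one_mem_strictPeriods_SL F',
    nice_of_modularForm one_mem_strictPeriods_SL G', hG'⟩

theorem exists_tw_levelOne_cusp (σ : ℂ →+* ℂ) {w : ℤ} {F : ℍ → ℂ} (hF : IsCF 𝒮ℒ w F) :
    ∃ G : ℍ → ℂ, IsCF 𝒮ℒ w G ∧ Tw σ F G := by
  obtain ⟨F', rfl⟩ := hF
  obtain ⟨G', hG'⟩ := levelOne_map σ (CuspForm.toModularFormₗ F')
  have h0' : (qExpansion 1 (CuspForm.toModularFormₗ F')).coeff 0 = 0 :=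
    (isCuspForm_iff_coeffZero_eq_zero _).mp (CuspForm.isCuspForm_toModularFormₗ F')
  have h0 : (qExpansion 1 G').coeff 0 = 0 := by
    rw [hG', PowerSeries.coeff_map, h0', map_zero]
  exact ⟨⇑(toCuspForm G' h0), ⟨toCuspForm G' h0, rfl⟩,
    nice_of_cuspForm one_mem_strictPeriods_SL F',
    nice_of_modularForm one_mem_strictPeriods_SL G', hG'⟩

theorem one_mem_strictPeriods_Gamma0 (N : ℕ) :
    (1 : ℝ) ∈ (Gamma0 N : Subgroup (GL (Fin 2) ℝ)).strictPeriods := by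
  rw [strictPeriods_Gamma0]
  exact AddSubgroup.mem_zmultiples 1

theorem tw_uFun (N : ℕ) [NeZero N] (σ : ℂ →+* ℂ) : Tw σ (uFun N) (uFun N) := by
  obtain ⟨U, hU⟩ := uFun_isCF N
  have hn : Nice (uFun N) := hU ▸ nice_of_cuspForm (one_mem_strictPeriods_Gamma0 N) U
  refine ⟨hn, hn, ?_⟩
  obtain ⟨c, hc, hint⟩ := uFun_qExpansion_int N
  ext n
  rw [PowerSeries.coeff_map]
  obtain ⟨d, hd⟩ := hint n
  have hc' : (c : ℂ) ≠ 0 := Int.cast_ne_zero.mpr hc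
  have : (qExpansion 1 (uFun N)).coeff n = (d : ℂ) / c := by
    rw [PowerSeries.coeff_smul, smul_eq_mul] at hd
    rw [← hd]
    field_simp
  rw [this, map_div₀, map_intCast, map_intCast]

/-- The algebraic core: transport the Lagrange and the monic relation through a twist. -/
theorem core {f A₀ B₀ A B : ℍ → ℂ} {μ : ℕ} {s s' : ℕ → ℍ → ℂ}
    (hf : Nice f) (hA : Tw σ A₀ A) (hB : Tw σ B₀ B)
    (hs : ∀ j ∈ Finset.Icc 1 μ, Tw σ (s j) (s' j))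
    (hrel : f * B₀ = A₀) (hmon : f ^ μ + ∑ j ∈ Finset.Icc 1 μ, s j * f ^ (μ - j) = 0) :
    A ^ μ + ∑ j ∈ Finset.Icc 1 μ, s' j * A ^ (μ - j) * B ^ j = 0 ∧
      (qExpansion 1 f).map σ * qExpansion 1 B = qExpansion 1 A := by
  constructor
  · have hR : Tw σ (A₀ ^ μ + ∑ j ∈ Finset.Icc 1 μ, s j * A₀ ^ (μ - j) * B₀ ^ j)
        (A ^ μ + ∑ j ∈ Finset.Icc 1 μ, s' j * A ^ (μ - j) * B ^ j) :=
      (hA.pow μ).add (Tw.sum _ _ _ fun j hj => ((hs j hj).mul (hA.pow (μ - j))).mul (hB.pow j))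
    apply hR.eq_zero_iff.mpr
    subst hrel
    have key : (f * B₀) ^ μ + ∑ j ∈ Finset.Icc 1 μ, s j * (f * B₀) ^ (μ - j) * B₀ ^ j =
        B₀ ^ μ * (f ^ μ + ∑ j ∈ Finset.Icc 1 μ, s j * f ^ (μ - j)) := by
      rw [mul_add, Finset.mul_sum, mul_pow]
      congr 1
      · ring
      · refine Finset.sum_congr rfl fun j hj => ?_
        have hj' : j ≤ μ := (Finset.mem_Icc.mp hj).2
        have hpow : B₀ ^ μ = B₀ ^ (μ - j) * B₀ ^ j := by
          rw [← pow_add, Nat.sub_add_cancel hj']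
        rw [hpow, mul_pow]
        ring
    rw [key, hmon, mul_zero]
  · rw [hA.2.2, hB.2.2, ← hrel, qExpansion_mul hf.analytic hB.1.analytic, map_mul]

end Twist

open Twist in
/-- **G1.** -/
theorem exists_twisted_data (N : ℕ) [NeZero N] {k : ℤ} (σ : ℂ →+* ℂ)
    (f : CuspForm (Gamma0 N : Subgroup (GL (Fin 2) ℝ)) k) :
    ∃ (w : ℤ) (A B : ℍ → ℂ) (μ : ℕ) (s : ℕ → ℍ → ℂ),
      IsMF (Gamma0 N : Subgroup (GL (Fin 2) ℝ)) (k + w) A ∧
      IsMF (Gamma0 N : Subgroup (GL (Fin 2) ℝ)) w B ∧ B ≠ 0 ∧ 0 < μ ∧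
      (∀ j ∈ Finset.Icc 1 μ, IsCF 𝒮ℒ (k * j) (s j)) ∧
      A ^ μ + ∑ j ∈ Finset.Icc 1 μ, s j * A ^ (μ - j) * B ^ j = 0 ∧
      (qExpansion 1 f).map σ * qExpansion 1 B = qExpansion 1 A := by
  have hu := uFun_isCF N
  obtain ⟨m, a, b, ha, hb, hB₀, hrel⟩ := exists_lagrange_relation N hu (uFun_slash_ne N) f
  obtain ⟨μ, s, hμ, hs, hmon⟩ := exists_monic_relation N f
  have ka : ∀ i ∈ Finset.range (m + 1),
      ∃ G : ℍ → ℂ, IsMF 𝒮ℒ (k + 12 * ((m : ℤ) - i)) G ∧ Tw σ (a i) G :=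
    fun i hi => exists_tw_levelOne σ (ha i hi)
  have kb : ∀ i ∈ Finset.range (m + 1),
      ∃ G : ℍ → ℂ, IsMF 𝒮ℒ (12 * ((m : ℤ) - i)) G ∧ Tw σ (b i) G :=
    fun i hi => exists_tw_levelOne σ (hb i hi)
  have ks : ∀ j ∈ Finset.Icc 1 μ, ∃ G : ℍ → ℂ, IsCF 𝒮ℒ (k * j) G ∧ Tw σ (s j) G :=
    fun j hj => exists_tw_levelOne_cusp σ (hs j hj)
  choose! a' ha'1 ha'2 using ka
  choose! b' hb'1 hb'2 using kb
  choose! s' hs'1 hs'2 using ks
  have hutw := tw_uFun N σ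
  have huMF : IsMF (Gamma0 N : Subgroup (GL (Fin 2) ℝ)) 12 (uFun N) := isMF_of_isCF hu
  have hAtw : Tw σ (∑ i ∈ Finset.range (m + 1), a i * uFun N ^ i)
      (∑ i ∈ Finset.range (m + 1), a' i * uFun N ^ i) :=
    Tw.sum _ _ _ fun i hi => (ha'2 i hi).mul (hutw.pow i)
  have hBtw : Tw σ (∑ i ∈ Finset.range (m + 1), b i * uFun N ^ i)
      (∑ i ∈ Finset.range (m + 1), b' i * uFun N ^ i) :=
    Tw.sum _ _ _ fun i hi => (hb'2 i hi).mul (hutw.pow i)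
  have hf : Nice ⇑f := nice_of_cuspForm (one_mem_strictPeriods_Gamma0 N) f
  obtain ⟨h1, h2⟩ := core hf hAtw hBtw hs'2 hrel hmon
  refine ⟨12 * m, ∑ i ∈ Finset.range (m + 1), a' i * uFun N ^ i,
    ∑ i ∈ Finset.range (m + 1), b' i * uFun N ^ i, μ, s', ?_, ?_, ?_, hμ, hs'1, h1, h2⟩
  · refine isMF_sum _ _ fun i hi => ?_
    exact isMF_cast (by ring) (isMF_mul (isMF_of_levelOne N (ha'1 i hi)) (isMF_pow huMF i))
  · refine isMF_sum _ _ fun i hi => ?_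
    exact isMF_cast (by ring) (isMF_mul (isMF_of_levelOne N (hb'1 i hi)) (isMF_pow huMF i))
  · exact fun h => hB₀ (hBtw.eq_zero_iff.mp h)

end Fermat.Agent.S23
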